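import Fermat.Agent.LoweringAtP.Node

/-!
# Reductions of `L(D + nG)` for arbitrary weights

For `div f = m D` and weights `c` with `c_true ^ m f` of scale `η ^ τ` relative to `c_false ^ m f`,
the reductions of `L(D + nG)` are exactly the pairs with the poles allowed by the node lemma, glued
at the nodes where both branches allow the critical order.
-/

noncomputable section

open AlgebraicCurve Fermat.Agent.Red Fermat.Agent.TwoComponent

namespace Fermat.Agent.LoweringAtP

variable {K k F Fk : Type*} [Field K] [Field F] [Algebra K F] [Field k] [Field Fk] [Algebra k Fk]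
variable {A : ValuationSubring K} {π : A →+* k} {S : Type*} [Fintype S]
variable {T : TwoRed A π F Fk S} (Ud : UnitData T)

/-- The two rounded quotients of `x - 1` and `-x - 1` lose at least one, and two if `m ∣ x`. -/
theorem ediv_sub_one_add_ediv_neg {m : ℤ} (hm : 0 < m) (x : ℤ) :
    (x - 1) / m + (-x - 1) / m ≤ -1 ∧ (m ∣ x → (x - 1) / m + (-x - 1) / m ≤ -2) := by
  have h1 := Int.mul_ediv_self_le (x := x - 1) hm.ne'
  have h2 := Int.mul_ediv_self_le (x := -x - 1) hm.ne'
  refine ⟨?_, fun ⟨q, hq⟩ => ?_⟩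
  · by_contra hcon
    push Not at hcon
    nlinarith
  · subst hq
    have e1 : (m * q - 1) / m ≤ q - 1 := by
      by_contra hcon
      push Not at hcon
      nlinarith
    have e2 : (-(m * q) - 1) / m ≤ -q - 1 := by
      by_contra hcon
      push Not at hcon
      nlinarith
    omega

/-- The two rounded quotients of `x` and `-x` sum to zero exactly if `m ∣ x`. -/
theorem ediv_add_ediv_neg {m : ℤ} (hm : 0 < m) (x : ℤ) :
    x / m + -x / m ≤ 0 ∧ (x / m + -x / m = 0 → m ∣ x) ∧ (m ∣ x → x / m + -x / m = 0) := by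
  have h1 := Int.mul_ediv_self_le (x := x) hm.ne'
  have h2 := Int.mul_ediv_self_le (x := -x) hm.ne'
  refine ⟨?_, fun h => ⟨x / m, ?_⟩, fun ⟨q, hq⟩ => ?_⟩
  · by_contra hcon
    push Not at hcon
    nlinarith
  · have h3 : -x / m = -(x / m) := by omega
    rw [h3] at h2
    linarith
  · subst hq
    rw [Int.mul_ediv_cancel_left _ hm.ne', ← mul_neg, Int.mul_ediv_cancel_left _ hm.ne']
    ring

/-- `f y ^ m` lies in `L(m n G)` for `y` in `L(D + n G)` and `div f = m D`. -/
theorem mul_pow_mem_space {m : ℕ} (hm : 0 < m) {D : Divisor K F} {f : F} (hf : f ≠ 0)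
    (hdiv : ∀ P : Place K F, P.ord f = (m : ℤ) * D P) {n : ℕ} {y : F}
    (hy : y ∈ riemannRochSpace (D + n • T.G)) :
    f * y ^ m ∈ riemannRochSpace ((m * n) • T.G) := by
  refine mem_riemannRochSpace_iff.mpr fun P => or_iff_not_imp_left.mpr fun hne => ?_
  have hy0 : y ≠ 0 := fun h0 => hne (by rw [h0, zero_pow hm.ne', mul_zero])
  have h1 := ((mem_riemannRochSpace_iff.mp hy) P).resolve_left hy0
  rw [Finsupp.add_apply, Finsupp.smul_apply, nsmul_eq_mul] at h1
  rw [Finsupp.smul_apply, nsmul_eq_mul, P.ord_mul hf (pow_ne_zero _ hy0), Red.ord_pow, hdiv]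
  push_cast
  nlinarith

/-- The relative scale on each component. -/
def UnitData.wt (τ : ℤ) (i : Bool) : K := bif i then (Ud.η : K) ^ τ else 1

theorem UnitData.wt_ne (τ : ℤ) (i : Bool) : Ud.wt τ i ≠ 0 := by
  cases i
  · exact one_ne_zero
  · exact Ud.η_zpow_ne τ

/-- Torsion data with weights. -/
structure WData (m : ℕ) (D : Divisor K F) (τ : ℤ) where
  /-- `m D = div f` -/
  f : F
  f_ne : f ≠ 0
  div_f : ∀ P : Place K F, P.ord f = (m : ℤ) * D P
  degree_D : Divisor.degree D = 0
  /-- the weights -/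
  c : Bool → K
  c_ne : ∀ i, c i ≠ 0
  /-- the scaled functions -/
  e : ∀ i, (T.R i).O
  e_eq : ∀ i, algebraMap K F (Ud.wt τ i) * (e i : F) = algebraMap K F (c i) ^ m * f
  e_ne : ∀ i, (T.R i).red (e i) ≠ 0

namespace WData

variable {Ud} {m : ℕ} {D : Divisor K F} {τ : ℤ} (d : WData Ud m D τ)

/-- The order of the reduction of the scaled function. -/
def a (i : Bool) (Q : Place k Fk) : ℤ := Q.ord ((T.R i).red (d.e i))

/-- The divisor of the reduction of the scaled function. -/
def aDiv (i : Bool) : Divisor k Fk := (T.rrK.exists_div _ (d.e_ne i)).choose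

theorem aDiv_apply (i : Bool) (Q : Place k Fk) : d.aDiv i Q = d.a i Q :=
  (T.rrK.exists_div _ (d.e_ne i)).choose_spec.1 Q

open scoped Classical in
/-- The nodes at which both branches allow the critical order. -/
def J : Finset S :=
  Finset.univ.filter fun s => ∀ i, (m : ℤ) ∣ d.a i (T.br s i) - sgn i * τ

theorem mem_J {s : S} : s ∈ d.J ↔ ∀ i, (m : ℤ) ∣ d.a i (T.br s i) - sgn i * τ := by
  classical
  simp [J]

open scoped Classical in
/-- The allowed poles, as a function. -/
def Efun (i : Bool) (Q : Place k Fk) : ℤ :=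
  if h : ∃ s, T.br s i = Q then
    (if h.choose ∈ d.J then (d.a i Q - sgn i * τ) / (m : ℤ)
      else (d.a i Q - sgn i * τ - 1) / (m : ℤ))
  else d.a i Q / (m : ℤ)

open scoped Classical in
/-- The allowed poles. -/
def E (i : Bool) : Divisor k Fk :=
  Finsupp.onFinset ((d.aDiv i).support ∪ Finset.univ.image fun s => T.br s i) (d.Efun i)
    fun Q hQ => by
      rw [Finset.mem_union, Finsupp.mem_support_iff, aDiv_apply, Finset.mem_image]
      by_contra hcon
      push Not at hcon
      refine hQ ?_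
      rw [Efun, dif_neg (fun ⟨s, hs⟩ => hcon.2 s (Finset.mem_univ s) hs), hcon.1, Int.zero_ediv]

open scoped Classical in
/-- The twisted divisor at the branches, with the shift by one off the exact set. -/
theorem E_br (s : S) (i : Bool) :
    d.E i (T.br s i) = if s ∈ d.J then (d.a i (T.br s i) - sgn i * τ) / (m : ℤ)
      else (d.a i (T.br s i) - sgn i * τ - 1) / (m : ℤ) := by
  have h : ∃ t, T.br t i = T.br s i := ⟨s, rfl⟩
  rw [E, Finsupp.onFinset_apply, Efun, dif_pos h, T.br_inj i h.choose_spec]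

theorem E_off {i : Bool} {Q : Place k Fk} (hQ : ∀ s, T.br s i ≠ Q) :
    d.E i Q = d.a i Q / (m : ℤ) := by
  rw [E, Finsupp.onFinset_apply, Efun, dif_neg (fun ⟨s, hs⟩ => hQ s hs)]

/-- The inverse data. -/
def dual : WData Ud m (-D) (-τ) where
  f := d.f⁻¹
  f_ne := inv_ne_zero d.f_ne
  div_f P := by rw [P.ord_inv, d.div_f, Finsupp.neg_apply, mul_neg]
  degree_D := by rw [map_neg, d.degree_D, neg_zero]
  c i := (d.c i)⁻¹
  c_ne i := inv_ne_zero (d.c_ne i)
  e i := (inv_mem_O (T.R i) (d.e_ne i)).choose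
  e_eq i := by
    rw [(inv_mem_O (T.R i) (d.e_ne i)).choose_spec.1, map_inv₀, inv_pow, ← mul_inv, ← d.e_eq i,
      mul_inv, ← map_inv₀]
    congr 2
    cases i <;> simp [UnitData.wt, zpow_neg]
  e_ne i := by
    rw [(inv_mem_O (T.R i) (d.e_ne i)).choose_spec.2]
    exact inv_ne_zero (d.e_ne i)

theorem dual_a (i : Bool) (Q : Place k Fk) : d.dual.a i Q = -d.a i Q := by
  show Q.ord ((T.R i).red (inv_mem_O (T.R i) (d.e_ne i)).choose) = _
  rw [(inv_mem_O (T.R i) (d.e_ne i)).choose_spec.2, Q.ord_inv]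
  rfl

theorem dual_J : d.dual.J = d.J := by
  ext s
  rw [mem_J, mem_J]
  refine forall_congr' fun i => ?_
  rw [dual_a, show -d.a i (T.br s i) - sgn i * -τ = -(d.a i (T.br s i) - sgn i * τ) by ring,
    dvd_neg]

/-- The twisted `m`-th power of a section lies in a space of multiples of the polar divisor. -/
theorem pow_mem_space (hm : 0 < m) {n : ℕ} {u : F}
    (hu : u ∈ riemannRochSpace (D + n • T.G)) :
    d.f * u ^ m ∈ riemannRochSpace ((m * n) • T.G) :=
  mul_pow_mem_space hm d.f_ne d.div_f hu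

/-- A pair has the critical order at a branch. -/
def Exact (w : Bool → Fk) (s : S) (i : Bool) : Prop :=
  w i ≠ 0 ∧ d.a i (T.br s i) + (m : ℤ) * (T.br s i).ord (w i) = sgn i * τ

/-- The image lies in the twisted spaces and exactness agrees on the two branches of a node. -/
theorem image_bound (hm : 0 < m) {n : ℕ} {w : Bool → Fk}
    (hw : w ∈ pairImage T.R d.c (riemannRochSpace (D + n • T.G))) :
    (∀ i, w i ∈ riemannRochSpace (d.E i + n • T.Gk i)) ∧
      ∀ s, (d.Exact w s false ↔ d.Exact w s true) := by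
  classical
  obtain ⟨u, hu, h⟩ := hw
  choose v hv hr using h
  have hY := d.pow_mem_space hm hu
  set V : ∀ i, (T.R i).O := fun i => d.e i * v i ^ m with hV
  have hVY : ∀ i, algebraMap K F (Ud.wt τ i) * (V i : F) = d.f * u ^ m := fun i => by
    rw [hV, Subring.coe_mul, SubmonoidClass.coe_pow, ← mul_assoc, d.e_eq, mul_comm _ d.f,
      mul_assoc, ← mul_pow, hv]
  have hVr : ∀ i, (T.R i).red (V i) = (T.R i).red (d.e i) * w i ^ m := fun i => by
    rw [hV, map_mul, map_pow, hr]
  have hV0 : ∀ i, (T.R i).red (V i) ≠ 0 ↔ w i ≠ 0 := fun i => by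
    rw [hVr]
    exact ⟨fun h h0 => h (by rw [h0, zero_pow hm.ne', mul_zero]),
      fun h => mul_ne_zero (d.e_ne i) (pow_ne_zero _ h)⟩
  have hVo : ∀ i (Q : Place k Fk), w i ≠ 0 →
      Q.ord ((T.R i).red (V i)) = d.a i Q + (m : ℤ) * Q.ord (w i) := fun i Q h => by
    rw [hVr, Q.ord_mul (d.e_ne i) (pow_ne_zero _ h), Red.ord_pow]; rfl
  have hnode := fun s => Ud.node_lemma hY one_ne_zero V
    (τ := τ) (by simpa [UnitData.wt] using hVY false) (by simpa [UnitData.wt] using hVY true) s
  have hiff : ∀ s, (d.Exact w s false ↔ d.Exact w s true) := fun s => by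
    have h := (hnode s).2
    constructor
    · rintro ⟨h0, he⟩
      obtain ⟨h1, he1⟩ := h.mp ⟨(hV0 false).mpr h0, by rw [hVo false _ h0, he, sgn_false, one_mul]⟩
      refine ⟨(hV0 true).mp h1, ?_⟩
      rw [← hVo true _ ((hV0 true).mp h1), he1, sgn_true, neg_one_mul]
    · rintro ⟨h0, he⟩
      obtain ⟨h1, he1⟩ := h.mpr ⟨(hV0 true).mpr h0, by
        rw [hVo true _ h0, he, sgn_true, neg_one_mul]⟩
      refine ⟨(hV0 false).mp h1, ?_⟩
      rw [← hVo false _ ((hV0 false).mp h1), he1, sgn_false, one_mul]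
  refine ⟨fun i => mem_riemannRochSpace_iff.mpr fun Q => or_iff_not_imp_left.mpr fun hne => ?_,
    hiff⟩
  have hm' : (0 : ℤ) < m := by exact_mod_cast hm
  rw [Finsupp.add_apply, Finsupp.smul_apply, nsmul_eq_mul]
  by_cases hQ : ∃ s, T.br s i = Q
  · obtain ⟨s, rfl⟩ := hQ
    rw [T.br_regular, mul_zero, add_zero, E_br]
    have h := (hnode s).1 i ((hV0 i).mpr hne)
    rw [hVo i _ hne] at h
    split_ifs with hJ
    · have : -(T.br s i).ord (w i) ≤ (d.a i (T.br s i) - sgn i * τ) / (m : ℤ) :=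
        Int.le_ediv_of_mul_le hm' (by nlinarith)
      omega
    · have hlt : sgn i * τ < d.a i (T.br s i) + (m : ℤ) * (T.br s i).ord (w i) := by
        refine lt_of_le_of_ne h fun heq => hJ (d.mem_J.mpr fun j => ?_)
        have hi : d.Exact w s i := ⟨hne, heq.symm⟩
        have hj : d.Exact w s j := by
          cases i <;> cases j
          · exact hi
          · exact (hiff s).mp hi
          · exact (hiff s).mpr hi
          · exact hi
        exact ⟨-(T.br s j).ord (w j), by linarith [hj.2]⟩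
      have : -(T.br s i).ord (w i) ≤ (d.a i (T.br s i) - sgn i * τ - 1) / (m : ℤ) :=
        Int.le_ediv_of_mul_le hm' (by nlinarith)
      omega
  · push Not at hQ
    rw [d.E_off hQ]
    have h := side_bound T hY (Ud.wt_ne τ i) (hVY i) ((hV0 i).mpr hne) hQ
    rw [hVo i _ hne] at h
    push_cast at h
    have : -Q.ord (w i) - (n : ℤ) * T.Gk i Q ≤ d.a i Q / (m : ℤ) :=
      Int.le_ediv_of_mul_le hm' (by nlinarith)
    omega

/-! ### Shifting the nodes to order zero -/

/-- A function with the prescribed orders at the branches of one component. -/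
theorem exists_shift (i : Bool) :
    ∃ g : Fk, g ≠ 0 ∧ ∀ s, (T.br s i).ord g = d.E i (T.br s i) := by
  classical
  obtain ⟨g, hg, hgo⟩ := Fermat.Agent.FF.exists_ord_eq
    (Finset.univ.image fun s => T.br s i) (fun Q => d.E i Q)
  exact ⟨g, hg, fun s => hgo _ (Finset.mem_image.mpr ⟨s, Finset.mem_univ _, rfl⟩)⟩

/-- The shifting function. -/
def sh (i : Bool) : Fk := (d.exists_shift i).choose

theorem sh_ne (i : Bool) : d.sh i ≠ 0 := (d.exists_shift i).choose_spec.1

theorem ord_sh (s : S) (i : Bool) : (T.br s i).ord (d.sh i) = d.E i (T.br s i) :=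
  (d.exists_shift i).choose_spec.2 s

/-- The shifted pole divisor. -/
def shE (i : Bool) : Divisor k Fk := d.E i - (T.rrK.exists_div _ (d.sh_ne i)).choose

theorem shE_apply (i : Bool) (Q : Place k Fk) : d.shE i Q = d.E i Q - Q.ord (d.sh i) := by
  rw [shE, Finsupp.sub_apply, (T.rrK.exists_div _ (d.sh_ne i)).choose_spec.1 Q]

theorem degree_shE (i : Bool) : Divisor.degree (d.shE i) = Divisor.degree (d.E i) := by
  rw [shE, map_sub, (T.rrK.exists_div _ (d.sh_ne i)).choose_spec.2, sub_zero]

/-- The poles allowed after shifting. -/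
def tw (n : ℕ) (i : Bool) : Divisor k Fk := d.shE i + n • T.Gk i

theorem tw_br (n : ℕ) (s : S) (i : Bool) : d.tw n i (T.br s i) = 0 := by
  rw [tw, Finsupp.add_apply, shE_apply, ord_sh, sub_self, zero_add, T.nsmul_Gk_br]

theorem degree_tw (n : ℕ) (i : Bool) :
    Divisor.degree (d.tw n i) = Divisor.degree (d.E i) + n * Divisor.degree (T.Gk i) := by
  rw [tw, map_add, degree_shE, map_nsmul, nsmul_eq_mul]

/-- From this on everything is non-special. -/
def bigN : ℕ := T.bigN + ∑ i, (Divisor.degree (d.E i)).natAbs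

theorem bigN_le {n : ℕ} (hn : d.bigN ≤ n) (i : Bool) :
    2 * (T.gk : ℤ) - 1 + Fintype.card S ≤ Divisor.degree (d.tw n i) := by
  have h1 := T.degree_Gk_pos i
  have h2 : (Divisor.degree (d.E i)).natAbs ≤ ∑ i, (Divisor.degree (d.E i)).natAbs :=
    Finset.single_le_sum (f := fun i => (Divisor.degree (d.E i)).natAbs) (fun _ _ => Nat.zero_le _)
      (Finset.mem_univ i)
  have h3 : (n : ℤ) ≤ n * Divisor.degree (T.Gk i) := le_mul_of_one_le_right (by omega) (by omega)
  rw [degree_tw]
  unfold bigN TwoRed.bigN at hn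
  omega

/-- The shift, as a linear map. -/
def shift : (Bool → Fk) →ₗ[k] (Bool → Fk) where
  toFun w i := w i * d.sh i
  map_add' v w := funext fun i => add_mul _ _ _
  map_smul' c w := funext fun i => by
    simp [Algebra.smul_def, mul_assoc]

theorem shift_injective : Function.Injective d.shift := fun _ _ h =>
  funext fun i => mul_right_cancel₀ (d.sh_ne i) (congrFun h i)

/-- At a node of `J` the shifted reduction has a nonzero value on a branch exactly if the order
there is critical. -/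
theorem ev_shift_ne_zero_iff (hm : 0 < m) {w : Bool → Fk} {s : S} (hs : s ∈ d.J) {i : Bool}
    (hreg : d.shift w i ∈ (T.br s i).toValuationSubring) :
    ev (T.br s i) (d.shift w i) ≠ 0 ↔ d.Exact w s i := by
  have hm' : (m : ℤ) ≠ 0 := by exact_mod_cast hm.ne'
  rw [Ne, ev_eq_zero_iff (T.deg_br s i) hreg]
  obtain ⟨q, hq⟩ := d.mem_J.mp hs i
  have hE : d.E i (T.br s i) = q := by
    classical
    rw [E_br, if_pos hs, hq, Int.mul_ediv_cancel_left _ hm']
  constructor
  · intro h
    push Not at h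
    have hw0 : w i ≠ 0 := left_ne_zero_of_mul h.1
    refine ⟨hw0, ?_⟩
    have h0 := (mem_place_iff _).mp hreg
    have h' := h.2
    change 0 ≤ (T.br s i).ord (w i * d.sh i) at h0
    change (T.br s i).ord (w i * d.sh i) ≤ 0 at h'
    rw [(T.br s i).ord_mul hw0 (d.sh_ne i), ord_sh, hE] at h0 h'
    rw [show (T.br s i).ord (w i) = -q by omega]
    linarith
  · rintro ⟨hw0, he⟩ (h | h)
    · exact mul_ne_zero hw0 (d.sh_ne i) h
    · change 0 < (T.br s i).ord (w i * d.sh i) at h
      rw [(T.br s i).ord_mul hw0 (d.sh_ne i), ord_sh, hE] at h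
      have : (m : ℤ) * ((T.br s i).ord (w i) + q) = 0 := by linarith
      rcases mul_eq_zero.mp this with h' | h'
      · exact hm' h'
      · omega

theorem shift_bound (hm : 0 < m) {n : ℕ} {w : Bool → Fk}
    (hw : w ∈ pairImage T.R d.c (riemannRochSpace (D + n • T.G))) :
    (∀ i, d.shift w i ∈ riemannRochSpace (d.tw n i)) ∧
      ∀ s ∈ d.J, (ev (T.br s false) (d.shift w false) = 0 ↔
        ev (T.br s true) (d.shift w true) = 0) := by
  obtain ⟨h1, h2⟩ := d.image_bound hm hw
  have hsp : ∀ i, d.shift w i ∈ riemannRochSpace (d.tw n i) := fun i => by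
    refine mem_riemannRochSpace_iff.mpr fun Q => or_iff_not_imp_left.mpr fun hne => ?_
    have hw0 : w i ≠ 0 := left_ne_zero_of_mul hne
    have h := ((mem_riemannRochSpace_iff.mp (h1 i)) Q).resolve_left hw0
    show -(d.tw n i Q) ≤ Q.ord (w i * d.sh i)
    rw [Q.ord_mul hw0 (d.sh_ne i), tw, Finsupp.add_apply, shE_apply]
    rw [Finsupp.add_apply] at h
    omega
  refine ⟨hsp, fun s hs => not_iff_not.mp ?_⟩
  have key : ∀ i, ev (T.br s i) (d.shift w i) ≠ 0 ↔ d.Exact w s i := fun i =>
    d.ev_shift_ne_zero_iff hm hs (TwoRed.mem_of_space (hsp i) (d.tw_br n s i))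
  exact (key false).trans ((h2 s).trans (key true).symm)

/-- Pairs glued along lines at the nodes in `J`. -/
def target (n : ℕ) (ζ : S → k) : Submodule k (Bool → Fk) where
  carrier := {w | (∀ i, w i ∈ riemannRochSpace (d.tw n i)) ∧
    ∀ s ∈ d.J, ev (T.br s false) (w false) = ζ s * ev (T.br s true) (w true)}
  zero_mem' := ⟨fun i => zero_mem _, fun s _ => by simp [ev_zero (T.deg_br s _)]⟩
  add_mem' := by
    rintro v w ⟨h1, h2⟩ ⟨h1', h2'⟩
    refine ⟨fun i => add_mem (h1 i) (h1' i), fun s hs => ?_⟩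
    rw [Pi.add_apply, Pi.add_apply,
      ev_add (T.deg_br s _) (TwoRed.mem_of_space (h1 _) (d.tw_br n s _))
        (TwoRed.mem_of_space (h1' _) (d.tw_br n s _)),
      ev_add (T.deg_br s _) (TwoRed.mem_of_space (h1 _) (d.tw_br n s _))
        (TwoRed.mem_of_space (h1' _) (d.tw_br n s _)), h2 s hs, h2' s hs, mul_add]
  smul_mem' := by
    rintro c w ⟨h1, h2⟩
    refine ⟨fun i => Submodule.smul_mem _ c (h1 i), fun s hs => ?_⟩
    rw [Pi.smul_apply, Pi.smul_apply,
      ev_smul (T.deg_br s _) _ (TwoRed.mem_of_space (h1 _) (d.tw_br n s _)),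
      ev_smul (T.deg_br s _) _ (TwoRed.mem_of_space (h1 _) (d.tw_br n s _)), h2 s hs,
      mul_left_comm]

theorem target_finrank (n : ℕ) (ζ : S → k) (hn : d.bigN ≤ n) :
    FiniteDimensional k (d.target n ζ) ∧
    (Module.finrank k (d.target n ζ) : ℤ) =
      Divisor.degree (d.tw n false) + Divisor.degree (d.tw n true) + 2 - 2 * T.gk - d.J.card := by
  classical
  have := T.rrK.finiteDim (d.tw n false)
  have := T.rrK.finiteDim (d.tw n true)
  let ef := T.evL false (d.tw n false) fun s => d.tw_br n s false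
  let et := T.evL true (d.tw n true) fun s => d.tw_br n s true
  let Φ : riemannRochSpace (d.tw n false) × riemannRochSpace (d.tw n true) →ₗ[k] (d.J → k) :=
    LinearMap.pi fun s : d.J =>
      (LinearMap.proj (s : S)) ∘ₗ ef ∘ₗ LinearMap.fst k _ _ -
        ζ s • ((LinearMap.proj (s : S)) ∘ₗ et ∘ₗ LinearMap.snd k _ _)
  have hΦ : Function.Surjective Φ := fun t => by
    obtain ⟨a, ha⟩ := T.evL_surjective false (d.tw n false) (fun s => d.tw_br n s false)
      (d.bigN_le hn false) (fun s => if h : s ∈ d.J then t ⟨s, h⟩ else 0)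
    refine ⟨(a, 0), funext fun s => ?_⟩
    have := congrFun ha (s : S)
    simp [Φ, ef, this, s.2]
  have hmem : ∀ p, p ∈ LinearMap.ker Φ ↔ ∀ s ∈ d.J, ev (T.br s false) (p.1 : Fk) =
      ζ s * ev (T.br s true) (p.2 : Fk) := fun p => by
    simp [Φ, ef, et, LinearMap.mem_ker, funext_iff, sub_eq_zero, TwoRed.evL_apply]
  let j : riemannRochSpace (d.tw n false) × riemannRochSpace (d.tw n true) →ₗ[k] (Bool → Fk) :=
    LinearMap.pi fun i => match i with
      | false => (riemannRochSpace (d.tw n false)).subtype ∘ₗ LinearMap.fst k _ _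
      | true => (riemannRochSpace (d.tw n true)).subtype ∘ₗ LinearMap.snd k _ _
  have hj : Function.Injective j := fun p q h =>
    Prod.ext (Subtype.ext (congrFun h false)) (Subtype.ext (congrFun h true))
  have himg : (LinearMap.ker Φ).map j = d.target n ζ := by
    ext w
    constructor
    · rintro ⟨p, hp, rfl⟩
      exact ⟨fun i => by cases i <;> simp [j], (hmem p).mp hp⟩
    · rintro ⟨h1, h3⟩
      exact ⟨(⟨w false, h1 false⟩, ⟨w true, h1 true⟩), (hmem _).mpr h3,
        funext fun i => by cases i <;> rfl⟩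
  refine ⟨himg ▸ inferInstance, ?_⟩
  rw [← himg, ← (Submodule.equivMapOfInjective j hj _).finrank_eq]
  have h4 := LinearMap.finrank_range_add_finrank_ker Φ
  rw [LinearMap.range_eq_top.mpr hΦ, finrank_top, Module.finrank_pi, Module.finrank_prod,
    Fintype.card_coe] at h4
  have h1 := T.rrK.ell_eq_of_large (D := d.tw n false) (by have := d.bigN_le hn false; omega)
  have h2 := T.rrK.ell_eq_of_large (D := d.tw n true) (by have := d.bigN_le hn true; omega)
  unfold Red.ell at h1 h2
  omega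

/-- After the shift, the image lies in a target space glued along a line at each node. -/
theorem exists_line (hm : 0 < m) (n : ℕ) :
    ∃ ζ : S → k, (pairImage T.R d.c (riemannRochSpace (D + n • T.G))).map d.shift ≤
      d.target n ζ := by
  classical
  set W := (pairImage T.R d.c (riemannRochSpace (D + n • T.G))).map d.shift with hW
  have hb : ∀ w ∈ W, (∀ i, w i ∈ riemannRochSpace (d.tw n i)) ∧
      ∀ s ∈ d.J, (ev (T.br s false) (w false) = 0 ↔ ev (T.br s true) (w true) = 0) := by
    rintro _ ⟨w, hw, rfl⟩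
    exact d.shift_bound hm hw
  have hline : ∀ s, ∃ z : k, s ∈ d.J → ∀ w ∈ W,
      ev (T.br s false) (w false) = z * ev (T.br s true) (w true) := by
    intro s
    by_cases hs : s ∈ d.J
    · obtain ⟨z, hz⟩ := T.exists_node_line
        (fun w hw i => TwoRed.mem_of_space ((hb w hw).1 i) (d.tw_br n s i))
        fun w hw => ((hb w hw).2 s hs).mpr
      exact ⟨z, fun _ => hz⟩
    · exact ⟨0, fun h => (hs h).elim⟩
  choose ζ hζ using hline
  exact ⟨ζ, fun w hw => ⟨(hb w hw).1, fun s hs => hζ s hs w hw⟩⟩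

theorem finrank_image (n : ℕ) (hn : T.bigN ≤ n) :
    (Module.finrank k ((pairImage T.R d.c (riemannRochSpace (D + n • T.G))).map d.shift) : ℤ) =
      n * (Divisor.degree (T.Gk false) + Divisor.degree (T.Gk true)) + 2 - 2 * T.gk -
        Fintype.card S := by
  have := T.rrF.finiteDim (D + n • T.G)
  rw [← (Submodule.equivMapOfInjective _ d.shift_injective _).finrank_eq,
    T.finrank_pairImage d.c_ne]
  have h := T.rrF.ell_eq_of_large (D := D + n • T.G)
    (by rw [map_add, d.degree_D, zero_add]; exact T.bigN_le_degree_G hn)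
  rw [map_add, d.degree_D, zero_add, map_nsmul, T.degree_G, nsmul_eq_mul] at h
  have := T.genus_eq
  unfold Red.ell at h
  omega

theorem degree_E_ge (hm : 0 < m) :
    (d.J.card : ℤ) - Fintype.card S ≤ Divisor.degree (d.E false) + Divisor.degree (d.E true) := by
  obtain ⟨ζ, hζ⟩ := d.exists_line hm d.bigN
  obtain ⟨hfin, hdim⟩ := d.target_finrank d.bigN ζ le_rfl
  have h1 := Submodule.finrank_mono hζ
  have h2 := d.finrank_image d.bigN (Nat.le_add_right _ _)
  rw [degree_tw, degree_tw] at hdim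
  rw [mul_add] at h2
  omega

/-- The lower and upper bounds meet: off the nodes the orders are divisible by `m`, outside `J` no
branch allows the critical order, and the degrees of the allowed poles add up to `#J - #S`. -/
theorem excess_eq_zero (hm : 0 < m) :
    (∀ i Q, (∀ s, T.br s i ≠ Q) → (m : ℤ) ∣ d.a i Q) ∧
      (∀ s ∉ d.J, ∀ i, ¬ (m : ℤ) ∣ d.a i (T.br s i) - sgn i * τ) ∧
      Divisor.degree (d.E false) + Divisor.degree (d.E true) =
        (d.J.card : ℤ) - Fintype.card S := by
  classical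
  have hm' : (0 : ℤ) < m := by exact_mod_cast hm
  let N : Bool → Divisor k Fk := fun i => ∑ s ∈ Finset.univ \ d.J, Finsupp.single (T.br s i) 1
  have hN_br : ∀ s i, N i (T.br s i) = if s ∈ d.J then 0 else 1 := fun s i => by
    simp only [N, Finsupp.finsetSum_apply, Finsupp.single_apply]
    rw [Finset.sum_congr rfl (g := fun t => if t = s then (1 : ℤ) else 0) fun t _ => by
      simp [(T.br_inj i).eq_iff]]
    rw [Finset.sum_ite_eq']
    by_cases hs : s ∈ d.J <;> simp [hs]
  have hN_off : ∀ i Q, (∀ s, T.br s i ≠ Q) → N i Q = 0 := fun i Q hQ => by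
    simp only [N, Finsupp.finsetSum_apply]
    exact Finset.sum_eq_zero fun s _ => Finsupp.single_eq_of_ne (hQ s).symm
  have hNdeg : ∀ i, Divisor.degree (N i) = (Fintype.card S : ℤ) - d.J.card := fun i => by
    simp only [N, map_sum, Divisor.degree_single, T.rrK.deg_one, Finset.sum_const]
    rw [Finset.card_univ_sdiff, nsmul_eq_mul, Nat.cast_sub (Finset.card_le_univ _)]
    simp
  let Z : Bool → Divisor k Fk := fun i => d.E i + d.dual.E i + N i
  have hZ_br : ∀ s i, Z i (T.br s i) ≤ 0 ∧
      (s ∉ d.J → (m : ℤ) ∣ d.a i (T.br s i) - sgn i * τ → Z i (T.br s i) < 0) := fun s i => by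
    simp only [Z, Finsupp.add_apply, hN_br, E_br, dual_J, dual_a]
    rw [show -d.a i (T.br s i) - sgn i * -τ = -(d.a i (T.br s i) - sgn i * τ) by ring]
    generalize d.a i (T.br s i) - sgn i * τ = x
    by_cases hs : s ∈ d.J
    · simp only [hs, if_true]
      exact ⟨by have := (ediv_add_ediv_neg hm' x).1; omega, fun h => (h trivial).elim⟩
    · simp only [hs, if_false]
      have h := ediv_sub_one_add_ediv_neg hm' x
      exact ⟨by omega, fun _ hdvd => by have := h.2 hdvd; omega⟩
  have hZ_off : ∀ i Q, (∀ s, T.br s i ≠ Q) → Z i Q ≤ 0 ∧ (Z i Q = 0 → (m : ℤ) ∣ d.a i Q) :=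
    fun i Q hQ => by
      simp only [Z, Finsupp.add_apply, hN_off i Q hQ, d.E_off hQ, d.dual.E_off hQ, dual_a]
      have h := ediv_add_ediv_neg hm' (d.a i Q)
      exact ⟨by omega, fun h0 => h.2.1 (by omega)⟩
  have hle : ∀ i Q, Z i Q ≤ 0 := fun i Q => by
    by_cases hQ : ∃ s, T.br s i = Q
    · obtain ⟨s, rfl⟩ := hQ; exact (hZ_br s i).1
    · push Not at hQ; exact (hZ_off i Q hQ).1
  have hdeg : ∀ X : Divisor k Fk, (∀ Q, X Q ≤ 0) → Divisor.degree X ≤ 0 ∧
      (Divisor.degree X = 0 → ∀ Q, X Q = 0) := fun X hX => by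
    have hn : ∀ Q, 0 ≤ (-X) Q := fun Q => by rw [Finsupp.neg_apply]; linarith [hX Q]
    refine ⟨by have := degree_nonneg_of_nonneg hn; rw [map_neg] at this; omega, fun h0 Q => ?_⟩
    rw [← neg_eq_zero, ← Finsupp.neg_apply,
      T.rrK.eq_zero_of_degree_eq_zero hn (by rw [map_neg, h0, neg_zero]), Finsupp.zero_apply]
  have h1 := d.degree_E_ge hm
  have h2 := d.dual.degree_E_ge hm
  rw [dual_J] at h2
  have hf := hdeg _ (hle false)
  have ht := hdeg _ (hle true)
  have hsum : ∀ i, Divisor.degree (Z i) = Divisor.degree (d.E i) + Divisor.degree (d.dual.E i) +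
      ((Fintype.card S : ℤ) - d.J.card) := fun i => by
    simp only [Z, map_add, hNdeg]
  rw [hsum] at hf ht
  have hf0 := hf.2 (by omega)
  have ht0 := ht.2 (by omega)
  have hz : ∀ i Q, Z i Q = 0 := fun i Q => by cases i; exacts [hf0 Q, ht0 Q]
  refine ⟨fun i Q hQ => (hZ_off i Q hQ).2 (hz i Q), fun s hs i h => ?_, by omega⟩
  have := (hZ_br s i).2 hs h
  rw [hz] at this
  exact lt_irrefl _ this

theorem mem_J_of_dvd (hm : 0 < m) {s : S} {i : Bool}
    (h : (m : ℤ) ∣ d.a i (T.br s i) - sgn i * τ) : s ∈ d.J :=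
  by_contra fun hs => (d.excess_eq_zero hm).2.1 s hs i h

/-- A glued pair with value `1` on the second branch of every node. -/
theorem exists_target_values {n : ℕ} (hn : d.bigN ≤ n) (ζ : S → k) :
    ∃ w ∈ d.target n ζ, (∀ t, ev (T.br t false) (w false) = ζ t) ∧
      ∀ t, ev (T.br t true) (w true) = 1 := by
  obtain ⟨b, hb⟩ := T.evL_surjective true (d.tw n true) (fun s => d.tw_br n s true)
    (d.bigN_le hn true) (fun _ => 1)
  obtain ⟨a, ha⟩ := T.evL_surjective false (d.tw n false) (fun s => d.tw_br n s false)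
    (d.bigN_le hn false) ζ
  have hb' : ∀ t, ev (T.br t true) (b : Fk) = 1 := fun t => congrFun hb t
  have ha' : ∀ t, ev (T.br t false) (a : Fk) = ζ t := fun t => congrFun ha t
  exact ⟨fun i => bif i then (b : Fk) else (a : Fk),
    ⟨fun i => by cases i <;> simp, fun t _ => by simp [ha', hb']⟩, ha', hb'⟩

/-- **Exactness**: for large `n` the shifted image is the whole glued target. -/
theorem image_eq (hm : 0 < m) {n : ℕ} (hn : d.bigN ≤ n) :
    ∃ ζ : S → k, (∀ s ∈ d.J, ζ s ≠ 0) ∧
      (pairImage T.R d.c (riemannRochSpace (D + n • T.G))).map d.shift = d.target n ζ := by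
  classical
  obtain ⟨ζ, hζ⟩ := d.exists_line hm n
  obtain ⟨hfin, hdim⟩ := d.target_finrank n ζ hn
  have h2 := d.finrank_image n (le_trans (Nat.le_add_right _ _) hn)
  obtain ⟨-, -, h3⟩ := d.excess_eq_zero hm
  rw [degree_tw, degree_tw] at hdim
  rw [mul_add] at h2
  have heq := Submodule.eq_of_le_of_finrank_le hζ (by omega)
  refine ⟨ζ, fun s hs h0 => ?_, heq⟩
  obtain ⟨w, hwt, ha', hb'⟩ := d.exists_target_values hn ζ
  rw [← heq] at hwt
  obtain ⟨w', hw', he⟩ := hwt
  have h := ((d.shift_bound hm hw').2 s hs)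
  rw [he] at h
  simp only [ha', hb', h0, one_ne_zero, iff_false,
    not_true_eq_false] at h

/-- A reduction with critical order at a node of `J`. -/
theorem exists_exact (hm : 0 < m) {n : ℕ} (hn : d.bigN ≤ n) {s : S} (hs : s ∈ d.J) :
    ∃ w ∈ pairImage T.R d.c (riemannRochSpace (D + n • T.G)), ∀ i, d.Exact w s i := by
  classical
  obtain ⟨ζ, hζ0, heq⟩ := d.image_eq hm hn
  obtain ⟨W, hWt, -, hb'⟩ := d.exists_target_values hn ζ
  rw [← heq] at hWt
  obtain ⟨w, hw, he⟩ := hWt
  have hreg := TwoRed.mem_of_space ((d.shift_bound hm hw).1 true) (d.tw_br n s true)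
  have hexT : d.Exact w s true :=
    (d.ev_shift_ne_zero_iff hm hs hreg).mp (by rw [he, hb']; exact one_ne_zero)
  refine ⟨w, hw, fun i => ?_⟩
  cases i
  · exact ((d.image_bound hm hw).2 s).mpr hexT
  · exact hexT

/-- A reduction with exact order at a smooth point. -/
theorem exists_exact_off (hm : 0 < m) {i : Bool} {Q : Place k Fk} (hQ : ∀ s, T.br s i ≠ Q) :
    ∃ n₀, d.bigN ≤ n₀ ∧ ∀ n, n₀ ≤ n →
      ∃ w ∈ pairImage T.R d.c (riemannRochSpace (D + n • T.G)), w i ≠ 0 ∧
        Q.ord (w i) = -(d.a i Q / (m : ℤ)) - (n : ℤ) * T.Gk i Q := by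
  classical
  obtain ⟨n₁, hn₁⟩ := exists_mem_notMem_sub_single T i (T.brDiv i - d.shE i) Q
  refine ⟨max n₁ d.bigN, le_max_right _ _, fun n hn => ?_⟩
  obtain ⟨δ, hδ, hne⟩ := hn₁ n (le_trans (le_max_left _ _) hn)
  obtain ⟨hδ0, hord⟩ := ord_eq_of_notMem_sub_single hδ hne
  obtain ⟨ζ, -, heq⟩ := d.image_eq hm (le_trans (le_max_right _ _) hn)
  have hδ' : δ ∈ riemannRochSpace (d.tw n i) := RR.space_mono (fun R => by
    simp only [tw, Finsupp.sub_apply, Finsupp.add_apply]
    have := T.brDiv_nonneg i R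
    omega) hδ
  have hbr : ∀ s, ev (T.br s i) δ = 0 := fun s => by
    refine (ev_eq_zero_iff (T.deg_br s i) (TwoRed.mem_of_space hδ' (d.tw_br n s i))).mpr
      (Or.inr ?_)
    have h := ((mem_riemannRochSpace_iff.mp hδ) (T.br s i)).resolve_left hδ0
    have h' := d.tw_br n s i
    simp only [tw, Finsupp.sub_apply, Finsupp.add_apply, T.nsmul_Gk_br, T.brDiv_br] at h h'
    omega
  set W : Bool → Fk := fun j => if j = i then δ else 0 with hW
  have hWt : W ∈ d.target n ζ := by
    refine ⟨fun j => ?_, fun s _ => ?_⟩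
    · by_cases hj : j = i
      · subst hj; simpa [hW] using hδ'
      · simp [hW, hj]
    · cases i <;> simp [hW, hbr, ev_zero (T.deg_br s _)]
  rw [← heq] at hWt
  obtain ⟨w, hw, he⟩ := hWt
  have hwi : w i * d.sh i = δ := by
    have := congrFun he i
    simpa [hW, shift] using this
  have hw0 : w i ≠ 0 := fun h => hδ0 (by rw [← hwi, h, zero_mul])
  refine ⟨w, hw, hw0, ?_⟩
  rw [← hwi, Q.ord_mul hw0 (d.sh_ne i)] at hord
  rw [← d.E_off hQ]
  simp only [Finsupp.sub_apply, shE_apply, T.brDiv_other i hQ, Finsupp.smul_apply,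
    nsmul_eq_mul] at hord
  omega

end WData

end Fermat.Agent.LoweringAtP
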