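import Fermat.Agent.LoweringAtP.Engine

/-!
# Mazur's principle at `p`, abstract form

The divisor class of `D` is trivial, or else one of the alternatives `R` produced by the Hecke
inputs holds (in the application, modularity of level `M`).
-/

noncomputable section

open AlgebraicCurve Fermat.Agent.Red Fermat.Agent.TwoComponent

namespace Fermat.Agent.LoweringAtP

variable {K k F Fk : Type*} [Field K] [Field F] [Algebra K F] [Field k] [Field Fk] [Algebra k Fk]
variable {A : ValuationSubring K} {π : A →+* k} {S : Type*} [Fintype S]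
variable {T : TwoRed A π F Fk S} {Ud : UnitData T}

/-- All slopes of `f` are congruent modulo `m`. -/
def SlopesCongr (T : TwoRed A π F Fk S) (m : ℕ) (f : F) : Prop :=
  ∀ s t : S, (m : ℤ) ∣
    redOrd (T.R false) f (T.br s false) - redOrd (T.R false) f (T.br t false)

/-- All slopes of `f` vanish modulo `m`. -/
def SlopesZero (T : TwoRed A π F Fk S) (m : ℕ) (f : F) : Prop :=
  ∀ s : S, (m : ℤ) ∣ redOrd (T.R false) f (T.br s false)

/-- Both reductions of `f` are `m`-th powers up to constants. -/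
def RedPowers (T : TwoRed A π F Fk S) (m : ℕ) (f : F) : Prop :=
  ∀ i (c : K) (u : (T.R i).O), (T.R i).red u ≠ 0 → f = algebraMap K F c * (u : F) →
    ∃ (a : k) (h : Fk), (T.R i).red u = algebraMap k Fk a * h ^ m

/-- Congruent slopes which vanish modulo `m` give reduced divisors divisible by `m`. -/
theorem RatData.redOrd_dvd_of_slopesZero [IsAlgClosed K] (Q : RatData Ud) {m : ℕ} (hm : 0 < m)
    {D : Divisor K F} (hD : Q.Spans D) (hdeg : Divisor.degree D = 0) {f : F} (hfF : f ∈ Q.F₀)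
    (hf : f ≠ 0) (hdiv : ∀ P : Place K F, P.ord f = (m : ℤ) * D P) (h0 : SlopesZero T m f)
    (i : Bool) (P : Place k Fk) : (m : ℤ) ∣ redOrd (T.R i) f P := by
  obtain ⟨hoff, hsum⟩ := Q.redOrd_dvd hm hD hdeg hfF hf hdiv
  by_cases h : ∀ s, T.br s i ≠ P
  · exact hoff i P h
  push Not at h
  obtain ⟨s, rfl⟩ := h
  cases i
  · exact h0 s
  · exact (dvd_add_right (h0 s)).mp (hsum s)

namespace EisData

variable {Q₀ : RatData Ud} {p : ℕ} (X : EisData Q₀ p)

/-- The functions rational over `K₀(ϖ)` span as soon as those rational over `K₀` do. -/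
theorem spans_of_rat {D : Divisor K F} (hD : Q₀.Spans D) : X.ratData.Spans D := fun n =>
  (hD n).trans (Submodule.span_mono fun _ ⟨hu, hu'⟩ => ⟨X.mem_field_of_rat hu, hu'⟩)

/-- **Mazur's principle at `p`**, once the slopes vanish. -/
theorem mazur [IsAlgClosed K] [Nonempty S] (hp : p.Prime) (hpk : (p : k) = 0) (hp2 : p ≠ 2)
    {W : A} (hW : π W ≠ 0) (hpW : (p : K) = (W : K) * (X.ϖ : K) ^ p) (h00 : Q₀.Spans 0)
    {D : Divisor K F} (hD : X.ratData.Spans D) (hdeg : Divisor.degree D = 0)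
    {f : F} (hfF : f ∈ X.field) (hf : f ≠ 0) (hdiv : ∀ P : Place K F, P.ord f = (p : ℤ) * D P)
    {R : Prop} (hzero : SlopesZero T p f)
    (hred : (∀ i P, (p : ℤ) ∣ redOrd (T.R i) f P) → R ∨ RedPowers T p f)
    {F' : Type*} [Field F'] [Algebra K F'] (ns : ∀ i, NormSide X i F')
    (hnorm : R ∨ ∀ i, ∃ (b : K), ∃ h ∈ (ns i).F₁, (ns i).N f = algebraMap K F' b * h ^ p) :
    R ∨ D ∈ Divisor.principal (K := K) (F := F) := by
  rcases hred (X.ratData.redOrd_dvd_of_slopesZero X.p_pos hD hdeg hfF hf hdiv hzero) with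
    h | hpow
  · exact Or.inl h
  rcases hnorm with h | hN
  · exact Or.inl h
  exact Or.inr (X.principal_of_pth_powers hp hpk hp2 hW hpW h00 hD hdeg hfF hf hdiv hpow ns hN)

/-- **The peu ramifié case**: `f` is rational over `K₀(ϖ)` and `E ≠ 0`. -/
theorem mazur_peu [IsAlgClosed K] [Nonempty S] (hp : p.Prime) [CharP k p] (hp2 : p ≠ 2)
    {W : A} (hW : π W ≠ 0) (hpW : (p : K) = (W : K) * (X.ϖ : K) ^ p)
    (h00 : Q₀.Spans 0) (hE : X.E ≠ 0)
    {D : Divisor K F} (hD : X.ratData.Spans D) (hdeg : Divisor.degree D = 0)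
    {f : F} (hfF : f ∈ X.field) (hf : f ≠ 0) (hdiv : ∀ P : Place K F, P.ord f = (p : ℤ) * D P)
    {R : Prop} (hlam : SlopesCongr T p f → SlopesZero T p f)
    (hred : (∀ i P, (p : ℤ) ∣ redOrd (T.R i) f P) → R ∨ RedPowers T p f)
    {F' : Type*} [Field F'] [Algebra K F'] (ns : ∀ i, NormSide X i F')
    (hnorm : R ∨ ∀ i, ∃ (b : K), ∃ h ∈ (ns i).F₁, (ns i).N f = algebraMap K F' b * h ^ p) :
    R ∨ D ∈ Divisor.principal (K := K) (F := F) :=
  X.mazur hp (CharP.cast_eq_zero k p) hp2 hW hpW h00 hD hdeg hfF hf hdiv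
    (hlam (X.slopes_congr h00 hE hD hdeg hfF hf hdiv)) hred ns hnorm

/-- **The unramified case**: `f` is rational over `K₀`. -/
theorem mazur_unr [IsAlgClosed K] [Nonempty S] (hp : p.Prime) (hpk : (p : k) = 0) (hp2 : p ≠ 2)
    {W : A} (hW : π W ≠ 0) (hpW : (p : K) = (W : K) * (X.ϖ : K) ^ p) (h00 : Q₀.Spans 0)
    {D : Divisor K F} (hD : Q₀.Spans D) (hdeg : Divisor.degree D = 0)
    {f : F} (hfF : f ∈ Q₀.F₀) (hf : f ≠ 0) (hdiv : ∀ P : Place K F, P.ord f = (p : ℤ) * D P)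
    {R : Prop} (hlam : SlopesCongr T p f → SlopesZero T p f)
    (hred : (∀ i P, (p : ℤ) ∣ redOrd (T.R i) f P) → R ∨ RedPowers T p f)
    {F' : Type*} [Field F'] [Algebra K F'] (ns : ∀ i, NormSide X i F')
    (hnorm : R ∨ ∀ i, ∃ (b : K), ∃ h ∈ (ns i).F₁, (ns i).N f = algebraMap K F' b * h ^ p) :
    R ∨ D ∈ Divisor.principal (K := K) (F := F) :=
  X.mazur hp hpk hp2 hW hpW h00 (X.spans_of_rat hD) hdeg (X.mem_field_of_rat hfF) hf hdiv
    (hlam (Q₀.slopes_congr X.e_eq X.p_pos hD hdeg hfF hf hdiv)) hred ns hnorm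

end EisData

end Fermat.Agent.LoweringAtP
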