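import Fermat.Agent.LoweringAtP.Lift

/-!
# The node lemma

With the modular unit `U` (no zeros or poles off the poles of `x`, orders `±κ` at the two branches
of every node, scales `1` and `η ^ κ`), a function regular off the poles of `x` which is bounded by
`η ^ τ` on the second component vanishes to order `≥ τ` on the first branch of every node, with
equality on one branch if and only if on the other.
-/

noncomputable section

open AlgebraicCurve Fermat.Agent.Red Fermat.Agent.TwoComponent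

namespace Fermat.Agent.LoweringAtP

variable {K k F Fk : Type*} [Field K] [Field F] [Algebra K F] [Field k] [Field Fk] [Algebra k Fk]
variable {A : ValuationSubring K} {π : A →+* k} {S : Type*} [Fintype S]

/-- A unit off the poles of `x` measuring the thickness of the nodes. -/
structure UnitData (T : TwoRed A π F Fk S) where
  /-- the thickness -/
  η : A
  η_ne : (η : K) ≠ 0
  π_η : π η = 0
  /-- the order of the unit at the nodes -/
  κ : ℕ
  κ_pos : 0 < κ
  /-- the unit -/
  U : F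
  U_ne : U ≠ 0
  ord_U : ∀ P : Place K F, T.G P = 0 → P.ord U = 0
  /-- its scalings on the two components -/
  v : ∀ i, (T.R i).O
  v_false : ((v false : (T.R false).O) : F) = U
  v_true : algebraMap K F ((η : K) ^ κ) * ((v true : (T.R true).O) : F) = U
  red_ne : ∀ i, (T.R i).red (v i) ≠ 0
  ord_false : ∀ s, (T.br s false).ord ((T.R false).red (v false)) = κ
  ord_true : ∀ s, (T.br s true).ord ((T.R true).red (v true)) = -(κ : ℤ)

/-- The sign of a component. -/
def sgn (i : Bool) : ℤ := bif i then -1 else 1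

@[simp] theorem sgn_false : sgn false = 1 := rfl
@[simp] theorem sgn_true : sgn true = -1 := rfl

variable {T : TwoRed A π F Fk S} (Ud : UnitData T)

namespace UnitData

theorem ord_v (s : S) (i : Bool) :
    (T.br s i).ord ((T.R i).red (Ud.v i)) = sgn i * Ud.κ := by
  cases i
  · rw [Ud.ord_false, sgn_false, one_mul]
  · rw [Ud.ord_true, sgn_true, neg_one_mul]

theorem η_zpow_ne (τ : ℤ) : (Ud.η : K) ^ τ ≠ 0 := zpow_ne_zero τ Ud.η_ne

theorem U_zpow_mem (τ : ℤ) : ∃ n : ℕ, Ud.U ^ τ ∈ riemannRochSpace (n • T.G) := by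
  obtain ⟨D, hD, -⟩ := T.rrF.exists_div _ Ud.U_ne
  refine ⟨τ.natAbs * D.support.sup fun P => (D P).natAbs,
    mem_riemannRochSpace_iff.mpr fun P => Or.inr ?_⟩
  rw [Place.ord_zpow, Finsupp.smul_apply, nsmul_eq_mul, ← hD]
  by_cases hG : T.G P = 0
  · have h0 : D P = 0 := by rw [hD, Ud.ord_U P hG]
    rw [h0, mul_zero, hG, mul_zero, neg_zero]
  have hG1 : 1 ≤ T.G P := by have := T.G_nonneg P; omega
  by_cases hs : P ∈ D.support
  swap
  · rw [Finsupp.notMem_support_iff.mp hs, mul_zero, Left.neg_nonpos_iff]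
    exact mul_nonneg (Int.natCast_nonneg _) (T.G_nonneg P)
  have h1 : (D P).natAbs ≤ D.support.sup fun P => (D P).natAbs :=
    Finset.le_sup (f := fun P => (D P).natAbs) hs
  set M := D.support.sup fun P => (D P).natAbs
  have h2 : -((τ.natAbs : ℤ) * M) ≤ τ * D P := by
    have : |τ * D P| ≤ (τ.natAbs : ℤ) * M := by
      rw [abs_mul, ← Int.natCast_natAbs τ]
      refine mul_le_mul_of_nonneg_left ?_ (Int.natCast_nonneg _)
      rw [← Int.natCast_natAbs]
      exact_mod_cast h1
    exact (abs_le.mp this).1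
  have h3 : (τ.natAbs : ℤ) * M * 1 ≤ (τ.natAbs : ℤ) * M * T.G P :=
    mul_le_mul_of_nonneg_left hG1 (mul_nonneg (Int.natCast_nonneg _) (Int.natCast_nonneg _))
  push_cast at h2 h3 ⊢
  linarith

/-- **The node lemma.** -/
theorem node_lemma {n : ℕ} {u : F} (hu : u ∈ riemannRochSpace (n • T.G)) {c : K} (hc : c ≠ 0)
    {τ : ℤ} (v : ∀ i, (T.R i).O) (h0 : algebraMap K F c * (v false : F) = u)
    (h1 : algebraMap K F (c * (Ud.η : K) ^ τ) * (v true : F) = u) (s : S) :
    (∀ i, (T.R i).red (v i) ≠ 0 → sgn i * τ ≤ (T.br s i).ord ((T.R i).red (v i))) ∧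
      (((T.R false).red (v false) ≠ 0 ∧ (T.br s false).ord ((T.R false).red (v false)) = τ) ↔
        ((T.R true).red (v true) ≠ 0 ∧ (T.br s true).ord ((T.R true).red (v true)) = -τ)) := by
  choose w hw hwr using fun i => inv_mem_O (T.R i) (u := Ud.v i) (Ud.red_ne i)
  obtain ⟨l, hl⟩ := Ud.U_zpow_mem (-τ)
  -- powers of the inverse
  have hpow : ∀ i, ∃ r : (T.R i).O, (r : F) = ((Ud.v i : (T.R i).O) : F) ^ (-τ) ∧
      (T.R i).red r = (T.R i).red (Ud.v i) ^ (-τ) := by
    intro i
    obtain ⟨N, hN⟩ := Int.eq_nat_or_neg (-τ)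
    rcases hN with hN | hN
    · refine ⟨Ud.v i ^ N, ?_, ?_⟩
      · rw [hN, zpow_natCast, SubmonoidClass.coe_pow]
      · rw [hN, zpow_natCast, map_pow]
    · refine ⟨w i ^ N, ?_, ?_⟩
      · rw [hN, zpow_neg, zpow_natCast, SubmonoidClass.coe_pow, hw, inv_pow]
      · rw [hN, zpow_neg, zpow_natCast, map_pow, hwr, inv_pow]
  choose r hr hrr using hpow
  set Z : F := algebraMap K F (c ^ Ud.κ)⁻¹ * (u ^ Ud.κ * Ud.U ^ (-τ)) with hZ
  have hZL : Z ∈ riemannRochSpace ((Ud.κ * n + l) • T.G) := by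
    rw [hZ, ← Algebra.smul_def]
    refine Submodule.smul_mem _ _ ?_
    have h := T.mem_space_mul (D := 0) (y := u ^ Ud.κ)
      (by rw [zero_add]; exact T.mem_space_pow hu Ud.κ) hl
    rwa [zero_add] at h
  set z : ∀ i, (T.R i).O := fun i => v i ^ Ud.κ * r i with hz
  have hcκ : algebraMap K F (c ^ Ud.κ) ≠ 0 := (map_ne_zero _).mpr (pow_ne_zero _ hc)
  have hzF : ∀ i, (z i : F) = Z := by
    intro i
    rw [hz, Subring.coe_mul, SubmonoidClass.coe_pow, hr, hZ, map_inv₀]
    cases i
    · rw [← h0, ← Ud.v_false, mul_pow, ← map_pow]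
      field_simp
    · rw [← h1, ← Ud.v_true, mul_pow, mul_zpow, ← map_pow, ← map_zpow₀, mul_pow, map_mul]
      have e : algebraMap K F (((Ud.η : K) ^ τ) ^ Ud.κ) *
          algebraMap K F (((Ud.η : K) ^ Ud.κ) ^ (-τ)) = 1 := by
        rw [← map_mul, ← zpow_natCast ((Ud.η : K) ^ τ), ← zpow_natCast (Ud.η : K), ← zpow_mul,
          ← zpow_mul, ← zpow_add₀ Ud.η_ne, show τ * (Ud.κ : ℤ) + (Ud.κ : ℤ) * -τ = 0 by ring,
          zpow_zero, map_one]
      field_simp
      linear_combination -((v true : F) ^ Ud.κ * ((Ud.v true : (T.R true).O) : F) ^ (-τ)) * e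
  obtain ⟨-, hreg, hglue⟩ := T.bound' hZL z hzF
  dsimp only at hreg hglue
  have hred : ∀ i, (T.R i).red (z i) =
      (T.R i).red (v i) ^ Ud.κ * (T.R i).red (Ud.v i) ^ (-τ) := fun i => by
    rw [hz, map_mul, map_pow, hrr]
  have hordz : ∀ i, (T.R i).red (v i) ≠ 0 → (T.br s i).ord ((T.R i).red (z i)) =
      (Ud.κ : ℤ) * ((T.br s i).ord ((T.R i).red (v i)) - sgn i * τ) := fun i hi => by
    rw [hred, (T.br s i).ord_mul (pow_ne_zero _ hi) (zpow_ne_zero _ (Ud.red_ne i)), Red.ord_pow,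
      Place.ord_zpow, Ud.ord_v]
    ring
  have hκ : (0 : ℤ) < Ud.κ := by exact_mod_cast Ud.κ_pos
  have hnn : ∀ i, (T.R i).red (v i) ≠ 0 → sgn i * τ ≤ (T.br s i).ord ((T.R i).red (v i)) := by
    intro i hi
    have h := (mem_place_iff _).mp (hreg s i)
    rw [hordz i hi] at h
    nlinarith
  have hiff : ∀ i, ((T.R i).red (v i) ≠ 0 ∧
      (T.br s i).ord ((T.R i).red (v i)) = sgn i * τ) ↔
        ev (T.br s i) ((T.R i).red (z i)) ≠ 0 := by
    intro i
    rw [Ne, Ne, ev_eq_zero_iff (T.deg_br s i) (hreg s i)]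
    constructor
    · rintro ⟨hi, he⟩ (h | h)
      · exact mul_ne_zero (pow_ne_zero _ hi) (zpow_ne_zero _ (Ud.red_ne i)) (hred i ▸ h)
      · rw [hordz i hi, he, sub_self, mul_zero] at h
        exact lt_irrefl _ h
    · intro h
      have hi : (T.R i).red (v i) ≠ 0 := fun h0 => h (Or.inl (by
        rw [hred, h0, zero_pow Ud.κ_pos.ne', zero_mul]))
      refine ⟨hi, le_antisymm ?_ (hnn i hi)⟩
      by_contra hlt
      refine h (Or.inr ?_)
      rw [hordz i hi]
      exact mul_pos hκ (by omega)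
  refine ⟨hnn, ?_⟩
  have he : ev (T.br s false) ((T.R false).red (z false)) =
      ev (T.br s true) ((T.R true).red (z true)) := by
    simpa only [Pi.one_apply, one_mul] using hglue s
  have h2 := hiff false
  have h3 := hiff true
  simp only [sgn_false, one_mul, sgn_true, neg_one_mul] at h2 h3
  rw [h2, h3, he]

end UnitData

end Fermat.Agent.LoweringAtP
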