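import Fermat.Agent.LoweringAtP.Eis

/-!
# First coefficients of functions in `L(nG)`

The pair of first coefficients of an element of `L(nG)` is again glued; hence bounds on logarithmic
first coefficients away from the nodes, and their gluing at the nodes.
-/

noncomputable section

open AlgebraicCurve Fermat.Agent.Red Fermat.Agent.TwoComponent

namespace Fermat.Agent.LoweringAtP.EisData

variable {K k F Fk : Type*} [Field K] [Field F] [Algebra K F] [Field k] [Field Fk] [Algebra k Fk]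
variable {A : ValuationSubring K} {π : A →+* k} {S : Type*} [Fintype S]
variable {T : TwoRed A π F Fk S} {Ud : UnitData T} {Q₀ : RatData Ud} {p : ℕ}
variable (X : EisData Q₀ p)

/-- The logarithmic first coefficient. -/
def HasLog (i : Bool) (u : (T.R i).O) (g : Fk) : Prop :=
  (T.R i).red u ≠ 0 ∧ (u : F) ∈ X.field ∧ X.HasDer i (u : F) (g * (T.R i).red u)

theorem hasLog_mul {i : Bool} {u u' : (T.R i).O} {g g' : Fk} (h : X.HasLog i u g)
    (h' : X.HasLog i u' g') : X.HasLog i (u * u') (g + g') := by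
  refine ⟨by rw [map_mul]; exact mul_ne_zero h.1 h'.1,
    by rw [Subring.coe_mul]; exact mul_mem h.2.1 h'.2.1, ?_⟩
  convert X.hasDer_mul h.2.2 h'.2.2 using 1
  rw [map_mul]
  ring

theorem hasLog_rat {i : Bool} {u : (T.R i).O} (hu : (u : F) ∈ Q₀.F₀) (h0 : (T.R i).red u ≠ 0) :
    X.HasLog i u 0 :=
  ⟨h0, X.mem_field_of_rat hu, by rw [zero_mul]; exact X.hasDer_rat hu⟩

theorem hasLog_one (i : Bool) : X.HasLog i 1 0 :=
  X.hasLog_rat (by rw [Subring.coe_one]; exact one_mem _) (by rw [map_one]; exact one_ne_zero)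

theorem hasLog_pow {i : Bool} {u : (T.R i).O} {g : Fk} (h : X.HasLog i u g) (n : ℕ) :
    X.HasLog i (u ^ n) ((n : Fk) * g) := by
  induction n with
  | zero => simpa using X.hasLog_one i
  | succ n ih =>
    rw [pow_succ, Nat.cast_succ, add_mul, one_mul]
    exact X.hasLog_mul ih h

theorem hasLog_unique {i : Bool} {u : (T.R i).O} {g g' : Fk} (h : X.HasLog i u g)
    (h' : X.HasLog i u g') : g = g' :=
  mul_right_cancel₀ h.1 (X.hasDer_unique h.2.2 h'.2.2)

/-- A function of the field with nonzero reduction has a logarithmic first coefficient. -/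
theorem exists_hasLog {i : Bool} {u : (T.R i).O} (hu : (u : F) ∈ X.field)
    (h0 : (T.R i).red u ≠ 0) : ∃ g, X.HasLog i u g := by
  obtain ⟨d, hd⟩ := X.exists_hasDer hu u.2
  exact ⟨d / (T.R i).red u, h0, hu, by rwa [div_mul_cancel₀ _ h0]⟩

theorem hasLog_inv {i : Bool} {u w : (T.R i).O} {g : Fk} (h : X.HasLog i u g)
    (hw : u * w = 1) : X.HasLog i w (-g) := by
  have hw0 : (T.R i).red w ≠ 0 := fun h0 => by
    have := congrArg (T.R i).red hw
    rw [map_mul, h0, mul_zero, map_one] at this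
    exact zero_ne_one this
  have hwF : (w : F) ∈ X.field := by
    have e : (u : F) * w = 1 := congrArg Subtype.val hw
    rw [eq_inv_of_mul_eq_one_right e]
    exact inv_mem h.2.1
  obtain ⟨g', hg'⟩ := X.exists_hasLog hwF hw0
  have h1 := X.hasLog_mul h hg'
  rw [hw] at h1
  rwa [← eq_neg_of_add_eq_zero_right (X.hasLog_unique h1 (X.hasLog_one i))]

/-- Rational lifts of reductions of `L(nG)`. -/
theorem exists_rat_lift (h0 : Q₀.Spans 0) {n : ℕ} {u : F}
    (hu : u ∈ riemannRochSpace (n • T.G)) (v : ∀ i, (T.R i).O) (hv : ∀ i, (v i : F) = u) :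
    ∃ u₀ ∈ riemannRochSpace (n • T.G), u₀ ∈ Q₀.F₀ ∧ ∀ i, ∃ v₀ : (T.R i).O,
      (v₀ : F) = u₀ ∧ (T.R i).red v₀ = (T.R i).red (v i) := by
  have := T.rrF.finiteDim (n • T.G)
  have hspan := h0 n
  simp only [zero_add] at hspan
  have hmem : (fun i => (T.R i).red (v i)) ∈
      pairImage T.R (Q₀.cw 0) (riemannRochSpace (n • T.G)) :=
    ⟨u, hu, fun i => ⟨v i, by cases i <;> simp [RatData.cw, hv], rfl⟩⟩
  rw [← Q₀.ratPairs_eq hspan] at hmem
  obtain ⟨u₀, hu₀, hu₀F, h⟩ := hmem
  refine ⟨u₀, hu₀, hu₀F, fun i => ?_⟩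
  obtain ⟨v₀, hv₀, hr⟩ := h i
  refine ⟨v₀, ?_, hr⟩
  cases i <;> simpa [RatData.cw] using hv₀

/-- The first coefficients of an element of `L(nG)` are glued. -/
theorem exists_der_glued (h0 : Q₀.Spans 0) {n : ℕ} {u : F}
    (hu : u ∈ riemannRochSpace (n • T.G)) (huF : u ∈ X.field) (v : ∀ i, (T.R i).O)
    (hv : ∀ i, (v i : F) = u) :
    ∃ d : Bool → Fk, (∀ i, X.HasDer i u (d i)) ∧ d ∈ T.glued (fun i => n • T.Gk i) 1 := by
  obtain ⟨u₀, hu₀, hu₀F, hl⟩ := exists_rat_lift h0 hu v hv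
  choose v₀ hv₀ hr₀ using hl
  set z : F := algebraMap K F ((X.ϖ : K)⁻¹) * (u - u₀) with hz
  have hϖ : algebraMap K F (X.ϖ : K) ≠ 0 := (map_ne_zero _).mpr X.ϖ_ne
  have hzO : ∀ i, ∃ t : (T.R i).O, (t : F) = z := fun i => by
    obtain ⟨t, ht⟩ := X.ratData.inO_succ (i := i) (j := 0)
      (u := u - u₀) (sub_mem huF (X.mem_field_of_rat hu₀F)) (v := v i - v₀ i)
      (by rw [zpow_zero, map_one, one_mul, AddSubgroupClass.coe_sub, hv, hv₀])
      (by rw [map_sub, hr₀, sub_self])
    refine ⟨t, ?_⟩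
    rw [zero_add, zpow_one] at ht
    rw [hz, ← ht, ← mul_assoc, ← map_mul]
    show (t : F) = algebraMap K F ((X.ϖ : K)⁻¹ * X.ϖ) * _
    rw [inv_mul_cancel₀ X.ϖ_ne, map_one, one_mul]
  choose t ht using hzO
  have hzL : z ∈ riemannRochSpace (n • T.G) := by
    rw [hz, ← Algebra.smul_def]
    exact Submodule.smul_mem _ _ (sub_mem hu hu₀)
  refine ⟨_, fun i => ⟨v₀ i, t i, hv₀ i ▸ hu₀F, ?_, rfl⟩, T.bound' hzL t ht⟩
  rw [ht, hv₀, hz, map_inv₀, mul_inv_cancel_left₀ hϖ, add_sub_cancel]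

/-- **Bound on one component**: at a smooth point where the reduction has its largest possible pole,
the logarithmic first coefficient is regular. -/
theorem der_side_bound (h0 : Q₀.Spans 0) {n : ℕ} {i : Bool} {v : (T.R i).O} {g : Fk}
    (hu : (v : F) ∈ riemannRochSpace (n • T.G)) (hg : X.HasLog i v g) {Q : Place k Fk}
    (hQ : ∀ s, T.br s i ≠ Q) (hord : Q.ord ((T.R i).red v) = -((n : ℤ) * T.Gk i Q)) :
    g = 0 ∨ 0 ≤ Q.ord g := by
  refine or_iff_not_imp_left.mpr fun hg0 => ?_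
  obtain ⟨l, h', hh', ht'⟩ := exists_test T i hQ
  choose t' ht'e ht'r using ht'
  obtain ⟨h, hh, hhF, hl⟩ := exists_rat_lift h0 hh' t' ht'e
  choose t hte htr using hl
  obtain ⟨hti0, htio⟩ := ((ht'r i).resolve_left fun h => h.1 rfl).2
  rw [← htr] at hti0 htio
  have hto : (T.R (!i)).red (t (!i)) = 0 := by
    rw [htr]; exact ((ht'r (!i)).resolve_right fun h => by simpa using h.1).2
  have hu0 : (v : F) ≠ 0 := (T.R i).coe_ne_zero hg.1
  obtain ⟨co, wo, hwo, huo⟩ := (T.R (!i)).scale _ hu0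
  obtain ⟨N, hN⟩ := exists_smul_pow_mem T hto co (wo : F) wo.2
  set Z : F := (v : F) * h ^ N with hZ
  have hZL : Z ∈ riemannRochSpace ((n + N * l) • T.G) := by
    have h1 := T.mem_space_mul (D := 0) (by rwa [zero_add]) (T.mem_space_pow hh N) (y := (v : F))
    rwa [zero_add] at h1
  have hmem : ∀ j, Z ∈ (T.R j).O := by
    intro j
    by_cases hj : j = i
    · subst hj
      rw [hZ, ← hte]
      exact mul_mem v.2 (pow_mem (t j).2 N)
    · have : j = !i := by cases i <;> cases j <;> simp_all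
      subst this
      rw [hZ, huo, ← hte]
      exact hN N le_rfl
  obtain ⟨d, hd, hdg⟩ := X.exists_der_glued h0 hZL
    (by rw [hZ]; exact mul_mem hg.2.1 (pow_mem (X.mem_field_of_rat hhF) N))
    (fun j => ⟨Z, hmem j⟩) (fun _ => rfl)
  have hlog : X.HasLog i (v * t i ^ N) g := by
    have := X.hasLog_mul hg (X.hasLog_pow (X.hasLog_rat (hte i ▸ hhF) hti0) N)
    rwa [mul_zero, add_zero] at this
  have hde : d i = g * ((T.R i).red v * (T.R i).red (t i) ^ N) := by
    refine X.hasDer_unique (hd i) ?_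
    have := hlog.2.2
    rw [map_mul, map_pow] at this
    convert this using 1
    rw [hZ, Subring.coe_mul, SubmonoidClass.coe_pow, hte]
  have hne : (T.R i).red v * (T.R i).red (t i) ^ N ≠ 0 := mul_ne_zero hg.1 (pow_ne_zero _ hti0)
  have h2 := ((mem_riemannRochSpace_iff.mp (hdg.1 i)) Q).resolve_left
    (by rw [hde]; exact mul_ne_zero hg0 hne)
  rw [hde, Q.ord_mul hg0 hne, Q.ord_mul hg.1 (pow_ne_zero _ hti0), Red.ord_pow, htio, hord,
    Finsupp.smul_apply, nsmul_eq_mul] at h2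
  push_cast at h2
  linarith

/-- Rational functions with scales `(1, η ^ τ)` and exact orders `±τ` at a node. -/
theorem exists_rat_exact (h0 : Q₀.Spans 0) (hη : (Ud.η : K) ∈ Q₀.K₀) (he : Q₀.e = 1) (τ : ℤ)
    (s : S) : ∃ (n : ℕ) (V : F) (v : ∀ i, (T.R i).O), V ∈ riemannRochSpace (n • T.G) ∧
      (∀ i, (v i : F) ∈ Q₀.F₀) ∧ (∀ i, algebraMap K F (Ud.wt τ i) * (v i : F) = V) ∧
      ∀ i, (T.R i).red (v i) ≠ 0 ∧ (T.br s i).ord ((T.R i).red (v i)) = sgn i * τ := by
  let d : WData Ud 1 (0 : Divisor K F) τ :=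
    { f := 1, f_ne := one_ne_zero
      div_f := fun P => by simp [Place.ord_one]
      degree_D := map_zero _
      c := Ud.wt τ, c_ne := Ud.wt_ne τ
      e := fun _ => 1
      e_eq := fun i => by rw [Subring.coe_one, mul_one, pow_one, mul_one]
      e_ne := fun i => by rw [map_one]; exact one_ne_zero }
  have hs : s ∈ d.J := d.mem_J.mpr fun i => by rw [Nat.cast_one]; exact one_dvd _
  obtain ⟨w, hw, hex⟩ := d.exists_exact Nat.one_pos le_rfl hs
  rw [zero_add] at hw
  set n := d.bigN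
  have hεη : (Ud.η : K) = (Q₀.ε : K) * (Q₀.ϖ : K) := by rw [Q₀.η_eq, he, pow_one]
  have hε0 : (Q₀.ε : K) ≠ 0 := fun h => Ud.η_ne (by rw [hεη, h, zero_mul])
  -- powers of the unit part
  have hpow : ∀ m : ℤ, ∃ a : A, (a : K) = (Q₀.ε : K) ^ m ∧ π a ≠ 0 := by
    intro m
    rcases Int.eq_nat_or_neg m with ⟨j, rfl | rfl⟩
    · exact ⟨Q₀.ε ^ j, by simp, by rw [map_pow]; exact pow_ne_zero _ Q₀.π_ε⟩
    · have hinv := inv_mem_of_pi_ne_zero (T.R false).surj_pi Q₀.π_ε
      refine ⟨⟨_, hinv⟩ ^ j, by simp [inv_pow], ?_⟩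
      rw [map_pow]
      refine pow_ne_zero _ fun h => ?_
      have h1 : (⟨_, hinv⟩ : A) * Q₀.ε = 1 := Subtype.ext (inv_mul_cancel₀ hε0)
      have := congrArg π h1
      rw [map_mul, h, zero_mul, map_one] at this
      exact zero_ne_one this
  choose a ha haπ using hpow
  obtain ⟨u, hu, hv⟩ := hw
  choose v hv hvr using hv
  have := T.rrF.finiteDim (n • T.G)
  have hspan := h0 n
  rw [zero_add] at hspan
  have hτ : (Ud.η : K) ^ τ = (Q₀.ϖ : K) ^ τ * (a τ : K) := by
    rw [ha, hεη, mul_zpow, mul_comm]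
  have hmem : (fun i => bif i then algebraMap k Fk (π (a τ)) * w i else w i) ∈
      pairImage T.R (Q₀.cw τ) (riemannRochSpace (n • T.G)) := by
    refine ⟨u, hu, fun i => ?_⟩
    cases i
    · exact ⟨v false, by simpa [RatData.cw, d, UnitData.wt] using hv false, hvr false⟩
    · refine ⟨(T.R true).ι (a τ) * v true, ?_, ?_⟩
      · have h := hv true
        simp only [d, UnitData.wt, cond_true] at h
        rw [Subring.coe_mul, RedBase.coe_ι, ← h, hτ, map_mul]
        simp only [RatData.cw, cond_true]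
        ring
      · rw [map_mul, RedBase.red_ι, hvr]; rfl
  rw [← Q₀.ratPairs_eq hspan] at hmem
  obtain ⟨V, hV, hVF, hV'⟩ := hmem
  choose v' hv' hvr' using hV'
  let v'' : ∀ i, (T.R i).O := fun i => match i with
    | false => v' false
    | true => (T.R true).ι (a (-τ)) * v' true
  have haa : (Ud.η : K) ^ τ * (a (-τ) : K) = (Q₀.ϖ : K) ^ τ := by
    rw [hτ, ha, ha, mul_assoc, ← zpow_add₀ hε0, add_neg_cancel, zpow_zero, mul_one]
  have hscale : ∀ i, algebraMap K F (Ud.wt τ i) * (v'' i : F) = V := fun i => by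
    cases i
    · simpa [RatData.cw, UnitData.wt] using hv' false
    · show algebraMap K F ((Ud.η : K) ^ τ) *
        (((T.R true).ι (a (-τ)) * v' true : (T.R true).O) : F) = V
      rw [Subring.coe_mul, RedBase.coe_ι, ← mul_assoc, ← map_mul, haa]
      exact hv' true
  have hred : ∀ i, (T.R i).red (v'' i) = w i := fun i => by
    cases i
    · exact hvr' false
    · show (T.R true).red ((T.R true).ι (a (-τ)) * v' true) = _
      rw [map_mul, RedBase.red_ι, hvr']
      simp only [cond_true]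
      rw [← mul_assoc, ← map_mul, ← map_mul,
        show a (-τ) * a τ = 1 from Subtype.ext (by
          rw [MulMemClass.coe_mul, ha, ha, ← zpow_add₀ hε0, neg_add_cancel, zpow_zero]; rfl),
        map_one, map_one, one_mul]
  refine ⟨n, V, v'', hV, fun i => ?_, hscale, fun i => ?_⟩
  · have hne : algebraMap K F (Ud.wt τ i) ≠ 0 := (map_ne_zero _).mpr (Ud.wt_ne τ i)
    rw [eq_inv_mul_iff_mul_eq₀ hne |>.mpr (hscale i), ← map_inv₀]
    refine mul_mem (Q₀.const_mem _ (inv_mem ?_)) hVF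
    cases i
    · exact one_mem _
    · exact _root_.zpow_mem hη _
  · obtain ⟨hne, hord⟩ := hex i
    rw [hred]
    refine ⟨hne, ?_⟩
    have ha0 : d.a i (T.br s i) = 0 := by
      show (T.br s i).ord ((T.R i).red 1) = 0
      rw [map_one, Place.ord_one]
    rw [ha0, Nat.cast_one, one_mul, zero_add] at hord
    exact hord

/-- **Gluing at a node**: at exact orders the logarithmic first coefficients are regular
and agree. -/
theorem der_node (h0 : Q₀.Spans 0) (hη : (Ud.η : K) ∈ Q₀.K₀)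
    {n : ℕ} {Y : F} (hY : Y ∈ riemannRochSpace (n • T.G)) {l : ℤ}
    (v : ∀ i, (T.R i).O) (g : Bool → Fk) (hv0 : (v false : F) = Y)
    (hv1 : algebraMap K F ((Ud.η : K) ^ l) * (v true : F) = Y)
    (hg : ∀ i, X.HasLog i (v i) (g i)) {s : S}
    (hex : ∀ i, (T.br s i).ord ((T.R i).red (v i)) = sgn i * l) :
    (∀ i, g i ∈ (T.br s i).toValuationSubring) ∧
      ev (T.br s false) (g false) = ev (T.br s true) (g true) := by
  obtain ⟨L, V, r, hL, hrF, hr, hre⟩ := exists_rat_exact h0 hη X.e_eq (-l) s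
  set Z : F := Y * V with hZ
  have hZL : Z ∈ riemannRochSpace ((n + L) • T.G) := by
    have h := T.mem_space_mul (D := 0) (y := Y) (by rwa [zero_add]) hL
    rwa [zero_add] at h
  set z : ∀ i, (T.R i).O := fun i => v i * r i with hz
  have hzF : ∀ i, (z i : F) = Z := by
    intro i
    rw [hz, Subring.coe_mul, hZ, ← hr i]
    cases i
    · rw [hv0]; simp [UnitData.wt]
    · rw [← hv1]
      have e : algebraMap K F ((Ud.η : K) ^ l) * algebraMap K F ((Ud.η : K) ^ (-l)) = 1 := by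
        rw [← map_mul, ← zpow_add₀ Ud.η_ne, add_neg_cancel, zpow_zero, map_one]
      simp only [UnitData.wt, cond_true]
      linear_combination -((v true : F) * (r true : F)) * e
  have hzlog : ∀ i, X.HasLog i (z i) (g i) := fun i => by
    have := X.hasLog_mul (hg i) (X.hasLog_rat (hrF i) (hre i).1)
    rwa [add_zero] at this
  obtain ⟨d, hd, hdg⟩ := X.exists_der_glued h0 hZL (hzF false ▸ (hzlog false).2.1) z hzF
  obtain ⟨-, hreg, hglue⟩ := T.bound' hZL z hzF
  dsimp only at hreg hglue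
  have hde : ∀ i, d i = g i * (T.R i).red (z i) := fun i =>
    X.hasDer_unique (hd i) (hzF i ▸ (hzlog i).2.2)
  have hzord : ∀ i, (T.br s i).ord ((T.R i).red (z i)) = 0 := fun i => by
    rw [hz, map_mul, (T.br s i).ord_mul (hg i).1 (hre i).1, (hre i).2, hex]
    ring
  have hgm : ∀ i, g i ∈ (T.br s i).toValuationSubring := fun i => by
    rcases eq_or_ne (g i) 0 with h | h
    · rw [h]; exact zero_mem _
    have hm := hdg.2.1 s i
    rw [mem_place_iff, hde, (T.br s i).ord_mul h (hzlog i).1, hzord] at hm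
    exact (mem_place_iff _).mpr (by omega)
  refine ⟨hgm, ?_⟩
  have hev : ∀ i, ev (T.br s i) (d i) =
      ev (T.br s i) (g i) * ev (T.br s i) ((T.R i).red (z i)) := fun i => by
    rw [hde, ev_mul (T.deg_br s i) (hgm i) (hreg s i)]
  have h1 := hdg.2.2 s
  have h2 := hglue s
  simp only [Pi.one_apply, one_mul] at h1 h2
  rw [hev, hev, h2] at h1
  have hne : ev (T.br s true) ((T.R true).red (z true)) ≠ 0 := by
    rw [Ne, ev_eq_zero_iff (T.deg_br s true) (hreg s true)]
    rintro (h | h)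
    · exact (hzlog true).1 h
    · exact absurd (hzord true) (by omega)
  exact mul_right_cancel₀ hne h1

end Fermat.Agent.LoweringAtP.EisData
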