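import Fermat.Agent.LoweringAtP.Image
import Fermat.Agent.TwoComponent.Inject

/-!
# Rational structures

Over a subfield whose values are the powers of a uniformiser `ϖ` with `η ~ ϖ ^ e`, reductions at
integral weights come from rational functions and reductions at fractional weights split.  These
are the inputs of the slope theorem in `LoweringAtP/Slope`.
-/

noncomputable section

open AlgebraicCurve Fermat.Agent.Red Fermat.Agent.TwoComponent

namespace Fermat.Agent.LoweringAtP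

variable {K k F Fk : Type*} [Field K] [Field F] [Algebra K F] [Field k] [Field Fk] [Algebra k Fk]
variable {A : ValuationSubring K} {π : A →+* k} {S : Type*} [Fintype S]
variable {T : TwoRed A π F Fk S} {Ud : UnitData T}

/-- `u` has scale at most `γ` on the component `i`. -/
def InO (T : TwoRed A π F Fk S) (i : Bool) (γ : K) (u : F) : Prop :=
  ∃ v : (T.R i).O, algebraMap K F γ * (v : F) = u

theorem InO.mul_const {i : Bool} {γ : K} {u : F} (hu : InO T i γ u) (a : K) :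
    InO T i (a * γ) (algebraMap K F a * u) := by
  obtain ⟨v, rfl⟩ := hu
  exact ⟨v, by rw [map_mul, mul_assoc]⟩

theorem InO.mono {i : Bool} {γ γ' : K} {u : F} (hu : InO T i γ u) (hγ : γ' ≠ 0)
    (h : γ / γ' ∈ A) : InO T i γ' u := by
  obtain ⟨v, rfl⟩ := hu
  exact ⟨(T.R i).ι ⟨_, h⟩ * v, by
    rw [Subring.coe_mul, RedBase.coe_ι, ← mul_assoc, ← map_mul, mul_div_cancel₀ _ hγ]⟩

/-- Scaling both normalising constants by a nonzero scalar does not change the image. -/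
theorem pairImage_smul {V : Submodule K F} {c : Bool → K} {a : K} (ha : a ≠ 0) :
    pairImage T.R (fun i => a * c i) V = pairImage T.R c V := by
  ext w
  constructor
  · rintro ⟨u, hu, h⟩
    refine ⟨a⁻¹ • u, V.smul_mem _ hu, fun i => ?_⟩
    obtain ⟨v, hv, hr⟩ := h i
    exact ⟨v, by rw [Algebra.smul_def, ← hv, ← mul_assoc, ← map_mul, ← mul_assoc,
      inv_mul_cancel₀ ha, one_mul], hr⟩
  · rintro ⟨u, hu, h⟩
    refine ⟨a • u, V.smul_mem _ hu, fun i => ?_⟩
    obtain ⟨v, hv, hr⟩ := h i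
    exact ⟨v, by rw [Algebra.smul_def, ← hv, ← mul_assoc, ← map_mul], hr⟩

/-- A rational structure with uniformiser `ϖ`. -/
structure RatData (Ud : UnitData T) where
  /-- the rational constants -/
  K₀ : Subfield K
  /-- the rational functions -/
  F₀ : Subfield F
  const_mem : ∀ a ∈ K₀, algebraMap K F a ∈ F₀
  /-- the uniformiser -/
  ϖ : A
  ϖ_mem : (ϖ : K) ∈ K₀
  ϖ_ne : (ϖ : K) ≠ 0
  π_ϖ : π ϖ = 0
  lift : ∀ r : k, ∃ a : A, (a : K) ∈ K₀ ∧ π a = r
  /-- the ramification index -/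
  e : ℕ
  e_pos : 0 < e
  /-- the unit part of `η` -/
  ε : A
  π_ε : π ε ≠ 0
  η_eq : (Ud.η : K) = (ε : K) * (ϖ : K) ^ e
  scale : ∀ u ∈ F₀, u ≠ 0 → ∀ i, ∃ (j : ℤ) (v : (T.R i).O),
    (T.R i).red v ≠ 0 ∧ algebraMap K F ((ϖ : K) ^ j) * (v : F) = u

namespace RatData

variable (Q : RatData Ud)

/-- The rational functions span all the spaces `L(D + nG)`. -/
def Spans (D : Divisor K F) : Prop :=
  ∀ n : ℕ, riemannRochSpace (D + n • T.G) ≤
    Submodule.span K {u | u ∈ Q.F₀ ∧ u ∈ riemannRochSpace (D + n • T.G)}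

theorem zpow_ne (j : ℤ) : (Q.ϖ : K) ^ j ≠ 0 := zpow_ne_zero j Q.ϖ_ne

theorem zpow_mem {j : ℤ} (hj : 0 ≤ j) : (Q.ϖ : K) ^ j ∈ A := by
  obtain ⟨n, rfl⟩ := Int.eq_ofNat_of_zero_le hj
  rw [zpow_natCast]
  exact pow_mem Q.ϖ.2 n

theorem zpow_mem_K₀ (j : ℤ) : (Q.ϖ : K) ^ j ∈ Q.K₀ := _root_.zpow_mem Q.ϖ_mem j

theorem not_mem_of_neg {j : ℤ} (hj : j < 0) : (Q.ϖ : K) ^ j ∉ A := by
  intro h
  obtain ⟨n, hn⟩ := Int.eq_ofNat_of_zero_le (show 0 ≤ -j by omega)
  have h1 : (⟨_, h⟩ : A) * Q.ϖ ^ n = 1 := Subtype.ext (by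
    rw [MulMemClass.coe_mul, SubmonoidClass.coe_pow, OneMemClass.coe_one, ← zpow_natCast,
      ← zpow_add₀ Q.ϖ_ne, ← hn, add_neg_cancel, zpow_zero])
  have := congrArg π h1
  rw [map_mul, map_pow, Q.π_ϖ, zero_pow (by omega), mul_zero, map_one] at this
  exact zero_ne_one this

theorem π_zpow {j : ℤ} (hj : 1 ≤ j) (h : (Q.ϖ : K) ^ j ∈ A) : π ⟨_, h⟩ = 0 := by
  obtain ⟨n, rfl⟩ := Int.eq_ofNat_of_zero_le (show 0 ≤ j by omega)
  rw [show (⟨(Q.ϖ : K) ^ (n : ℤ), h⟩ : A) = Q.ϖ ^ n from Subtype.ext (by simp), map_pow, Q.π_ϖ,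
    zero_pow (by omega)]

/-- A rational function with vanishing reduction at scale `ϖ ^ j` has scale `ϖ ^ (j+1)`. -/
theorem inO_succ {i : Bool} {j : ℤ} {u : F} (hu : u ∈ Q.F₀) {v : (T.R i).O}
    (hv : algebraMap K F ((Q.ϖ : K) ^ j) * (v : F) = u) (h0 : (T.R i).red v = 0) :
    InO T i ((Q.ϖ : K) ^ (j + 1)) u := by
  rcases eq_or_ne u 0 with rfl | hu0
  · exact ⟨0, by simp⟩
  obtain ⟨j', v', hv', hu'⟩ := Q.scale u hu hu0 i
  have he : (v : F) = algebraMap K F ((Q.ϖ : K) ^ (j' - j)) * (v' : F) := by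
    refine mul_left_cancel₀ ((map_ne_zero (algebraMap K F)).mpr (Q.zpow_ne j)) ?_
    rw [hv, ← mul_assoc, ← map_mul, ← zpow_add₀ Q.ϖ_ne, add_sub_cancel, hu']
  have hmem := (T.R i).mem_of_smul_mem hv' he
  have hpos : 1 ≤ j' - j := by
    rcases lt_trichotomy (j' - j) 0 with h | h | h
    · exact absurd hmem (Q.not_mem_of_neg h)
    · rw [h, zpow_zero, map_one, one_mul] at he
      exact absurd (Subtype.ext he ▸ h0) hv'
    · omega
  refine InO.mono ⟨v', hu'⟩ (Q.zpow_ne _) ?_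
  rw [← zpow_sub₀ Q.ϖ_ne]
  exact Q.zpow_mem (by omega)

theorem const_mul_mem_F₀ {u : F} (hu : u ∈ Q.F₀) {a : K} (ha : a ∈ Q.K₀) :
    algebraMap K F a * u ∈ Q.F₀ := mul_mem (Q.const_mem a ha) hu

/-- A linear form which contracts by `ϖ` along a bounded subset of `V` vanishes on it. -/
theorem eq_zero_of_contract {V : Submodule K F} [FiniteDimensional K V] {c : Bool → K}
    (hc : ∀ i, c i ≠ 0) (φ : F →ₗ[K] K) (P : F → Prop) {d : K} (hd : d ≠ 0)
    (hP : ∀ v, P v → v ∈ V ∧ ∀ i, InO T i (c i) (algebraMap K F d * v))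
    (hstep : ∀ v, P v → ∃ v', P v' ∧ φ v = (Q.ϖ : K) * φ v') :
    ∀ v, P v → φ v = 0 := by
  classical
  have := finiteDimensional_pairImage (R := T.R) hc V
  let b := Module.finBasis k (pairImage T.R c V)
  obtain ⟨u, r, hu, hr, hrr⟩ := exists_lifts (R := T.R) (c := c) (V := V)
    (w := fun j => ((b j : pairImage T.R c V) : Bool → Fk)) fun j => (b j).2
  have hli := b.linearIndependent.map' (pairImage T.R c V).subtype (Submodule.ker_subtype _)
  obtain ⟨γ, hγ0, hγA, hγ⟩ := exists_scalar_mem (A := A) (Finset.univ : Finset (Fin _))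
    (fun j => φ (u j))
  have hint : ∀ v, P v → γ * d * φ v ∈ A := by
    intro v hv
    obtain ⟨hvV, hvO⟩ := hP v hv
    have hdv : algebraMap K F d * v ∈ V := by
      rw [← Algebra.smul_def]; exact V.smul_mem _ hvV
    obtain ⟨β, hβ⟩ := T.exists_expansion hc hr hrr hli hu (Fintype.card_fin _) hdv
    have hβA := coeff_mem hr hrr hli hc β fun i => by
      obtain ⟨f, hf⟩ := hvO i
      exact ⟨f, by rw [hf, hβ]⟩
    have hφ : d * φ v = ∑ j, β j * φ (u j) := by
      have h := congrArg φ hβ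
      simpa only [← Algebra.smul_def, map_smul, map_sum, smul_eq_mul] using h
    rw [mul_assoc, hφ, Finset.mul_sum]
    refine sum_mem fun j _ => ?_
    rw [mul_left_comm]
    exact mul_mem (hβA j) (hγ j (Finset.mem_univ _))
  intro v hv
  by_contra hne
  have key : ∀ n : ℕ, ∃ v', P v' ∧ φ v = (Q.ϖ : K) ^ n * φ v' := by
    intro n
    induction n with
    | zero => exact ⟨v, hv, by simp⟩
    | succ n ih =>
      obtain ⟨v', hv', he⟩ := ih
      obtain ⟨v'', hv'', he'⟩ := hstep v' hv'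
      exact ⟨v'', hv'', by rw [he, he', pow_succ]; ring⟩
  set x : A := ⟨γ * d * φ v, hint v hv⟩ with hx
  have hx0 : x ≠ 0 := fun h => by
    have := congrArg Subtype.val h
    simp only [hx, ZeroMemClass.coe_zero, mul_eq_zero, hγ0, hd, hne, or_self] at this
  obtain ⟨n, c', hc'⟩ := T.arch Q.ϖ x Q.π_ϖ hx0
  obtain ⟨v', hv', he⟩ := key (n + 1)
  have hcK : (Q.ϖ : K) ^ n = (c' : K) * (γ * d * φ v) := congrArg Subtype.val hc'
  have h1 : (1 : A) = c' * Q.ϖ * ⟨_, hint v' hv'⟩ := Subtype.ext (by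
    refine mul_left_cancel₀ (pow_ne_zero n Q.ϖ_ne) ?_
    rw [OneMemClass.coe_one, mul_one, MulMemClass.coe_mul, MulMemClass.coe_mul]
    conv_lhs => rw [hcK, he]
    ring)
  have := congrArg π h1
  rw [map_one, map_mul, map_mul, Q.π_ϖ, mul_zero, zero_mul] at this
  exact one_ne_zero this

/-- Reductions of rational functions. -/
def ratPairs (c : Bool → K) (V : Submodule K F) : Submodule k (Bool → Fk) where
  carrier := {w | ∃ u ∈ V, u ∈ Q.F₀ ∧ ∀ i, ∃ v : (T.R i).O,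
    algebraMap K F (c i) * (v : F) = u ∧ (T.R i).red v = w i}
  zero_mem' := ⟨0, V.zero_mem, zero_mem _, fun i => ⟨0, by simp, map_zero _⟩⟩
  add_mem' := by
    rintro w w' ⟨u, hu, hu₀, h⟩ ⟨u', hu', hu₀', h'⟩
    refine ⟨u + u', V.add_mem hu hu', add_mem hu₀ hu₀', fun i => ?_⟩
    obtain ⟨v, hv, hr⟩ := h i
    obtain ⟨v', hv', hr'⟩ := h' i
    exact ⟨v + v', by rw [Subring.coe_add, mul_add, hv, hv'], by rw [map_add, hr, hr']; rfl⟩
  smul_mem' := by
    rintro a w ⟨u, hu, hu₀, h⟩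
    obtain ⟨b, hb, rfl⟩ := Q.lift a
    refine ⟨(b : K) • u, V.smul_mem _ hu, ?_, fun i => ?_⟩
    · rw [Algebra.smul_def]; exact Q.const_mul_mem_F₀ hu₀ hb
    obtain ⟨v, hv, hr⟩ := h i
    refine ⟨(T.R i).ι b * v, ?_, ?_⟩
    · rw [Subring.coe_mul, RedBase.coe_ι, mul_left_comm, hv, Algebra.smul_def]
    · rw [map_mul, RedBase.red_ι, hr, Pi.smul_apply, Algebra.smul_def]

theorem ratPairs_le (c : Bool → K) (V : Submodule K F) : Q.ratPairs c V ≤ pairImage T.R c V := by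
  rintro w ⟨u, hu, -, h⟩
  exact ⟨u, hu, h⟩

/-- Rational functions can be scaled into any lattice. -/
theorem exists_scale_into {u : F} (hu : u ∈ Q.F₀) (j₀ j₁ : ℤ) :
    ∃ N : ℕ, InO T false ((Q.ϖ : K) ^ j₀) (algebraMap K F ((Q.ϖ : K) ^ (N : ℤ)) * u) ∧
      InO T true ((Q.ϖ : K) ^ j₁) (algebraMap K F ((Q.ϖ : K) ^ (N : ℤ)) * u) := by
  rcases eq_or_ne u 0 with rfl | hu0
  · exact ⟨0, ⟨0, by simp⟩, ⟨0, by simp⟩⟩
  choose a v _hv hav using Q.scale u hu hu0
  refine ⟨(j₀ - a false).toNat + (j₁ - a true).toNat, ?_, ?_⟩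
  · refine (InO.mul_const ⟨v false, hav false⟩ _).mono (Q.zpow_ne _) ?_
    rw [← zpow_add₀ Q.ϖ_ne, ← zpow_sub₀ Q.ϖ_ne]
    exact Q.zpow_mem (by push_cast; omega)
  · refine (InO.mul_const ⟨v true, hav true⟩ _).mono (Q.zpow_ne _) ?_
    rw [← zpow_add₀ Q.ϖ_ne, ← zpow_sub₀ Q.ϖ_ne]
    exact Q.zpow_mem (by push_cast; omega)

/-- The weights `(1, ϖ ^ j)`. -/
def cw (j : ℤ) : Bool → K := fun i => bif i then (Q.ϖ : K) ^ j else 1

/-- The constants `cw` are nonzero. -/
theorem cw_ne (j : ℤ) (i : Bool) : Q.cw j i ≠ 0 := by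
  cases i
  · exact one_ne_zero
  · exact Q.zpow_ne j

theorem cw_eq (j : ℤ) (i : Bool) : Q.cw j i = (Q.ϖ : K) ^ (bif i then j else 0) := by
  cases i <;> simp [cw]

/-- **Integral weights**: all reductions come from rational functions. -/
theorem ratPairs_eq {V : Submodule K F} [FiniteDimensional K V]
    (hspan : V ≤ Submodule.span K {u | u ∈ Q.F₀ ∧ u ∈ V}) (j : ℤ) :
    Q.ratPairs (Q.cw j) V = pairImage T.R (Q.cw j) V := by
  classical
  have := finiteDimensional_pairImage (R := T.R) (Q.cw_ne j) V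
  have : FiniteDimensional k (Q.ratPairs (Q.cw j) V) :=
    Submodule.finiteDimensional_of_le (Q.ratPairs_le _ _)
  refine Submodule.eq_of_le_of_finrank_le (Q.ratPairs_le _ _) ?_
  rw [T.finrank_pairImage (Q.cw_ne j)]
  let b := Module.finBasis k (Q.ratPairs (Q.cw j) V)
  choose y hyV hy₀ hy using fun l => (b l).2
  choose r hr hrr using hy
  set Y : Submodule K F := Submodule.span K (Set.range y)
  suffices h : V ≤ Y by
    have : FiniteDimensional K Y := FiniteDimensional.span_of_finite K (Set.finite_range _)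
    exact (Submodule.finrank_mono h).trans
      ((finrank_range_le_card y).trans (le_of_eq (Fintype.card_fin _)))
  refine hspan.trans (Submodule.span_le.mpr ?_)
  rintro v ⟨hv₀, hvV⟩
  by_contra hvY
  obtain ⟨φ, hφv, hφY⟩ := Submodule.exists_dual_map_eq_bot_of_notMem hvY inferInstance
  have hkill : ∀ l, φ (y l) = 0 := fun l => by
    have : φ (y l) ∈ Y.map φ := ⟨_, Submodule.subset_span ⟨l, rfl⟩, rfl⟩
    rwa [hφY, Submodule.mem_bot] at this
  obtain ⟨N, h0, h1⟩ := Q.exists_scale_into hv₀ 0 j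
  let P : F → Prop := fun w => w ∈ V ∧ w ∈ Q.F₀ ∧ ∀ i, InO T i (Q.cw j i) w
  have hPv : P (algebraMap K F ((Q.ϖ : K) ^ (N : ℤ)) * v) :=
    ⟨by rw [← Algebra.smul_def]; exact V.smul_mem _ hvV, Q.const_mul_mem_F₀ hv₀ (Q.zpow_mem_K₀ _),
      fun i => by
        cases i
        · simpa only [cw, cond_false, zpow_zero] using h0
        · exact h1⟩
  have hz := Q.eq_zero_of_contract (V := V) (Q.cw_ne j) φ P one_ne_zero
    (fun w hw => ⟨hw.1, fun i => by rw [map_one, one_mul]; exact hw.2.2 i⟩) ?_ _ hPv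
  · rw [← Algebra.smul_def, map_smul, smul_eq_mul, mul_eq_zero,
      or_iff_right (Q.zpow_ne _)] at hz
    exact hφv hz
  rintro w ⟨hwV, hw₀, hwO⟩
  choose t ht using hwO
  have hmem : (fun i => (T.R i).red (t i)) ∈ Q.ratPairs (Q.cw j) V :=
    ⟨w, hwV, hw₀, fun i => ⟨t i, ht i, rfl⟩⟩
  obtain ⟨α, hα⟩ : ∃ α : _ → k, (fun i => (T.R i).red (t i)) = ∑ l, α l • (b l : Bool → Fk) := by
    refine ⟨fun l => b.repr ⟨_, hmem⟩ l, ?_⟩
    have h := congrArg (Q.ratPairs (Q.cw j) V).subtype (b.sum_repr ⟨_, hmem⟩)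
    simpa only [map_sum, map_smul, Submodule.subtype_apply] using h.symm
  choose a ha₀ haπ using fun l => Q.lift (α l)
  set z : F := w - ∑ l, algebraMap K F (a l : K) * y l with hzdef
  have hzV : z ∈ V := sub_mem hwV (Submodule.sum_mem _ fun l _ => by
    rw [← Algebra.smul_def]; exact V.smul_mem _ (hyV l))
  have hz₀ : z ∈ Q.F₀ := sub_mem hw₀ (sum_mem fun l _ => Q.const_mul_mem_F₀ (hy₀ l) (ha₀ l))
  have hzO : ∀ i, InO T i ((Q.ϖ : K) ^ ((bif i then j else 0) + 1)) z := fun i => by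
    refine Q.inO_succ hz₀ (v := t i - ∑ l, (T.R i).ι (a l) * r l i) ?_ ?_
    · rw [← Q.cw_eq, AddSubgroupClass.coe_sub, mul_sub, ht i, AddSubmonoidClass.coe_finsetSum,
        Finset.mul_sum, hzdef]
      refine congrArg (w - ·) (Finset.sum_congr rfl fun l _ => ?_)
      rw [Subring.coe_mul, RedBase.coe_ι, mul_left_comm, hr l i]
    · rw [map_sub, map_sum, congrFun hα i, Finset.sum_apply, sub_eq_zero]
      refine Finset.sum_congr rfl fun l _ => ?_
      rw [map_mul, RedBase.red_ι, hrr l i, haπ, Pi.smul_apply, Algebra.smul_def]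
  refine ⟨algebraMap K F ((Q.ϖ : K) ^ (-1 : ℤ)) * z, ⟨?_, ?_, fun i => ?_⟩, ?_⟩
  · rw [← Algebra.smul_def]; exact V.smul_mem _ hzV
  · exact Q.const_mul_mem_F₀ hz₀ (Q.zpow_mem_K₀ _)
  · have h := (hzO i).mul_const ((Q.ϖ : K) ^ (-1 : ℤ))
    rw [← zpow_add₀ Q.ϖ_ne] at h
    rw [Q.cw_eq]
    convert h using 2
    ring
  · rw [← Algebra.smul_def, map_smul, smul_eq_mul, ← mul_assoc, zpow_neg_one,
      mul_inv_cancel₀ Q.ϖ_ne, one_mul, hzdef, map_sub, map_sum]
    simp only [← Algebra.smul_def, map_smul, hkill, smul_zero, Finset.sum_const_zero, sub_zero]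

/-- The reductions at scale `γ` on the component `i` of rational elements with property `P`. -/
def ratRed (i : Bool) (γ : K) (P : AddSubgroup F) (hP : ∀ a : A, (a : K) ∈ Q.K₀ → ∀ u ∈ P,
    algebraMap K F (a : K) * u ∈ P) : Submodule k Fk where
  carrier := {x | ∃ u ∈ P, ∃ v : (T.R i).O, algebraMap K F γ * (v : F) = u ∧ (T.R i).red v = x}
  zero_mem' := ⟨0, P.zero_mem, 0, by simp, map_zero _⟩
  add_mem' := by
    rintro _ _ ⟨u, hu, v, hv, rfl⟩ ⟨u', hu', v', hv', rfl⟩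
    exact ⟨u + u', P.add_mem hu hu', v + v', by rw [Subring.coe_add, mul_add, hv, hv'],
      map_add _ _ _⟩
  smul_mem' := by
    rintro a _ ⟨u, hu, v, hv, rfl⟩
    obtain ⟨b, hb, rfl⟩ := Q.lift a
    exact ⟨_, hP b hb u hu, (T.R i).ι b * v,
      by rw [Subring.coe_mul, RedBase.coe_ι, mul_left_comm, hv],
      by rw [map_mul, RedBase.red_ι, Algebra.smul_def]⟩

/-- Rational elements of `V` in the lattice with weights `(1, ϖ ^ j)`. -/
def lattice (j : ℤ) (V : Submodule K F) : AddSubgroup F where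
  carrier := {u | u ∈ V ∧ u ∈ Q.F₀ ∧ ∀ i, InO T i (Q.cw j i) u}
  zero_mem' := ⟨V.zero_mem, zero_mem _, fun i => ⟨0, by simp⟩⟩
  add_mem' := by
    rintro u u' ⟨h1, h2, h3⟩ ⟨h1', h2', h3'⟩
    refine ⟨V.add_mem h1 h1', add_mem h2 h2', fun i => ?_⟩
    obtain ⟨v, hv⟩ := h3 i
    obtain ⟨v', hv'⟩ := h3' i
    exact ⟨v + v', by rw [Subring.coe_add, mul_add, hv, hv']⟩
  neg_mem' := by
    rintro u ⟨h1, h2, h3⟩
    refine ⟨V.neg_mem h1, neg_mem h2, fun i => ?_⟩
    obtain ⟨v, hv⟩ := h3 i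
    exact ⟨-v, by rw [NegMemClass.coe_neg, mul_neg, hv]⟩

theorem lattice_smul (j : ℤ) (V : Submodule K F) :
    ∀ a : A, (a : K) ∈ Q.K₀ → ∀ u ∈ Q.lattice j V, algebraMap K F (a : K) * u ∈ Q.lattice j V := by
  rintro a ha u ⟨h1, h2, h3⟩
  refine ⟨by rw [← Algebra.smul_def]; exact V.smul_mem _ h1, Q.const_mul_mem_F₀ h2 ha, fun i => ?_⟩
  refine ((h3 i).mul_const (a : K)).mono (Q.cw_ne j i) ?_
  rw [mul_div_assoc, div_self (Q.cw_ne j i), mul_one]
  exact a.2

/-- **Fractional weights**: the reductions split. -/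
theorem exists_split {V : Submodule K F} [FiniteDimensional K V]
    (hspan : V ≤ Submodule.span K {u | u ∈ Q.F₀ ∧ u ∈ V}) {γ : K} (hγ : γ ≠ 0) {j : ℤ}
    (hlo : ∃ h : γ / (Q.ϖ : K) ^ j ∈ A, π ⟨_, h⟩ = 0)
    (hhi : ∃ h : (Q.ϖ : K) ^ (j + 1) / γ ∈ A, π ⟨_, h⟩ = 0)
    {w : Bool → Fk} (hw : w ∈ pairImage T.R (fun i => bif i then γ else 1) V) :
    ∃ w' ∈ pairImage T.R (fun i => bif i then γ else 1) V,
      w' false = w false ∧ w' true = 0 := by
  classical
  set c : Bool → K := fun i => bif i then γ else 1 with hc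
  have hc0 : ∀ i, c i ≠ 0 := fun i => by cases i <;> simp [hc, hγ]
  obtain ⟨hloA, hloπ⟩ := hlo
  obtain ⟨hhiA, hhiπ⟩ := hhi
  set Wf := Q.ratRed false 1 (Q.lattice (j + 1) V) (Q.lattice_smul _ V) with hWf
  set Wt := Q.ratRed true ((Q.ϖ : K) ^ j) (Q.lattice j V) (Q.lattice_smul _ V) with hWt
  have hf : ∀ x ∈ Wf, (fun i => bif i then 0 else x) ∈ pairImage T.R c V := by
    rintro x ⟨u, ⟨huV, -, hO⟩, v, hv, rfl⟩
    refine ⟨u, huV, fun i => ?_⟩
    cases i
    · exact ⟨v, hv, rfl⟩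
    · obtain ⟨v1, hv1⟩ := hO true
      refine ⟨(T.R true).ι ⟨_, hhiA⟩ * v1, ?_, ?_⟩
      · rw [Subring.coe_mul, RedBase.coe_ι, ← mul_assoc, ← map_mul]
        simp only [hc, cond_true, mul_div_cancel₀ _ hγ]
        exact hv1
      · rw [map_mul, RedBase.red_ι, hhiπ, map_zero, zero_mul]; rfl
  have ht : ∀ x ∈ Wt, (fun i => bif i then x else 0) ∈ pairImage T.R c V := by
    rintro x ⟨u, ⟨huV, -, hO⟩, v, hv, rfl⟩
    refine ⟨algebraMap K F (γ / (Q.ϖ : K) ^ j) * u,
      by rw [← Algebra.smul_def]; exact V.smul_mem _ huV, fun i => ?_⟩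
    cases i
    · obtain ⟨v0, hv0⟩ := hO false
      refine ⟨(T.R false).ι ⟨_, hloA⟩ * v0, ?_, ?_⟩
      · rw [Subring.coe_mul, RedBase.coe_ι, ← hv0]
        simp [hc, cw]
      · rw [map_mul, RedBase.red_ι, hloπ, map_zero, zero_mul]; rfl
    · refine ⟨v, ?_, rfl⟩
      rw [← hv, ← mul_assoc, ← map_mul]
      simp only [hc, cond_true, div_mul_cancel₀ _ (Q.zpow_ne j)]
  let emb : Wf × Wt →ₗ[k] (Bool → Fk) :=
    LinearMap.pi fun i => match i with
      | false => Wf.subtype ∘ₗ LinearMap.fst k _ _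
      | true => Wt.subtype ∘ₗ LinearMap.snd k _ _
  have hinj : Function.Injective emb := fun p q h =>
    Prod.ext (Subtype.ext (congrFun h false)) (Subtype.ext (congrFun h true))
  have hle : LinearMap.range emb ≤ pairImage T.R c V := by
    rintro _ ⟨p, rfl⟩
    have h := add_mem (hf _ p.1.2) (ht _ p.2.2)
    convert h using 1
    funext i; cases i <;> simp [emb]
  have := finiteDimensional_pairImage (R := T.R) hc0 V
  have : FiniteDimensional k (LinearMap.range emb) := Submodule.finiteDimensional_of_le hle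
  have : FiniteDimensional k (Wf × Wt) :=
    FiniteDimensional.of_injective emb.rangeRestrict fun p q h =>
      hinj (congrArg Subtype.val h)
  have : FiniteDimensional k Wf := FiniteDimensional.of_surjective (LinearMap.fst k Wf Wt)
    LinearMap.fst_surjective
  have : FiniteDimensional k Wt := FiniteDimensional.of_surjective (LinearMap.snd k Wf Wt)
    LinearMap.snd_surjective
  suffices h : LinearMap.range emb = pairImage T.R c V by
    rw [← h] at hw ⊢
    obtain ⟨p, rfl⟩ := hw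
    exact ⟨emb (p.1, 0), ⟨_, rfl⟩, rfl, by simp [emb]⟩
  refine Submodule.eq_of_le_of_finrank_le hle ?_
  rw [T.finrank_pairImage hc0, LinearMap.finrank_range_of_inj hinj, Module.finrank_prod]
  let bf := Module.finBasis k Wf
  let bt := Module.finBasis k Wt
  choose y hy yv hyv hyr using fun l => (bf l).2
  choose z hz zv hzv hzr using fun l => (bt l).2
  set Y : Submodule K F := Submodule.span K (Set.range (Sum.elim y z))
  suffices h : V ≤ Y by
    have : FiniteDimensional K Y := FiniteDimensional.span_of_finite K (Set.finite_range _)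
    refine (Submodule.finrank_mono h).trans ((finrank_range_le_card _).trans (le_of_eq ?_))
    rw [Fintype.card_sum, Fintype.card_fin, Fintype.card_fin]
  refine hspan.trans (Submodule.span_le.mpr ?_)
  rintro v ⟨hv₀, hvV⟩
  by_contra hvY
  obtain ⟨φ, hφv, hφY⟩ := Submodule.exists_dual_map_eq_bot_of_notMem hvY inferInstance
  have hkill : ∀ l, φ (Sum.elim y z l) = 0 := fun l => by
    have : φ (Sum.elim y z l) ∈ Y.map φ := ⟨_, Submodule.subset_span ⟨l, rfl⟩, rfl⟩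
    rwa [hφY, Submodule.mem_bot] at this
  have hky : ∀ l, φ (y l) = 0 := fun l => hkill (Sum.inl l)
  have hkz : ∀ l, φ (z l) = 0 := fun l => hkill (Sum.inr l)
  obtain ⟨N, h0, h1⟩ := Q.exists_scale_into hv₀ 0 j
  have hPv : algebraMap K F ((Q.ϖ : K) ^ (N : ℤ)) * v ∈ Q.lattice j V :=
    ⟨by rw [← Algebra.smul_def]; exact V.smul_mem _ hvV, Q.const_mul_mem_F₀ hv₀ (Q.zpow_mem_K₀ _),
      fun i => by
        cases i
        · simpa only [cw, cond_false, zpow_zero] using h0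
        · exact h1⟩
  have hz' := Q.eq_zero_of_contract (V := V) (Q.cw_ne j) φ (· ∈ Q.lattice j V) one_ne_zero
    (fun w hw => ⟨hw.1, fun i => by rw [map_one, one_mul]; exact hw.2.2 i⟩) ?_ _ hPv
  · rw [← Algebra.smul_def, map_smul, smul_eq_mul, mul_eq_zero,
      or_iff_right (Q.zpow_ne _)] at hz'
    exact hφv hz'
  -- first half step: the second component
  rintro u ⟨huV, hu₀, hO⟩
  obtain ⟨t, htu⟩ := hO true
  have hmem : (T.R true).red t ∈ Wt := ⟨u, ⟨huV, hu₀, hO⟩, t, htu, rfl⟩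
  choose a ha₀ haπ using fun l => Q.lift (bt.repr ⟨_, hmem⟩ l)
  set u1 : F := u - ∑ l, algebraMap K F (a l : K) * z l with hu1
  have hu1L : u1 ∈ Q.lattice j V := sub_mem ⟨huV, hu₀, hO⟩
    (sum_mem fun l _ => Q.lattice_smul j V (a l) (ha₀ l) _ (hz l))
  have hu1t : InO T true ((Q.ϖ : K) ^ (j + 1)) u1 := by
    refine Q.inO_succ hu1L.2.1 (v := t - ∑ l, (T.R true).ι (a l) * zv l) ?_ ?_
    · rw [AddSubgroupClass.coe_sub, mul_sub, AddSubmonoidClass.coe_finsetSum, Finset.mul_sum, hu1]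
      refine congrArg₂ _ htu (Finset.sum_congr rfl fun l _ => ?_)
      rw [Subring.coe_mul, RedBase.coe_ι, mul_left_comm, hzv]
    · have h := congrArg Wt.subtype (bt.sum_repr ⟨_, hmem⟩)
      simp only [map_sum, map_smul, Submodule.subtype_apply] at h
      rw [map_sub, map_sum, sub_eq_zero, ← h]
      refine Finset.sum_congr rfl fun l _ => ?_
      rw [map_mul, RedBase.red_ι, haπ, hzr, Algebra.smul_def]
  have hu1A : u1 ∈ Q.lattice (j + 1) V := ⟨hu1L.1, hu1L.2.1, fun i => by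
    cases i
    · exact hu1L.2.2 false
    · exact hu1t⟩
  -- second half step: the first component
  obtain ⟨t', htu'⟩ := hu1A.2.2 false
  have hmem' : (T.R false).red t' ∈ Wf := ⟨u1, hu1A, t', htu', rfl⟩
  choose a' ha₀' haπ' using fun l => Q.lift (bf.repr ⟨_, hmem'⟩ l)
  set u2 : F := u1 - ∑ l, algebraMap K F (a' l : K) * y l with hu2
  have hu2L : u2 ∈ Q.lattice (j + 1) V := sub_mem hu1A
    (sum_mem fun l _ => Q.lattice_smul _ V (a' l) (ha₀' l) _ (hy l))
  have hu2f : InO T false ((Q.ϖ : K) ^ ((0 : ℤ) + 1)) u2 := by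
    refine Q.inO_succ hu2L.2.1 (v := t' - ∑ l, (T.R false).ι (a' l) * yv l) ?_ ?_
    · rw [AddSubgroupClass.coe_sub, mul_sub, AddSubmonoidClass.coe_finsetSum, Finset.mul_sum, hu2,
        zpow_zero]
      refine congrArg₂ _ htu' (Finset.sum_congr rfl fun l _ => ?_)
      rw [Subring.coe_mul, RedBase.coe_ι, mul_left_comm, hyv]
    · have h := congrArg Wf.subtype (bf.sum_repr ⟨_, hmem'⟩)
      simp only [map_sum, map_smul, Submodule.subtype_apply] at h
      rw [map_sub, map_sum, sub_eq_zero, ← h]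
      refine Finset.sum_congr rfl fun l _ => ?_
      rw [map_mul, RedBase.red_ι, haπ', hyr, Algebra.smul_def]
  refine ⟨algebraMap K F ((Q.ϖ : K) ^ (-1 : ℤ)) * u2,
    ⟨by rw [← Algebra.smul_def]; exact V.smul_mem _ hu2L.1,
      Q.const_mul_mem_F₀ hu2L.2.1 (Q.zpow_mem_K₀ _), fun i => ?_⟩, ?_⟩
  · cases i
    · have h := hu2f.mul_const ((Q.ϖ : K) ^ (-1 : ℤ))
      rw [← zpow_add₀ Q.ϖ_ne] at h
      simpa [cw] using h
    · have h := (hu2L.2.2 true).mul_const ((Q.ϖ : K) ^ (-1 : ℤ))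
      simp only [cw, cond_true] at h ⊢
      rwa [← zpow_add₀ Q.ϖ_ne, show (-1 : ℤ) + (j + 1) = j by ring] at h
  · rw [← Algebra.smul_def, map_smul, smul_eq_mul, ← mul_assoc, zpow_neg_one,
      mul_inv_cancel₀ Q.ϖ_ne, one_mul, hu2, hu1]
    simp only [map_sub, map_sum, ← Algebra.smul_def, map_smul, hky, hkz, smul_zero,
      Finset.sum_const_zero, sub_zero]

end RatData

end Fermat.Agent.LoweringAtP
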