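import Mathlib.FieldTheory.IsAlgClosed.Basic
import Fermat.Agent.LoweringAtP.Rat

/-!
# The slope theorem

For rational torsion data of scales `γ₀` and `γ₀ ϖ ^ C` on the two components, the orders of the
reductions are divisible by `m` off the nodes, and the slope `a` at every node satisfies
`m ∣ e a - C`.
-/

noncomputable section

open AlgebraicCurve Fermat.Agent.Red Fermat.Agent.TwoComponent

namespace Fermat.Agent.LoweringAtP

variable {K k F Fk : Type*} [Field K] [Field F] [Algebra K F] [Field k] [Field Fk] [Algebra k Fk]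
variable {A : ValuationSubring K} {π : A →+* k} {S : Type*} [Fintype S]
variable {T : TwoRed A π F Fk S} {Ud : UnitData T}

/-- A root of an element of the maximal ideal lies in the maximal ideal. -/
theorem pi_eq_zero_of_pow {x : K} {m : ℕ} (hm : 0 < m)
    (h : ∃ hx : x ^ m ∈ A, π ⟨_, hx⟩ = 0) : ∃ hx : x ∈ A, π ⟨x, hx⟩ = 0 := by
  obtain ⟨hx, hπ⟩ := h
  have hxA : x ∈ A := by
    rcases A.mem_or_inv_mem x with h | h
    · exact h
    rcases eq_or_ne x 0 with rfl | h0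
    · exact A.zero_mem
    have he : x = x ^ m * x⁻¹ ^ (m - 1) := by
      obtain ⟨l, rfl⟩ := Nat.exists_eq_succ_of_ne_zero hm.ne'
      rw [Nat.succ_sub_one, pow_succ', mul_assoc, ← mul_pow, mul_inv_cancel₀ h0, one_pow, mul_one]
    rw [he]
    exact mul_mem hx (pow_mem h _)
  refine ⟨hxA, eq_zero_of_pow_eq_zero (n := m) ?_⟩
  rw [← map_pow, show (⟨x, hxA⟩ : A) ^ m = ⟨_, hx⟩ from Subtype.ext (SubmonoidClass.coe_pow _ _),
    hπ]

namespace RatData

variable (Q : RatData Ud)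

theorem ε_ne : (Q.ε : K) ≠ 0 := fun h =>
  Q.π_ε (by rw [show Q.ε = 0 from Subtype.ext h, map_zero])

/-- Powers of `ε` are units of `A`. -/
theorem ε_zpow_mem (τ : ℤ) : (Q.ε : K) ^ τ ∈ A := by
  rcases Int.eq_nat_or_neg τ with ⟨n, rfl | rfl⟩
  · rw [zpow_natCast]; exact pow_mem Q.ε.2 n
  · rw [zpow_neg, zpow_natCast, ← inv_pow]
    exact pow_mem (inv_mem_of_pi_ne_zero (T.R false).surj_pi Q.π_ε) n

/-- A unit times a positive power of the uniformiser. -/
theorem unit_mul_zpow (τ : ℤ) {j : ℤ} (hj : 1 ≤ j) :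
    ∃ h : (Q.ε : K) ^ τ * (Q.ϖ : K) ^ j ∈ A, π ⟨_, h⟩ = 0 := by
  have h1 := Q.ε_zpow_mem τ
  have h2 : (Q.ϖ : K) ^ j ∈ A := Q.zpow_mem (by omega)
  refine ⟨mul_mem h1 h2, ?_⟩
  rw [show (⟨_, mul_mem h1 h2⟩ : A) = ⟨_, h1⟩ * ⟨_, h2⟩ from rfl, map_mul, Q.π_zpow hj h2,
    mul_zero]

/-- **The slope theorem.** -/
theorem slope [IsAlgClosed K] {m : ℕ} (hm : 0 < m) {D : Divisor K F} (hD : Q.Spans D)
    (hdeg : Divisor.degree D = 0) {f : F} (hf : f ≠ 0)
    (hdiv : ∀ P : Place K F, P.ord f = (m : ℤ) * D P) {γ₀ : K} (hγ₀ : γ₀ ≠ 0) {C : ℤ}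
    {u : ∀ i, (T.R i).O} (hu : ∀ i, (T.R i).red (u i) ≠ 0)
    (h0 : algebraMap K F γ₀ * (u false : F) = f)
    (h1 : algebraMap K F (γ₀ * (Q.ϖ : K) ^ C) * (u true : F) = f) :
    (∀ i (P : Place k Fk), (∀ s, T.br s i ≠ P) → (m : ℤ) ∣ P.ord ((T.R i).red (u i))) ∧
      ∀ s, (m : ℤ) ∣ (T.br s false).ord ((T.R false).red (u false)) +
          (T.br s true).ord ((T.R true).red (u true)) ∧
        (m : ℤ) ∣ (Q.e : ℤ) * (T.br s false).ord ((T.R false).red (u false)) - C := by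
  classical
  have data : ∀ τ : ℤ, ∃ d : WData Ud m D τ,
      (∀ i P, d.a i P = P.ord ((T.R i).red (u i))) ∧
      (d.c true / d.c false) ^ m = (Q.ε : K) ^ τ * (Q.ϖ : K) ^ ((Q.e : ℤ) * τ - C) := by
    intro τ
    obtain ⟨c0, hc0⟩ := IsAlgClosed.exists_pow_nat_eq γ₀⁻¹ hm
    obtain ⟨c1, hc1⟩ := IsAlgClosed.exists_pow_nat_eq
      ((Ud.η : K) ^ τ / (γ₀ * (Q.ϖ : K) ^ C)) hm
    have hb : γ₀ * (Q.ϖ : K) ^ C ≠ 0 := mul_ne_zero hγ₀ (Q.zpow_ne C)
    have hn : ∀ {c x : K}, c ^ m = x → x ≠ 0 → c ≠ 0 := fun h hx hc => by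
      rw [hc, zero_pow hm.ne'] at h; exact hx h.symm
    let d : WData Ud m D τ :=
      { f := f, f_ne := hf, div_f := hdiv, degree_D := hdeg
        c := fun i => bif i then c1 else c0
        c_ne := fun i => by
          cases i
          · exact hn hc0 (inv_ne_zero hγ₀)
          · exact hn hc1 (div_ne_zero (Ud.η_zpow_ne τ) hb)
        e := u
        e_eq := fun i => by
          cases i <;> simp only [UnitData.wt, cond_false, cond_true, ← map_pow]
          · rw [hc0, ← h0, ← mul_assoc, ← map_mul, inv_mul_cancel₀ hγ₀]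
          · rw [hc1, ← h1, ← mul_assoc, ← map_mul, div_mul_cancel₀ _ hb]
        e_ne := hu }
    refine ⟨d, fun i P => rfl, ?_⟩
    show (c1 / c0) ^ m = _
    rw [div_pow, hc1, hc0, Q.η_eq, mul_zpow, ← zpow_natCast (Q.ϖ : K) Q.e, ← zpow_mul,
      zpow_sub₀ Q.ϖ_ne]
    field_simp
  obtain ⟨d₀, hd₀, -⟩ := data 0
  refine ⟨fun i P hP => hd₀ i P ▸ (d₀.excess_eq_zero hm).1 i P hP, fun s => ?_⟩
  set τ := (T.br s false).ord ((T.R false).red (u false)) with hτ
  obtain ⟨d, hda, hγm⟩ := data τ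
  have hs : s ∈ d.J := d.mem_J_of_dvd hm (i := false)
    (by rw [hda, ← hτ, sgn_false, one_mul, sub_self]; exact dvd_zero _)
  refine ⟨?_, ?_⟩
  · have h := d.mem_J.mp hs true
    rw [hda, sgn_true, neg_one_mul, sub_neg_eq_add, add_comm] at h
    exact h
  by_contra hdvd
  set γ := d.c true / d.c false with hγ
  set r := (Q.e : ℤ) * τ - C with hr
  set j := r / (m : ℤ) with hj
  have hm' : (0 : ℤ) < m := by exact_mod_cast hm
  have hlo : (m : ℤ) * j < r := by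
    refine lt_of_le_of_ne (Int.mul_ediv_self_le hm'.ne') fun h => hdvd ⟨j, h.symm⟩
  have hhi : r < (m : ℤ) * (j + 1) := by
    have := Int.lt_mul_ediv_self_add (x := r) hm'
    rw [mul_add, mul_one]; exact this
  clear_value r
  have hγ0 : γ ≠ 0 := div_ne_zero (d.c_ne true) (d.c_ne false)
  have hlo' : ∃ h : γ / (Q.ϖ : K) ^ j ∈ A, π ⟨_, h⟩ = 0 := by
    refine pi_eq_zero_of_pow hm ?_
    have he : (γ / (Q.ϖ : K) ^ j) ^ m = (Q.ε : K) ^ τ * (Q.ϖ : K) ^ (r - (m : ℤ) * j) := by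
      rw [div_pow, hγm, zpow_sub₀ Q.ϖ_ne, mul_comm (m : ℤ) j, zpow_mul, zpow_natCast]
      field_simp
    obtain ⟨hA, hπ⟩ := Q.unit_mul_zpow τ (j := r - (m : ℤ) * j) (by omega)
    exact ⟨he ▸ hA, by simp only [he]; exact hπ⟩
  have hhi' : ∃ h : (Q.ϖ : K) ^ (j + 1) / γ ∈ A, π ⟨_, h⟩ = 0 := by
    refine pi_eq_zero_of_pow hm ?_
    have he : ((Q.ϖ : K) ^ (j + 1) / γ) ^ m =
        (Q.ε : K) ^ (-τ) * (Q.ϖ : K) ^ ((m : ℤ) * (j + 1) - r) := by
      rw [div_pow, hγm, zpow_sub₀ Q.ϖ_ne, mul_comm (m : ℤ) (j + 1), zpow_mul _ (j + 1),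
        zpow_natCast, zpow_neg]
      field_simp
    obtain ⟨hA, hπ⟩ := Q.unit_mul_zpow (-τ) (j := (m : ℤ) * (j + 1) - r) (by omega)
    exact ⟨he ▸ hA, by simp only [he]; exact hπ⟩
  have := T.rrF.finiteDim (D + d.bigN • T.G)
  obtain ⟨w, hw, hex⟩ := d.exists_exact hm le_rfl hs
  have himg : pairImage T.R d.c (riemannRochSpace (D + d.bigN • T.G)) =
      pairImage T.R (fun i => bif i then γ else 1) (riemannRochSpace (D + d.bigN • T.G)) := by
    rw [← pairImage_smul (d.c_ne false) (c := fun i => bif i then γ else 1)]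
    refine congrArg (fun c => pairImage T.R c _) (funext fun i => ?_)
    cases i
    · exact (mul_one _).symm
    · exact (mul_div_cancel₀ _ (d.c_ne false)).symm
  rw [himg] at hw
  obtain ⟨w', hw', h0', h1'⟩ := Q.exists_split (hD d.bigN) hγ0 hlo' hhi' hw
  rw [← himg] at hw'
  have h := ((d.image_bound hm hw').2 s).mp ⟨h0'.symm ▸ (hex false).1, h0'.symm ▸ (hex false).2⟩
  exact h.1 h1'

end RatData

end Fermat.Agent.LoweringAtP
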