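import Mathlib.FieldTheory.IntermediateField.Adjoin.Basic
import Fermat.Agent.LoweringAtP.Slope

/-!
# Totally ramified extensions of a rational structure; the derivation

`Q₀` is a rational structure with `η ~ ϖ₀`; `ϖ` is a root of `X ^ p = η (a₀ + a₁ X + ...)`.
The functions rational over `K₀(ϖ)` form a rational structure of index `p`, and every such
function in `O_i` has a first `ϖ`-coefficient, which is a derivation killing `p`-th powers.
-/

noncomputable section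

open scoped Polynomial
open AlgebraicCurve Fermat.Agent.Red Fermat.Agent.TwoComponent

namespace Fermat.Agent.LoweringAtP

variable {K k F Fk : Type*} [Field K] [Field F] [Algebra K F] [Field k] [Field Fk] [Algebra k Fk]
variable {A : ValuationSubring K} {π : A →+* k} {S : Type*} [Fintype S]
variable {T : TwoRed A π F Fk S} {Ud : UnitData T}

/-- A root of an Eisenstein equation over a rational structure of index one. -/
structure EisData (Q₀ : RatData Ud) (p : ℕ) where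
  two_le : 2 ≤ p
  e_eq : Q₀.e = 1
  η_mem : (Ud.η : K) ∈ Q₀.K₀
  /-- the root -/
  ϖ : A
  /-- the coefficients -/
  a : Fin p → A
  a_mem : ∀ j, (a j : K) ∈ Q₀.K₀
  π_a : π (a ⟨0, Nat.lt_of_lt_of_le Nat.zero_lt_two two_le⟩) ≠ 0
  eis : (ϖ : K) ^ p = (Ud.η : K) * ∑ j, (a j : K) * (ϖ : K) ^ (j : ℕ)

namespace EisData

variable {Q₀ : RatData Ud} {p : ℕ} (X : EisData Q₀ p)

theorem p_pos (X : EisData Q₀ p) : 0 < p := Nat.lt_of_lt_of_le Nat.zero_lt_two X.two_le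

/-- The unit part of `ϖ ^ p`. -/
def δ : A := ∑ j, X.a j * X.ϖ ^ (j : ℕ)

theorem ϖ_pow : X.ϖ ^ p = Ud.η * X.δ := Subtype.ext (by
  rw [SubmonoidClass.coe_pow, MulMemClass.coe_mul, X.eis, δ, AddSubmonoidClass.coe_finsetSum]
  simp only [MulMemClass.coe_mul, SubmonoidClass.coe_pow])

theorem π_ϖ : π X.ϖ = 0 := eq_zero_of_pow_eq_zero (n := p) (by
  rw [← map_pow, X.ϖ_pow, map_mul, Ud.π_η, zero_mul])

theorem π_δ : π X.δ = π (X.a ⟨0, X.p_pos⟩) := by
  rw [δ, map_sum, Finset.sum_eq_single ⟨0, X.p_pos⟩]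
  · rw [map_mul, map_pow, pow_zero, mul_one]
  · intro j _ hj
    have hj0 : (j : ℕ) ≠ 0 := fun h => hj (Fin.ext h)
    rw [map_mul, map_pow, X.π_ϖ, zero_pow hj0, mul_zero]
  · exact fun h => absurd (Finset.mem_univ _) h

theorem π_δ_ne : π X.δ ≠ 0 := X.π_δ ▸ X.π_a

theorem δ_ne : (X.δ : K) ≠ 0 := fun h =>
  X.π_δ_ne (by rw [show X.δ = 0 from Subtype.ext h, map_zero])

theorem ϖ_ne : (X.ϖ : K) ≠ 0 := fun h => by
  have e : (X.ϖ : K) ^ p = (Ud.η : K) * (X.δ : K) := congrArg Subtype.val X.ϖ_pow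
  rw [h, zero_pow X.p_pos.ne'] at e
  exact mul_ne_zero Ud.η_ne X.δ_ne e.symm

/-- The inverse of `δ`. -/
def ε : A := ⟨(X.δ : K)⁻¹, inv_mem_of_pi_ne_zero (T.R false).surj_pi X.π_δ_ne⟩

theorem π_ε : π X.ε ≠ 0 := fun h => by
  have h1 : X.ε * X.δ = 1 := Subtype.ext (inv_mul_cancel₀ X.δ_ne)
  have := congrArg π h1
  rw [map_mul, h, zero_mul, map_one] at this
  exact zero_ne_one this

theorem η_eq : (Ud.η : K) = (X.ε : K) * (X.ϖ : K) ^ p := by
  show _ = (X.δ : K)⁻¹ * _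
  rw [show (X.ϖ : K) ^ p = (Ud.η : K) * (X.δ : K) from congrArg Subtype.val X.ϖ_pow,
    mul_left_comm, inv_mul_cancel₀ X.δ_ne, mul_one]

/-- The functions rational over `K₀(ϖ)`. -/
def field : Subfield F :=
  (IntermediateField.adjoin Q₀.F₀ ({algebraMap K F (X.ϖ : K)} : Set F)).toSubfield

theorem mem_field_of_rat {u : F} (hu : u ∈ Q₀.F₀) : u ∈ X.field :=
  (IntermediateField.adjoin Q₀.F₀ ({algebraMap K F (X.ϖ : K)} : Set F)).algebraMap_mem ⟨u, hu⟩

theorem ϖ_mem_field : algebraMap K F (X.ϖ : K) ∈ X.field :=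
  IntermediateField.mem_adjoin_simple_self _ _

/-- Every element is a combination of the first `p` powers of `ϖ`. -/
theorem exists_coeffs {u : F} (hu : u ∈ X.field) :
    ∃ w : Fin p → F, (∀ j, w j ∈ Q₀.F₀) ∧
      u = ∑ j : Fin p, algebraMap K F (X.ϖ : K) ^ (j : ℕ) * w j := by
  classical
  set x : F := algebraMap K F (X.ϖ : K) with hx
  let b : Fin p → Q₀.F₀ := fun j =>
    ⟨algebraMap K F ((Ud.η : K) * (X.a j : K)),
      Q₀.const_mem _ (mul_mem X.η_mem (X.a_mem j))⟩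
  set P : Polynomial Q₀.F₀ :=
      Polynomial.X ^ p - ∑ j : Fin p, Polynomial.C (b j) * Polynomial.X ^ (j : ℕ)
  have hP : P.Monic := Polynomial.monic_X_pow_sub (Polynomial.degree_sum_fin_lt b)
  have hroot : Polynomial.aeval x P = 0 := by
    rw [map_sub, map_pow, Polynomial.aeval_X, map_sum, sub_eq_zero, hx, ← map_pow, X.eis,
      Finset.mul_sum, map_sum]
    refine Finset.sum_congr rfl fun j _ => ?_
    rw [map_mul (Polynomial.aeval _), Polynomial.aeval_C, map_pow (Polynomial.aeval _),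
      Polynomial.aeval_X]
    show _ = algebraMap K F ((Ud.η : K) * (X.a j : K)) * _
    simp only [map_mul, map_pow, mul_assoc]
  have hint : IsIntegral Q₀.F₀ x := ⟨P, hP, by rwa [← Polynomial.aeval_def]⟩
  change u ∈ (IntermediateField.adjoin Q₀.F₀ {x}).toSubalgebra at hu
  rw [IntermediateField.adjoin_simple_toSubalgebra_of_isAlgebraic hint.isAlgebraic,
    Algebra.adjoin_singleton_eq_range_aeval] at hu
  obtain ⟨q, rfl⟩ := (AlgHom.mem_range _).mp hu
  have hPd : P.natDegree = p := Polynomial.natDegree_eq_of_degree_eq_some (by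
    rw [Polynomial.degree_sub_eq_left_of_degree_lt
        (Polynomial.degree_X_pow (R := Q₀.F₀) p ▸ Polynomial.degree_sum_fin_lt b),
      Polynomial.degree_X_pow])
  have hd : (q %ₘ P).natDegree < p := by
    have := Polynomial.natDegree_modByMonic_lt q hP (fun h => by
      rw [h, Polynomial.natDegree_one] at hPd
      exact X.p_pos.ne hPd)
    omega
  refine ⟨fun j => ((q %ₘ P).coeff j : Q₀.F₀), fun j => SetLike.coe_mem _, ?_⟩
  rw [← Polynomial.aeval_modByMonic_eq_self_of_root hroot, Polynomial.aeval_eq_sum_range' hd,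
    ← Fin.sum_univ_eq_sum_range (fun j => (q %ₘ P).coeff j • x ^ j) p]
  refine Finset.sum_congr rfl fun j _ => ?_
  rw [Subfield.smul_def, smul_eq_mul, mul_comm]

/-- A power of the uniformiser of `Q₀` is a power of `ϖ` times a unit. -/
theorem ϖ₀_zpow (n : ℤ) :
    ∃ b : A, π b ≠ 0 ∧ (Q₀.ϖ : K) ^ n = (b : K) * (X.ϖ : K) ^ ((p : ℤ) * n) := by
  have hε₀ := Q₀.ε_ne
  have h0 : (Q₀.ϖ : K) = (Q₀.ε : K)⁻¹ * (X.δ : K)⁻¹ * (X.ϖ : K) ^ p := by
    have h := Q₀.η_eq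
    rw [X.e_eq, pow_one, X.η_eq] at h
    rw [mul_assoc, show (X.δ : K)⁻¹ * (X.ϖ : K) ^ p = (Q₀.ε : K) * Q₀.ϖ from h,
      inv_mul_cancel_left₀ hε₀]
  have hεA : (Q₀.ε : K)⁻¹ ∈ A := inv_mem_of_pi_ne_zero (T.R false).surj_pi Q₀.π_ε
  have hδA : (X.δ : K)⁻¹ ∈ A := inv_mem_of_pi_ne_zero (T.R false).surj_pi X.π_δ_ne
  have hmem : ((Q₀.ε : K)⁻¹ * (X.δ : K)⁻¹) ^ n ∈ A := by
    rw [mul_zpow, inv_zpow', inv_zpow']
    refine mul_mem (Q₀.ε_zpow_mem _) ?_
    rcases Int.eq_nat_or_neg (-n) with ⟨l, h | h⟩ <;> rw [h]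
    · rw [zpow_natCast]; exact pow_mem X.δ.2 l
    · rw [zpow_neg, zpow_natCast, ← inv_pow]; exact pow_mem hδA l
  have hinv : ((Q₀.ε : K) * (X.δ : K)) ^ n ∈ A := by
    rw [mul_zpow]
    refine mul_mem (Q₀.ε_zpow_mem _) ?_
    rcases Int.eq_nat_or_neg n with ⟨l, h | h⟩ <;> rw [h]
    · rw [zpow_natCast]; exact pow_mem X.δ.2 l
    · rw [zpow_neg, zpow_natCast, ← inv_pow]; exact pow_mem hδA l
  refine ⟨⟨_, hmem⟩, fun h => ?_, ?_⟩
  · have h1 : (⟨_, hmem⟩ : A) * ⟨_, hinv⟩ = 1 := Subtype.ext (by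
      show ((Q₀.ε : K)⁻¹ * (X.δ : K)⁻¹) ^ n * ((Q₀.ε : K) * (X.δ : K)) ^ n = 1
      rw [← mul_zpow, ← mul_inv_rev, mul_comm (X.δ : K), inv_mul_cancel₀ (mul_ne_zero hε₀ X.δ_ne),
        one_zpow])
    have := congrArg π h1
    rw [map_mul, h, zero_mul, map_one] at this
    exact zero_ne_one this
  · rw [h0, mul_zpow, ← zpow_natCast (X.ϖ : K) p, ← zpow_mul]

theorem zpow_mem {j : ℤ} (hj : 0 ≤ j) : (X.ϖ : K) ^ j ∈ A := by
  obtain ⟨n, rfl⟩ := Int.eq_ofNat_of_zero_le hj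
  rw [zpow_natCast]
  exact pow_mem X.ϖ.2 n

theorem π_zpow {j : ℤ} (hj : 1 ≤ j) (h : (X.ϖ : K) ^ j ∈ A) : π ⟨_, h⟩ = 0 := by
  obtain ⟨n, rfl⟩ := Int.eq_ofNat_of_zero_le (show 0 ≤ j by omega)
  rw [show (⟨(X.ϖ : K) ^ (n : ℤ), h⟩ : A) = X.ϖ ^ n from Subtype.ext (by simp), map_pow, X.π_ϖ,
    zero_pow (by omega)]

theorem not_mem_of_neg {j : ℤ} (hj : j < 0) : (X.ϖ : K) ^ j ∉ A := by
  intro h
  have h2 := X.π_zpow (j := -j) (by omega) (X.zpow_mem (by omega))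
  have h1 : (⟨_, h⟩ : A) * ⟨_, X.zpow_mem (show 0 ≤ -j by omega)⟩ = 1 :=
    Subtype.ext (by
      show (X.ϖ : K) ^ j * (X.ϖ : K) ^ (-j) = 1
      rw [← zpow_add₀ X.ϖ_ne, add_neg_cancel, zpow_zero])
  have := congrArg π h1
  rw [map_mul, h2, mul_zero, map_one] at this
  exact zero_ne_one this

/-- The scale of a combination is the smallest scale of its terms. -/
theorem scale_sum (i : Bool) {w : Fin p → F} (hw : ∀ j, w j ∈ Q₀.F₀) (hne : ∃ j, w j ≠ 0) :
    ∃ (N : ℤ) (v : (T.R i).O), (T.R i).red v ≠ 0 ∧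
      algebraMap K F ((X.ϖ : K) ^ N) * (v : F) =
        ∑ j : Fin p, algebraMap K F (X.ϖ : K) ^ (j : ℕ) * w j ∧
      ∀ j, w j ≠ 0 → ∀ (n : ℤ) (t : (T.R i).O), (T.R i).red t ≠ 0 →
        algebraMap K F ((Q₀.ϖ : K) ^ n) * (t : F) = w j → N ≤ p * n + (j : ℕ) := by
  classical
  have hsc : ∀ j, w j ≠ 0 → ∃ (n : ℤ) (t : (T.R i).O), (T.R i).red t ≠ 0 ∧
      algebraMap K F ((X.ϖ : K) ^ ((p : ℤ) * n + (j : ℕ))) * (t : F) =
        algebraMap K F (X.ϖ : K) ^ (j : ℕ) * w j ∧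
      ∀ (n' : ℤ) (t' : (T.R i).O), (T.R i).red t' ≠ 0 →
        algebraMap K F ((Q₀.ϖ : K) ^ n') * (t' : F) = w j → n' = n := by
    intro j hj
    obtain ⟨n, t, ht, he⟩ := Q₀.scale (w j) (hw j) hj i
    obtain ⟨b, hb, hbe⟩ := X.ϖ₀_zpow n
    refine ⟨n, (T.R i).ι b * t, ?_, ?_, fun n' t' ht' he' => ?_⟩
    · rw [map_mul, RedBase.red_ι]
      exact mul_ne_zero ((map_ne_zero (algebraMap k Fk)).mpr hb) ht
    · rw [← he, hbe, zpow_add₀ X.ϖ_ne, zpow_natCast, Subring.coe_mul, RedBase.coe_ι]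
      simp only [map_mul, map_pow]
      ring
    · have hd : ∀ {n₁ n₂ : ℤ} {t₁ t₂ : (T.R i).O}, (T.R i).red t₁ ≠ 0 → n₁ < n₂ →
          algebraMap K F ((Q₀.ϖ : K) ^ n₁) * (t₁ : F) ≠
            algebraMap K F ((Q₀.ϖ : K) ^ n₂) * (t₂ : F) := fun {n₁ n₂ t₁ t₂} h₁ hlt h => by
        have hA := Q₀.zpow_mem (show 0 ≤ n₂ - n₁ by omega)
        refine h₁ ?_
        have : t₁ = (T.R i).ι ⟨_, hA⟩ * t₂ := Subtype.ext (by
          refine mul_left_cancel₀ ((map_ne_zero (algebraMap K F)).mpr (Q₀.zpow_ne n₁)) ?_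
          rw [h, Subring.coe_mul, RedBase.coe_ι, ← mul_assoc, ← map_mul, ← zpow_add₀ Q₀.ϖ_ne,
            add_sub_cancel])
        rw [this, map_mul, RedBase.red_ι, Q₀.π_zpow (by omega) hA, map_zero, zero_mul]
      rcases lt_trichotomy n' n with h | h | h
      · exact absurd (he'.trans he.symm) (hd ht' h)
      · exact h
      · exact absurd (he.trans he'.symm) (hd ht h)
  choose! n t ht hte huniq using hsc
  set Sj := Finset.univ.filter fun j => w j ≠ 0 with hSj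
  obtain ⟨j₀, hj₀, hmin⟩ := Sj.exists_min_image (fun j => (p : ℤ) * n j + (j : ℕ))
    (by obtain ⟨j, hj⟩ := hne; exact ⟨j, by simp [hSj, hj]⟩)
  have hj₀' : w j₀ ≠ 0 := (Finset.mem_filter.mp hj₀).2
  set N := (p : ℤ) * n j₀ + (j₀ : ℕ) with hN
  have hd : ∀ j ∈ Sj, (X.ϖ : K) ^ ((p : ℤ) * n j + (j : ℕ) - N) ∈ A := fun j hj =>
    X.zpow_mem (by have := hmin j hj; omega)
  let v : (T.R i).O := ∑ j ∈ Sj.attach, (T.R i).ι ⟨_, hd j j.2⟩ * t j
  refine ⟨N, v, ?_, ?_, fun j hj n' t' ht' he' => ?_⟩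
  · have : (T.R i).red v = (T.R i).red (t j₀) := by
      rw [map_sum, Finset.sum_eq_single ⟨j₀, hj₀⟩]
      · rw [map_mul, RedBase.red_ι,
          show (⟨_, hd j₀ hj₀⟩ : A) = 1 from Subtype.ext (by simp [hN]), map_one, map_one, one_mul]
      · rintro ⟨j, hj⟩ _ hne'
        have hjne : j ≠ j₀ := fun h => hne' (Subtype.ext h)
        have h1 : (p : ℤ) * n j + (j : ℕ) ≠ N := fun h => hjne (by
          have hjl := j.2
          have hj0l := j₀.2
          refine Fin.ext ?_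
          have h2 : ((p : ℤ) * n j + (j : ℕ)) % p = ((p : ℤ) * n j₀ + (j₀ : ℕ)) % p := by rw [h]
          rw [Int.mul_add_emod_self_left, Int.mul_add_emod_self_left,
            Int.emod_eq_of_lt (by omega) (by omega), Int.emod_eq_of_lt (by omega) (by omega)] at h2
          omega)
        rw [map_mul, RedBase.red_ι, X.π_zpow (by have := hmin j hj; dsimp only; omega),
          map_zero, zero_mul]
      · exact fun h => absurd (Finset.mem_attach _ _) h
    rw [this]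
    exact ht j₀ hj₀'
  · simp only [v, AddSubmonoidClass.coe_finsetSum, Subring.coe_mul, RedBase.coe_ι, Finset.mul_sum]
    rw [Finset.sum_attach Sj fun j => algebraMap K F ((X.ϖ : K) ^ N) *
      (algebraMap K F ((X.ϖ : K) ^ ((p : ℤ) * n j + (j : ℕ) - N)) * (t j : F))]
    rw [← Finset.sum_subset (Finset.subset_univ Sj) fun j _ hj => by
      rw [show w j = 0 by simpa [hSj] using hj, mul_zero]]
    refine Finset.sum_congr rfl fun j hj => ?_
    rw [← mul_assoc, ← map_mul, ← zpow_add₀ X.ϖ_ne, add_sub_cancel,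
      hte j (Finset.mem_filter.mp hj).2]
  · rw [huniq j hj n' t' ht' he']
    exact hmin j (by simp [hSj, hj])

/-- Coefficients of an integral element are integral. -/
theorem coeff_mem_O {i : Bool} {w : Fin p → F} (hw : ∀ j, w j ∈ Q₀.F₀)
    (hu : ∑ j : Fin p, algebraMap K F (X.ϖ : K) ^ (j : ℕ) * w j ∈ (T.R i).O) (j : Fin p) :
    w j ∈ (T.R i).O := by
  rcases eq_or_ne (w j) 0 with h | h
  · rw [h]; exact zero_mem _
  obtain ⟨N, v, hv, he, hmin⟩ := X.scale_sum i hw ⟨j, h⟩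
  obtain ⟨n, t, ht, hte⟩ := Q₀.scale (w j) (hw j) h i
  have h1 := hmin j h n t ht hte
  have hN : 0 ≤ N := by
    by_contra hlt
    push Not at hlt
    have hA : (X.ϖ : K) ^ (-N) ∈ A := X.zpow_mem (by omega)
    refine hv ?_
    have : v = (T.R i).ι ⟨_, hA⟩ * ⟨_, hu⟩ := Subtype.ext (by
      refine mul_left_cancel₀ ((map_ne_zero (algebraMap K F)).mpr (zpow_ne_zero N X.ϖ_ne)) ?_
      rw [he, Subring.coe_mul, RedBase.coe_ι, ← mul_assoc, ← map_mul, ← zpow_add₀ X.ϖ_ne,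
        add_neg_cancel, zpow_zero, map_one, one_mul])
    rw [this, map_mul, RedBase.red_ι, X.π_zpow (by omega) hA, map_zero, zero_mul]
  have hjl := j.2
  have hn : 0 ≤ n := by
    by_contra hlt
    push Not at hlt
    have : (p : ℤ) * n ≤ p * (-1) := mul_le_mul_of_nonneg_left (by omega) (by omega)
    omega
  rw [← hte]
  exact mul_mem ((T.R i).algebraMap_mem ⟨_, Q₀.zpow_mem hn⟩) t.2

/-- The rational structure of index `p`. -/
def ratData : RatData Ud where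
  K₀ := X.field.comap (algebraMap K F)
  F₀ := X.field
  const_mem _ ha := ha
  ϖ := X.ϖ
  ϖ_mem := X.ϖ_mem_field
  ϖ_ne := X.ϖ_ne
  π_ϖ := X.π_ϖ
  lift r := by
    obtain ⟨a, ha, hr⟩ := Q₀.lift r
    exact ⟨a, X.mem_field_of_rat (Q₀.const_mem _ ha), hr⟩
  e := p
  e_pos := X.p_pos
  ε := X.ε
  π_ε := X.π_ε
  η_eq := X.η_eq
  scale u hu hu0 i := by
    obtain ⟨w, hw, rfl⟩ := X.exists_coeffs hu
    obtain ⟨N, v, hv, he, -⟩ := X.scale_sum i hw (by
      by_contra hcon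
      push Not at hcon
      exact hu0 (Finset.sum_eq_zero fun j _ => by rw [hcon j, mul_zero]))
    exact ⟨N, v, hv, he⟩

/-- `d` is the first `ϖ`-coefficient of `u`. -/
def HasDer (i : Bool) (u : F) (d : Fk) : Prop :=
  ∃ w v : (T.R i).O, (w : F) ∈ Q₀.F₀ ∧ u = (w : F) + algebraMap K F (X.ϖ : K) * (v : F) ∧
    (T.R i).red v = d

/-- An integral function of the field has a first coefficient on each component. -/
theorem exists_hasDer {i : Bool} {u : F} (hu : u ∈ X.field) (hO : u ∈ (T.R i).O) :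
    ∃ d, X.HasDer i u d := by
  classical
  obtain ⟨w, hw, rfl⟩ := X.exists_coeffs hu
  have hwO := X.coeff_mem_O hw hO
  set j₀ : Fin p := ⟨0, X.p_pos⟩
  refine ⟨_, ⟨w j₀, hwO j₀⟩, ∑ j ∈ Finset.univ.erase j₀,
    (T.R i).ι X.ϖ ^ ((j : ℕ) - 1) * ⟨w j, hwO j⟩, hw j₀, ?_, rfl⟩
  rw [AddSubmonoidClass.coe_finsetSum, Finset.mul_sum,
    ← Finset.add_sum_erase _ _ (Finset.mem_univ j₀)]
  refine congrArg₂ (· + ·) (by simp [j₀]) (Finset.sum_congr rfl fun j hj => ?_)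
  have hj0 : (j : ℕ) ≠ 0 := fun h => (Finset.mem_erase.mp hj).1 (Fin.ext h)
  rw [Subring.coe_mul, SubmonoidClass.coe_pow, RedBase.coe_ι, ← mul_assoc, ← pow_succ',
    Nat.sub_add_cancel (Nat.one_le_iff_ne_zero.mpr hj0)]

/-- The first coefficient on a component is unique. -/
theorem hasDer_unique {i : Bool} {u : F} {d d' : Fk} (h : X.HasDer i u d)
    (h' : X.HasDer i u d') : d = d' := by
  obtain ⟨w, v, hw, he, rfl⟩ := h
  obtain ⟨w', v', hw', he', rfl⟩ := h'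
  have hd : ((w - w' : (T.R i).O) : F) = algebraMap K F (X.ϖ : K) * ((v' : F) - v) := by
    rw [AddSubgroupClass.coe_sub]
    linear_combination he' - he
  have hred : (T.R i).red (w - w') = 0 := by
    rw [show w - w' = (T.R i).ι X.ϖ * (v' - v) from Subtype.ext hd, map_mul, RedBase.red_ι,
      X.π_ϖ, map_zero, zero_mul]
  obtain ⟨z, hz⟩ := Q₀.inO_succ (i := i) (j := 0) (sub_mem hw hw') (v := w - w')
    (by simp) hred
  obtain ⟨b, -, hb⟩ := X.ϖ₀_zpow 1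
  have hz' : v' - v = (T.R i).ι (b * X.ϖ ^ (p - 1)) * z := Subtype.ext (by
    refine mul_left_cancel₀ ((map_ne_zero (algebraMap K F)).mpr X.ϖ_ne) ?_
    rw [AddSubgroupClass.coe_sub, ← hd, Subring.coe_mul, RedBase.coe_ι, MulMemClass.coe_mul,
      SubmonoidClass.coe_pow, AddSubgroupClass.coe_sub, ← hz, zero_add, hb, mul_one, zpow_natCast]
    rw [show (X.ϖ : K) ^ p = X.ϖ * (X.ϖ : K) ^ (p - 1) by
      rw [← pow_succ', Nat.sub_add_cancel X.p_pos]]
    simp only [map_mul]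
    ring)
  have := congrArg (T.R i).red hz'
  rw [map_sub, map_mul, RedBase.red_ι, map_mul π, map_pow π, X.π_ϖ,
    zero_pow (by have := X.two_le; omega), mul_zero, map_zero, zero_mul, sub_eq_zero] at this
  exact this.symm

theorem hasDer_rat {i : Bool} {u : (T.R i).O} (hu : (u : F) ∈ Q₀.F₀) : X.HasDer i u 0 :=
  ⟨u, 0, hu, by simp, map_zero _⟩

theorem hasDer_mul {i : Bool} {u u' : (T.R i).O} {d d' : Fk} (h : X.HasDer i u d)
    (h' : X.HasDer i u' d') :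
    X.HasDer i ((u * u' : (T.R i).O) : F)
      ((T.R i).red u * d' + d * (T.R i).red u') := by
  obtain ⟨w, v, hw, he, rfl⟩ := h
  obtain ⟨w', v', hw', he', rfl⟩ := h'
  have hu : u = w + (T.R i).ι X.ϖ * v := Subtype.ext he
  have hu' : u' = w' + (T.R i).ι X.ϖ * v' := Subtype.ext he'
  refine ⟨w * w', w * v' + v * w' + (T.R i).ι X.ϖ * (v * v'), mul_mem hw hw', ?_, ?_⟩
  · rw [Subring.coe_mul, he, he']
    simp only [Subring.coe_mul, Subring.coe_add, RedBase.coe_ι]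
    ring
  · simp only [map_add, map_mul, hu, hu', RedBase.red_ι, X.π_ϖ, map_zero, zero_mul, add_zero]

/-- The first coefficient of `δ`. -/
theorem hasDer_δ (i : Bool) :
    X.HasDer i ((T.R i).ι X.δ : F) (algebraMap k Fk (π (X.a ⟨1, X.two_le⟩))) := by
  classical
  set j₀ : Fin p := ⟨0, X.p_pos⟩
  set j₁ : Fin p := ⟨1, X.two_le⟩
  refine ⟨(T.R i).ι (X.a j₀), (T.R i).ι (∑ j ∈ Finset.univ.erase j₀,
    X.ϖ ^ ((j : ℕ) - 1) * X.a j), by simpa using Q₀.const_mem _ (X.a_mem j₀), ?_, ?_⟩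
  · rw [RedBase.coe_ι, RedBase.coe_ι, RedBase.coe_ι, ← map_mul, ← map_add, δ]
    refine congrArg _ ?_
    rw [AddSubmonoidClass.coe_finsetSum, AddSubmonoidClass.coe_finsetSum, Finset.mul_sum,
      ← Finset.add_sum_erase _ _ (Finset.mem_univ j₀)]
    refine congrArg₂ (· + ·) (by simp [j₀]) (Finset.sum_congr rfl fun j hj => ?_)
    have hj0 : (j : ℕ) ≠ 0 := fun h => (Finset.mem_erase.mp hj).1 (Fin.ext h)
    simp only [MulMemClass.coe_mul, SubmonoidClass.coe_pow]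
    rw [← mul_assoc, ← pow_succ', Nat.sub_add_cancel (Nat.one_le_iff_ne_zero.mpr hj0), mul_comm]
  · rw [RedBase.red_ι, map_sum, Finset.sum_eq_single j₁]
    · simp [j₁]
    · intro j hj hne
      have hj0 : (j : ℕ) ≠ 0 := fun h => (Finset.mem_erase.mp hj).1 (Fin.ext h)
      have hj1 : (j : ℕ) ≠ 1 := fun h => hne (Fin.ext h)
      rw [map_mul, map_pow, X.π_ϖ, zero_pow (by omega), zero_mul]
    · intro h
      refine absurd (Finset.mem_erase.mpr ⟨?_, Finset.mem_univ _⟩) h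
      simp [j₀, j₁, Fin.ext_iff]

end EisData

end Fermat.Agent.LoweringAtP
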