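import Fermat.Agent.LoweringAtP.Der
import Fermat.Agent.TwoComponent.NormFormula

/-!
# Rational functions with prescribed reductions and weights

Modification of a function by rational ones, used to climb in the level argument of Mazur's
principle at `p`.
-/

noncomputable section

open AlgebraicCurve Fermat.Agent.Red Fermat.Agent.TwoComponent

namespace Fermat.Agent.LoweringAtP

variable {K k F Fk : Type*} [Field K] [Field F] [Algebra K F] [Field k] [Field Fk] [Algebra k Fk]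
variable {A : ValuationSubring K} {π : A →+* k} {S : Type*} [Fintype S]
variable {T : TwoRed A π F Fk S} {Ud : UnitData T} {Q₀ : RatData Ud} {p : ℕ}

/-- A pair of nonzero reduced functions lifts to a rational function. -/
theorem exists_rat_pair (h0 : Q₀.Spans 0) (w : Bool → Fk) (hw : ∀ i, w i ≠ 0) :
    ∃ g ∈ Q₀.F₀, g ≠ 0 ∧ ∀ i, ∃ v : (T.R i).O, (v : F) = g ∧ (T.R i).red v = w i := by
  obtain ⟨n, hn, z, hz0, hzm, hwm⟩ := T.exists_glued_factor w hw
  obtain ⟨U', hU', hUl⟩ := T.exists_lift hn hwm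
  obtain ⟨Z', hZ', hZl⟩ := T.exists_lift hn hzm
  choose Uv' hUv' hUr' using hUl
  choose Zv' hZv' hZr' using hZl
  obtain ⟨U, -, hUF, hU⟩ := EisData.exists_rat_lift h0 hU' Uv' hUv'
  obtain ⟨Z, -, hZF, hZ⟩ := EisData.exists_rat_lift h0 hZ' Zv' hZv'
  choose Uv hUv hUr using hU
  choose Zv hZv hZr using hZ
  choose r hr hrr using fun i => inv_mem_O (T.R i) (u := Zv i)
    (by rw [hZr, hZr']; exact hz0 i)
  have hred : ∀ i, (T.R i).red (Uv i * r i) = w i := fun i => by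
    rw [map_mul, hrr, hUr, hZr, hUr', hZr', mul_assoc, mul_inv_cancel₀ (hz0 i), mul_one]
  refine ⟨U * Z⁻¹, mul_mem hUF (inv_mem hZF), ?_,
    fun i => ⟨Uv i * r i, by rw [Subring.coe_mul, hr, hUv, hZv], hred i⟩⟩
  have := (T.R false).coe_ne_zero (u := Uv false * r false) (by rw [hred]; exact hw false)
  rwa [Subring.coe_mul, hr, hUv, hZv] at this

/-- A rational function with reduction `w` on one component, deep on the other. -/
theorem EisData.exists_deep (X : EisData Q₀ p) (h0 : Q₀.Spans 0) (i : Bool) {w : Fk} (hw : w ≠ 0)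
    (N : ℕ) :
    ∃ g ∈ X.field, (∃ v : (T.R i).O, (v : F) = g ∧ (T.R i).red v = w) ∧
      InO T (!i) ((X.ϖ : K) ^ N) g := by
  set t := (T.R i).red ⟨T.x, T.x_mem i⟩ with ht
  obtain ⟨g₁, hg₁, -, h₁⟩ := exists_rat_pair h0 (fun j => if j = i then 1 + t else 1) (fun j => by
    by_cases hj : j = i
    · simp only [hj, if_true]; exact T.one_add_red_x_ne_zero i
    · simp only [hj, if_false]; exact one_ne_zero)
  obtain ⟨g₂, hg₂, -, h₂⟩ := exists_rat_pair h0 (fun j => if j = i then t else 1) (fun j => by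
    by_cases hj : j = i
    · simp only [hj, if_true]; exact T.red_x_ne_zero i
    · simp only [hj, if_false]; exact one_ne_zero)
  obtain ⟨g₃, hg₃, -, h₃⟩ := exists_rat_pair h0 (fun j => if j = i then w else 1) (fun j => by
    by_cases hj : j = i
    · simp only [hj, if_true]; exact hw
    · simp only [hj, if_false]; exact one_ne_zero)
  choose v₁ hv₁ hr₁ using h₁
  choose v₂ hv₂ hr₂ using h₂
  choose v₃ hv₃ hr₃ using h₃
  have hF : g₁ - g₂ ∈ X.field := X.mem_field_of_rat (sub_mem hg₁ hg₂)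
  have hbool : ((!i) = i) = False := by cases i <;> simp
  obtain ⟨d, hd⟩ := X.ratData.inO_succ (i := !i) (j := 0) hF (v := v₁ (!i) - v₂ (!i))
    (by rw [zpow_zero, map_one, one_mul, AddSubgroupClass.coe_sub, hv₁, hv₂])
    (by rw [map_sub, hr₁, hr₂]; simp [hbool])
  rw [zero_add, zpow_one] at hd
  refine ⟨g₃ * (g₁ - g₂) ^ N, mul_mem (X.mem_field_of_rat hg₃) (pow_mem hF N),
    ⟨v₃ i * (v₁ i - v₂ i) ^ N, ?_, ?_⟩, ⟨v₃ (!i) * d ^ N, ?_⟩⟩
  · rw [Subring.coe_mul, SubmonoidClass.coe_pow, AddSubgroupClass.coe_sub, hv₁, hv₂, hv₃]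
  · rw [map_mul, map_pow, map_sub, hr₁, hr₂, hr₃]
    simp
  · rw [Subring.coe_mul, SubmonoidClass.coe_pow, hv₃, ← hd, mul_pow, map_pow]
    show algebraMap K F (X.ϖ : K) ^ N * (g₃ * (d : F) ^ N) =
      g₃ * (algebraMap K F (X.ratData.ϖ : K) ^ N * (d : F) ^ N)
    exact mul_left_comm _ _ _

/-- Prescribed reductions at the weights `(1, ϖ ^ j)`. -/
theorem EisData.exists_pair (X : EisData Q₀ p) (h0 : Q₀.Spans 0) (w : Bool → Fk)
    (hw : ∀ i, w i ≠ 0) (j : ℤ) :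
    ∃ g ∈ X.field, g ≠ 0 ∧ ∃ v : ∀ i, (T.R i).O, (∀ i, (T.R i).red (v i) = w i) ∧
      (v false : F) = g ∧ algebraMap K F ((X.ϖ : K) ^ j) * (v true : F) = g := by
  set N := j.natAbs + 1 with hN
  obtain ⟨a, ha, ⟨a₀, ha₀, har⟩, hOa⟩ := X.exists_deep h0 false (hw false) N
  obtain ⟨a₁, ha₁⟩ : InO T true ((X.ϖ : K) ^ N) a := hOa
  obtain ⟨b, hb, ⟨b₁, hb₁, hbr⟩, hOb⟩ := X.exists_deep h0 true (hw true) N
  obtain ⟨b₀, hb₀⟩ : InO T false ((X.ϖ : K) ^ N) b := hOb
  have hp0 : algebraMap K F ((X.ϖ : K) ^ j) ≠ 0 := (map_ne_zero _).mpr (zpow_ne_zero _ X.ϖ_ne)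
  have hA0 : (X.ϖ : K) ^ (j + (N : ℤ)) ∈ A := X.zpow_mem (by omega)
  have hA1 : (X.ϖ : K) ^ ((N : ℤ) - j) ∈ A := X.zpow_mem (by omega)
  set g := a + algebraMap K F ((X.ϖ : K) ^ j) * b with hg
  let v : ∀ i, (T.R i).O := fun i => match i with
    | false => a₀ + (T.R false).ι ⟨_, hA0⟩ * b₀
    | true => b₁ + (T.R true).ι ⟨_, hA1⟩ * a₁
  have hv0 : (v false : F) = g := by
    show ((a₀ + (T.R false).ι ⟨_, hA0⟩ * b₀ : (T.R false).O) : F) = g
    rw [Subring.coe_add, Subring.coe_mul, RedBase.coe_ι, ha₀, hg, ← hb₀, ← mul_assoc, ← map_mul]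
    show a + algebraMap K F ((X.ϖ : K) ^ (j + (N : ℤ))) * _ = _
    rw [zpow_add₀ X.ϖ_ne, zpow_natCast]
  have hv1 : algebraMap K F ((X.ϖ : K) ^ j) * (v true : F) = g := by
    show algebraMap K F ((X.ϖ : K) ^ j) *
      ((b₁ + (T.R true).ι ⟨_, hA1⟩ * a₁ : (T.R true).O) : F) = g
    rw [Subring.coe_add, Subring.coe_mul, RedBase.coe_ι, hb₁, mul_add, ← mul_assoc, ← map_mul,
      ← zpow_add₀ X.ϖ_ne, add_sub_cancel, zpow_natCast, hg, ← ha₁, add_comm]
  have hr : ∀ i, (T.R i).red (v i) = w i := fun i => by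
    cases i
    · show (T.R false).red (a₀ + (T.R false).ι ⟨_, hA0⟩ * b₀) = _
      rw [map_add, map_mul, RedBase.red_ι, X.π_zpow (by omega) hA0, map_zero, zero_mul, add_zero,
        har]
    · show (T.R true).red (b₁ + (T.R true).ι ⟨_, hA1⟩ * a₁) = _
      rw [map_add, map_mul, RedBase.red_ι, X.π_zpow (by omega) hA1, map_zero, zero_mul, add_zero,
        hbr]
  refine ⟨g, add_mem ha (mul_mem (X.ratData.zpow_mem_K₀ j) hb), ?_, v, hr, hv0, hv1⟩
  rw [← hv0]
  exact (T.R false).coe_ne_zero (by rw [hr]; exact hw false)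

end Fermat.Agent.LoweringAtP
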