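import Fermat.Agent.LoweringAtP.Levels

/-!
# Climbing to `ϖ ^ (p + 2)`

From trivial reductions and trivial norms, successive modifications of an approximate `p`-th root
by rational functions reach level `p + 2` in powers of `ϖ`; then the divisor is principal.
-/

noncomputable section

open AlgebraicCurve Fermat.Agent.Red Fermat.Agent.TwoComponent

namespace Fermat.Agent.LoweringAtP

variable {K k F Fk : Type*} [Field K] [Field F] [Algebra K F] [Field k] [Field Fk] [Algebra k Fk]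
variable {A : ValuationSubring K} {π : A →+* k} {S : Type*} [Fintype S]
variable {T : TwoRed A π F Fk S} {Ud : UnitData T} {Q₀ : RatData Ud} {p : ℕ}

namespace EisData

variable (X : EisData Q₀ p)

/-- An approximate `p`-th root of `u⁻¹` at level `l`. -/
def Approx (D : Divisor K F) (u : F) (r : Bool → k) (l : ℕ) : Prop :=
  ∃ (n : ℕ) (y : F) (s : A) (φ : ∀ i, (T.R i).O),
    T.bigN ≤ n ∧ y ∈ riemannRochSpace (D + n • T.G) ∧ y ∈ X.field ∧
      (s : K) ∈ X.ratData.K₀ ∧ π s = 1 ∧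
      (∀ i, ∃ v : (T.R i).O, (v : F) = y ∧ (T.R i).red v = algebraMap k Fk (r i)) ∧
      ∀ i, algebraMap K F (s : K) * u * y ^ p = 1 + algebraMap K F ((X.ϖ : K) ^ l) * (φ i : F)

/-- Vanishing first terms move up one level. -/
theorem exists_next {g : F} (hg : g ∈ X.field) {l : ℕ} (q : ∀ i, (T.R i).O)
    (hq : ∀ i, g = 1 + algebraMap K F ((X.ϖ : K) ^ l) * (q i : F))
    (hq0 : ∀ i, (T.R i).red (q i) = 0) :
    ∃ φ : ∀ i, (T.R i).O, ∀ i, g = 1 + algebraMap K F ((X.ϖ : K) ^ (l + 1)) * (φ i : F) := by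
  choose φ hφ using fun i => X.ratData.inO_succ (i := i) (j := (l : ℤ)) (u := g - 1)
    (sub_mem hg (one_mem _)) (v := q i)
    (by show algebraMap K F ((X.ϖ : K) ^ (l : ℤ)) * _ = _
        rw [zpow_natCast, hq i, add_sub_cancel_left]) (hq0 i)
  refine ⟨φ, fun i => ?_⟩
  have h : algebraMap K F ((X.ϖ : K) ^ ((l : ℤ) + 1)) * (φ i : F) = g - 1 := hφ i
  rw [show ((l : ℤ) + 1) = ((l + 1 : ℕ) : ℤ) by push_cast; ring, zpow_natCast] at h
  rw [h, add_sub_cancel]

/-- Trivial data from constant reductions. -/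
theorem exists_trivial [IsAlgClosed K] (hp : p.Prime) (hpk : (p : k) = 0) {D : Divisor K F}
    (hdeg : Divisor.degree D = 0) {f : F} (hf : f ≠ 0)
    (hdiv : ∀ P : Place K F, P.ord f = (p : ℤ) * D P) {γ₀ : K} (hγ₀ : γ₀ ≠ 0) {u : F}
    (hfu : f = algebraMap K F γ₀ * u) {w : ∀ i, (T.R i).O} (hw : ∀ i, (w i : F) = u)
    {a : Bool → k} (hwr : ∀ i, (T.R i).red (w i) = algebraMap k Fk (a i)) {r : Bool → A}
    (hr : ∀ i, π (r i) ^ p * a i = 1) {s : A} (hs : π s = 1) :
    ∃ (t c₀ : K) (d : T.TrivialData p D), t ^ p = (s : K) ∧ c₀ ^ p = γ₀⁻¹ ∧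
      (∀ i, d.c i = t * c₀ * (r i : K)) ∧
      ∀ i, d.e i = (T.R i).ι (s * r i ^ p) * w i := by
  have : Fact p.Prime := ⟨hp⟩
  have : CharP k p := (CharP.charP_iff_prime_eq_zero hp).mpr hpk
  obtain ⟨t, ht⟩ := IsAlgClosed.exists_pow_nat_eq (s : K) hp.pos
  obtain ⟨c₀, hc₀⟩ := IsAlgClosed.exists_pow_nat_eq γ₀⁻¹ hp.pos
  have ht0 : t ≠ 0 := fun h => by
    rw [h, zero_pow hp.ne_zero] at ht
    rw [show s = 0 from Subtype.ext ht.symm, map_zero] at hs
    exact zero_ne_one hs
  have hc0 : c₀ ≠ 0 := fun h => inv_ne_zero hγ₀ (by rw [← hc₀, h, zero_pow hp.ne_zero])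
  have hr0 : ∀ i, (r i : K) ≠ 0 := fun i h => by
    have := hr i
    rw [show r i = 0 from Subtype.ext h, map_zero, zero_pow hp.ne_zero, zero_mul] at this
    exact zero_ne_one this
  have he : ∀ i, (T.R i).red ((T.R i).ι (s * r i ^ p) * w i) = 1 := fun i => by
    rw [map_mul, RedBase.red_ι, hwr, ← map_mul, map_mul π, map_pow, hs, one_mul, hr, map_one]
  let d : T.NormalData p D :=
    { f := f, f_ne := hf, div_f := hdiv, degree_D := hdeg
      c := fun i => t * c₀ * (r i : K)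
      c_ne := fun i => mul_ne_zero (mul_ne_zero ht0 hc0) (hr0 i)
      e := fun i => (T.R i).ι (s * r i ^ p) * w i
      e_eq := fun i => by
        rw [Subring.coe_mul, RedBase.coe_ι, hw, hfu, ← map_pow, ← mul_assoc, ← map_mul]
        congr 2
        rw [MulMemClass.coe_mul, SubmonoidClass.coe_pow, mul_pow, mul_pow, ht, hc₀]
        field_simp
      e_ne := fun i => by rw [he]; exact one_ne_zero
      e_br := fun s i => by rw [he, Place.ord_one] }
  refine ⟨t, c₀, d.toTrivial hp.pos he fun s' => ?_, ht, hc₀, fun i => rfl, fun i => rfl⟩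
  refine frobenius_inj k p ?_
  rw [frobenius_def, frobenius_def, one_pow, d.lines_pow hp.pos he]

/-- The starting point. -/
theorem approx_one [IsAlgClosed K] (hp : p.Prime) (hpk : (p : k) = 0) {D : Divisor K F}
    (hD : X.ratData.Spans D) (hdeg : Divisor.degree D = 0) {f : F} (hf : f ≠ 0)
    (hdiv : ∀ P : Place K F, P.ord f = (p : ℤ) * D P) {γ₀ : K} (hγ₀ : γ₀ ≠ 0) {u : F}
    (hu : u ∈ X.field) (hfu : f = algebraMap K F γ₀ * u) {w : ∀ i, (T.R i).O}
    (hw : ∀ i, (w i : F) = u) {a : Bool → k}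
    (hwr : ∀ i, (T.R i).red (w i) = algebraMap k Fk (a i)) {r : Bool → k}
    (hr : ∀ i, r i ^ p * a i = 1) : X.Approx D u r 1 := by
  choose rA _ hrA using fun i => X.ratData.lift (r i)
  obtain ⟨t, c₀, d, ht, hc₀, hdc, -⟩ := exists_trivial (T := T) hp hpk hdeg hf hdiv hγ₀ hfu hw hwr
    (r := rA) (fun i => by rw [hrA]; exact hr i) (s := 1) (map_one π)
  set n := max d.N T.bigN
  have htc : t * c₀ ≠ 0 := left_ne_zero_of_mul (hdc false ▸ d.c_ne false)
  have := T.rrF.finiteDim (D + n • T.G)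
  have hmem : (fun i => algebraMap k Fk (r i)) ∈
      pairImage T.R (X.ratData.cw 0) (riemannRochSpace (D + n • T.G)) := by
    obtain ⟨y, hy, h⟩ := (d.image_eq n (le_max_left _ _)).symm ▸ T.one_mem_glued n
    refine ⟨(t * c₀)⁻¹ • y, Submodule.smul_mem _ _ hy, fun i => ?_⟩
    obtain ⟨v, hv, hvr⟩ := h i
    refine ⟨(T.R i).ι (rA i) * v, ?_, by rw [map_mul, RedBase.red_ι, hrA, hvr, mul_one]⟩
    rw [Subring.coe_mul, RedBase.coe_ι, Algebra.smul_def, ← hv, hdc, ← mul_assoc, ← mul_assoc,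
      ← map_mul, ← map_mul]
    congr 2
    rw [← mul_assoc _ _ (rA i : K), inv_mul_cancel₀ htc, one_mul]
    cases i <;> simp [RatData.cw]
  rw [← X.ratData.ratPairs_eq (hD n)] at hmem
  obtain ⟨y, hy, hyF, h⟩ := hmem
  choose v hv hvr using h
  have hvy : ∀ i, (v i : F) = y := fun i => by
    rw [← hv i]; cases i <;> simp [RatData.cw]
  obtain ⟨φ, hφ⟩ := X.exists_next (g := algebraMap K F ((1 : A) : K) * u * y ^ p)
    (by rw [OneMemClass.coe_one, map_one, one_mul]; exact mul_mem hu (pow_mem hyF _)) (l := 0)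
    (fun i => w i * v i ^ p - 1) (fun i => by
      rw [AddSubgroupClass.coe_sub, Subring.coe_mul, SubmonoidClass.coe_pow, Subring.coe_one, hw,
        hvy, OneMemClass.coe_one, pow_zero, map_one, one_mul, one_mul, add_sub_cancel])
    (fun i => by
      rw [map_sub, map_mul, map_pow, map_one, hwr, hvr, ← map_pow, ← map_mul, mul_comm, hr,
        map_one, sub_self])
  exact ⟨n, y, 1, φ, le_max_right _ _, hy, hyF, by rw [OneMemClass.coe_one]; exact one_mem _,
    map_one π, fun i => ⟨v i, hvy i, hvr i⟩, hφ⟩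

/-- `p`-th roots of glued functions are glued. -/
theorem root_mem_glued [CharP k p] (hp : p.Prime) {n : ℕ} {ξ : Bool → Fk}
    (hξ : (fun i => ξ i ^ p) ∈ T.glued (fun i => (p * n) • T.Gk i) 1) :
    ξ ∈ T.glued (fun i => n • T.Gk i) 1 := by
  have : Fact p.Prime := ⟨hp⟩
  have hl0 : (0 : ℤ) < p := by exact_mod_cast hp.pos
  have hreg : ∀ t i, ξ i ∈ (T.br t i).toValuationSubring := fun t i => by
    have h1 := hξ.2.1 t i
    rw [mem_place_iff] at h1 ⊢
    dsimp only at h1
    rw [Red.ord_pow] at h1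
    nlinarith
  refine ⟨fun i => mem_riemannRochSpace_iff.mpr fun P => or_iff_not_imp_left.mpr fun h0 => ?_,
    hreg, fun t => ?_⟩
  · have h1 := ((mem_riemannRochSpace_iff.mp (hξ.1 i)) P).resolve_left
      (pow_ne_zero _ h0)
    dsimp only at h1 ⊢
    rw [Red.ord_pow, Finsupp.smul_apply, nsmul_eq_mul] at h1
    rw [Finsupp.smul_apply, nsmul_eq_mul]
    push_cast at h1
    nlinarith
  · have h1 := hξ.2.2 t
    simp only [Pi.one_apply, one_mul] at h1 ⊢
    rw [ev_pow (T.deg_br t false) (hreg t false),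
      ev_pow (T.deg_br t true) (hreg t true)] at h1
    exact frobenius_inj k p h1

/-- An approximation of order `l ≤ p + 1` improves to order `l + 1`. -/
theorem approx_succ [IsAlgClosed K] [Nonempty S] (hp : p.Prime) (hpk : (p : k) = 0) (hp2 : p ≠ 2)
    {W : A} (hpW : (p : K) = (W : K) * (X.ϖ : K) ^ p) (h00 : Q₀.Spans 0) {D : Divisor K F}
    {f : F} (hdiv : ∀ P : Place K F, P.ord f = (p : ℤ) * D P) (hf : f ≠ 0) {γ₀ : K} (hγ₀ : γ₀ ≠ 0)
    {u : F} (hu : u ∈ X.field) (hfu : f = algebraMap K F γ₀ * u) {F' : Type*} [Field F']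
    [Algebra K F'] (ns : ∀ i, NormSide X i F')
    (hN : ∀ i, ∃ (b : K), ∃ h ∈ (ns i).F₁, (ns i).N u = algebraMap K F' b * h ^ p)
    {r : Bool → k} {l : ℕ} (hl : 1 ≤ l) (hl' : l ≤ p + 1) (h : X.Approx D u r l) :
    X.Approx D u r (l + 1) := by
  classical
  have : Fact p.Prime := ⟨hp⟩
  have : CharP k p := (CharP.charP_iff_prime_eq_zero hp).mpr hpk
  have : CharP Fk p := charP_of_injective_algebraMap (algebraMap k Fk).injective p
  obtain ⟨n, y, s, φ, hn, hy, hyF, hs, hsπ, hyv, hg⟩ := h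
  set g := algebraMap K F (s : K) * u * y ^ p with hgdef
  have hgF : g ∈ X.field := mul_mem (mul_mem hs hu) (pow_mem hyF _)
  have hϖl : algebraMap K F ((X.ϖ : K) ^ l) ≠ 0 := (map_ne_zero _).mpr (pow_ne_zero _ X.ϖ_ne)
  -- the norms bound the first terms
  have hfirst : ∀ i, ∃ (β : k) (ζ : Fk), (T.R i).red (φ i) = algebraMap k Fk β + ζ ^ p ∧
      (l ≠ p → ζ = 0) := by
    intro i
    obtain ⟨b, h, hh, hNu⟩ := hN i
    obtain ⟨bs, hbs⟩ := (ns i).N_algebraMap (s : K)
    obtain ⟨χ, hχ, hχr⟩ := (ns i).N_first l hl hl' g hgF φ hg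
    obtain ⟨β, ζ, h1, h2⟩ := (ns i).first_term hp hpk hpW (c := bs * b) (H := h * (ns i).N y)
      (mul_mem hh ((ns i).N_mem y hyF)) hl hl' (χ := χ) (by
        rw [← hχ, hgdef, map_mul (ns i).N, map_mul (ns i).N, map_pow (ns i).N, hbs, hNu, map_mul,
          mul_pow]
        ring)
    exact ⟨β, ζ, hχr ▸ h1, h2⟩
  choose β ζ hβ hζ using hfirst
  -- the first terms are glued
  have hgL : g ∈ riemannRochSpace ((p * n) • T.G) := by
    have hfy := mul_pow_mem_space hp.pos hf hdiv hy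
    have he : g = algebraMap K F ((s : K) / γ₀) * (f * y ^ p) := by
      have hγ : algebraMap K F γ₀ ≠ 0 := (map_ne_zero _).mpr hγ₀
      rw [hgdef, hfu, map_div₀]
      field_simp
    rw [he, ← Algebra.smul_def]
    exact Submodule.smul_mem _ _ hfy
  set Φ : F := algebraMap K F ((X.ϖ : K) ^ l)⁻¹ * (g - 1) with hΦ
  have hφΦ : ∀ i, (φ i : F) = Φ := fun i => by
    rw [hΦ, hg i, add_sub_cancel_left, map_inv₀, inv_mul_cancel_left₀ hϖl]
  have hΦL : Φ ∈ riemannRochSpace ((p * n) • T.G) := by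
    rw [hΦ, ← Algebra.smul_def]
    exact Submodule.smul_mem _ _ (sub_mem hgL (T.one_mem_space _))
  have hglue := T.bound' hΦL φ hφΦ
  obtain ⟨s₀⟩ := ‹Nonempty S›
  by_cases hlp : l = p
  · -- absorb a `p`-th power into `y`
    subst hlp
    choose βr hβr using fun i => exists_pow_eq_res (ns i).R'.surj_pi hp.pos (β i)
    set ξ : Bool → Fk := fun i => algebraMap k Fk (βr i) + ζ i with hξ
    have hξp : ∀ i, ξ i ^ l = (T.R i).red (φ i) := fun i => by
      rw [hξ, add_pow_char, ← map_pow, hβr, hβ]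
    have hξm : ξ ∈ T.glued (fun i => n • T.Gk i) 1 :=
      root_mem_glued hp (by rw [funext hξp]; exact hglue)
    obtain ⟨H', hH', hl1⟩ := T.exists_lift hn hξm
    choose tH' htH' htHr' using hl1
    obtain ⟨H, hH, hHF, hl2⟩ := exists_rat_lift h00 hH' tH' htH'
    choose tH htH htHr using hl2
    set y' := y * (1 - algebraMap K F (X.ϖ : K) * H) with hy'
    have hy'L : y' ∈ riemannRochSpace (D + (n + n) • T.G) := by
      refine T.mem_space_mul hy (sub_mem (T.one_mem_space _) ?_)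
      rw [← Algebra.smul_def]
      exact Submodule.smul_mem _ _ hH
    have hy'F : y' ∈ X.field := mul_mem hyF
      (sub_mem (one_mem _) (mul_mem X.ϖ_mem_field (X.mem_field_of_rat hHF)))
    have hstep : ∀ i, ∃ q : (T.R i).O, algebraMap K F (s : K) * u * y' ^ l =
        1 + algebraMap K F ((X.ϖ : K) ^ l) * (q : F) ∧ (T.R i).red q = 0 := by
      intro i
      set P := (T.R i).ι X.ϖ with hP
      have hpW' : (l : (T.R i).O) = (T.R i).ι W * P ^ l := by
        rw [hP, ← map_natCast (T.R i).ι l, show ((l : ℕ) : A) = W * X.ϖ ^ l from Subtype.ext (by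
          rw [MulMemClass.coe_mul, SubmonoidClass.coe_pow, ← hpW]
          exact map_natCast A.subtype l), map_mul, map_pow]
      obtain ⟨z', hz'⟩ := exists_one_add_pow hp hpW' (-tH i)
      refine ⟨φ i + (1 + P ^ l * φ i) * ((-tH i) ^ l + P * (-tH i * z')), ?_, ?_⟩
      · have hyy : algebraMap K F (s : K) * u * y' ^ l = g *
            (((1 + P * -tH i : (T.R i).O) : F)) ^ l := by
          rw [hy', hgdef, Subring.coe_add, Subring.coe_one, Subring.coe_mul, NegMemClass.coe_neg,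
            hP, RedBase.coe_ι, htH, mul_neg, ← sub_eq_add_neg, mul_pow]
          ring
        rw [hyy, ← SubmonoidClass.coe_pow, hz', hg i]
        simp only [Subring.coe_add, Subring.coe_one, Subring.coe_mul, SubmonoidClass.coe_pow,
          NegMemClass.coe_neg, hP, RedBase.coe_ι, map_pow]
        ring
      · simp only [map_add, map_mul, map_pow, map_neg, map_one, hP, RedBase.red_ι, X.π_ϖ,
          map_zero, zero_pow hp.ne_zero, zero_mul, add_zero, one_mul, htHr, htHr',
          (hp.odd_of_ne_two hp2).neg_pow, hξp, add_neg_cancel]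
    choose q hq hq0 using hstep
    obtain ⟨φ', hφ'⟩ := X.exists_next (mul_mem (mul_mem hs hu) (pow_mem hy'F _)) q hq hq0
    refine ⟨n + n, y', s, φ', by omega, hy'L, hy'F, hs, hsπ, fun i => ?_, hφ'⟩
    obtain ⟨v, hv, hvr⟩ := hyv i
    refine ⟨v * (1 - (T.R i).ι X.ϖ * tH i), ?_, ?_⟩
    · rw [Subring.coe_mul, AddSubgroupClass.coe_sub, Subring.coe_one, Subring.coe_mul,
        RedBase.coe_ι, htH, hv]
    · rw [map_mul, map_sub, map_mul, RedBase.red_ι, X.π_ϖ, map_zero, zero_mul, map_one, sub_zero,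
        mul_one, hvr]
  · -- absorb a constant
    have hb : ∀ i, (T.R i).red (φ i) = algebraMap k Fk (β i) := fun i => by
      rw [hβ, hζ i hlp, zero_pow hp.ne_zero, add_zero]
    have hbb : β true = β false := by
      have h1 := hglue.2.2 s₀
      simp only [Pi.one_apply, one_mul, hb, ev_algebraMap (T.deg_br s₀ _)] at h1
      exact h1.symm
    obtain ⟨b, hbK, hbπ⟩ := X.ratData.lift (β false)
    have hd : π (1 + X.ϖ ^ l * b) = 1 := by
      rw [map_add, map_one, map_mul, map_pow, X.π_ϖ, zero_pow (by omega), zero_mul, add_zero]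
    have hd0 : π (1 + X.ϖ ^ l * b) ≠ 0 := hd ▸ one_ne_zero
    set di : A := ⟨((1 + X.ϖ ^ l * b : A) : K)⁻¹, inv_mem_of_pi_ne_zero (T.R false).surj_pi hd0⟩
    have hdK : ((1 + X.ϖ ^ l * b : A) : K) ≠ 0 := fun h0 => hd0 (by
      rw [show (1 + X.ϖ ^ l * b : A) = 0 from Subtype.ext h0, map_zero])
    have hddi : (1 + X.ϖ ^ l * b) * di = 1 := Subtype.ext (mul_inv_cancel₀ hdK)
    have hdiπ : π di = 1 := by
      have := congrArg π hddi
      rwa [map_mul, hd, one_mul, map_one] at this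
    have hdiK : (di : K) ∈ X.ratData.K₀ := by
      refine inv_mem ?_
      rw [AddMemClass.coe_add, OneMemClass.coe_one, MulMemClass.coe_mul,
        SubmonoidClass.coe_pow]
      exact add_mem (one_mem _) (mul_mem (pow_mem X.ratData.ϖ_mem _) hbK)
    have hstep : ∀ i, ∃ q : (T.R i).O, algebraMap K F ((s * di : A) : K) * u * y ^ p =
        1 + algebraMap K F ((X.ϖ : K) ^ l) * (q : F) ∧ (T.R i).red q = 0 := by
      intro i
      refine ⟨(T.R i).ι di * (φ i - (T.R i).ι b), ?_, ?_⟩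
      · have e : algebraMap K F ((s * di : A) : K) * u * y ^ p = algebraMap K F (di : K) * g := by
          rw [hgdef, MulMemClass.coe_mul, map_mul]; ring
        have e1 : algebraMap K F (di : K) * (1 + algebraMap K F ((X.ϖ : K) ^ l) *
            algebraMap K F (b : K)) = 1 := by
          rw [← map_mul, ← map_one (algebraMap K F), ← map_add, ← map_mul]
          congr 1
          have := congrArg Subtype.val hddi
          simp only [MulMemClass.coe_mul, AddMemClass.coe_add, OneMemClass.coe_one,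
            SubmonoidClass.coe_pow] at this
          linear_combination this
        rw [e, hg i, Subring.coe_mul, AddSubgroupClass.coe_sub, RedBase.coe_ι, RedBase.coe_ι]
        linear_combination e1
      · rw [map_mul, map_sub, RedBase.red_ι, RedBase.red_ι, hdiπ, hbπ, hb]
        cases i
        · rw [sub_self, mul_zero]
        · rw [hbb, sub_self, mul_zero]
    choose q hq hq0 using hstep
    obtain ⟨φ', hφ'⟩ := X.exists_next (g := algebraMap K F ((s * di : A) : K) * u * y ^ p)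
      (mul_mem (mul_mem (by
        show ((s * di : A) : K) ∈ X.ratData.K₀
        rw [MulMemClass.coe_mul]; exact mul_mem hs hdiK) hu) (pow_mem hyF _)) q hq hq0
    exact ⟨n, y, s * di, φ', hn, hy, hyF, by
      rw [MulMemClass.coe_mul]; exact mul_mem hs hdiK, by rw [map_mul, hsπ, hdiπ, mul_one],
      hyv, hφ'⟩

/-- **Constant reductions and trivial norms give a principal divisor.** -/
theorem principal_of_norms [IsAlgClosed K] [Nonempty S] (hp : p.Prime) (hpk : (p : k) = 0)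
    (hp2 : p ≠ 2) {W : A} (hW : π W ≠ 0) (hpW : (p : K) = (W : K) * (X.ϖ : K) ^ p)
    (h00 : Q₀.Spans 0) {D : Divisor K F} (hD : X.ratData.Spans D) (hdeg : Divisor.degree D = 0)
    {f : F} (hf : f ≠ 0) (hdiv : ∀ P : Place K F, P.ord f = (p : ℤ) * D P) {γ₀ : K} (hγ₀ : γ₀ ≠ 0)
    {u : F} (hu : u ∈ X.field) (hfu : f = algebraMap K F γ₀ * u) {w : ∀ i, (T.R i).O}
    (hw : ∀ i, (w i : F) = u) {a : Bool → k}
    (hwr : ∀ i, (T.R i).red (w i) = algebraMap k Fk (a i)) (ha : ∀ i, a i ≠ 0) {F' : Type*}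
    [Field F'] [Algebra K F'] (ns : ∀ i, NormSide X i F')
    (hN : ∀ i, ∃ (b : K), ∃ h ∈ (ns i).F₁, (ns i).N u = algebraMap K F' b * h ^ p) :
    D ∈ Divisor.principal (K := K) (F := F) := by
  classical
  have hp3 : 3 ≤ p := by have := hp.two_le; omega
  choose r hr using fun i => exists_pow_eq_res (T.R false).surj_pi hp.pos (a i)⁻¹
  have hra : ∀ i, r i ^ p * a i = 1 := fun i => by rw [hr, inv_mul_cancel₀ (ha i)]
  have hall : ∀ l, 1 ≤ l → l ≤ p + 2 → X.Approx D u r l := by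
    intro l hl
    induction l, hl using Nat.le_induction with
    | base => exact fun _ => X.approx_one hp hpk hD hdeg hf hdiv hγ₀ hu hfu hw hwr hra
    | succ l hl ih =>
      exact fun hl' => X.approx_succ hp hpk hp2 hpW h00 hdiv hf hγ₀ hu hfu ns hN hl (by omega)
        (ih (by omega))
  obtain ⟨n, y, s, φ, hn, hy, hyF, hs, hsπ, hyv, hg⟩ := hall (p + 2) (by omega) le_rfl
  choose v hv hvr using hyv
  choose rA _ hrA using fun i => X.ratData.lift (r i)
  obtain ⟨t, c₀, d, ht, hc₀, hdc, hde⟩ := exists_trivial (T := T) hp hpk hdeg hf hdiv hγ₀ hfu hw hwr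
    (r := rA) (fun i => by rw [hrA]; exact hra i) hsπ
  have hr0 : ∀ i, r i ≠ 0 := fun i h0 => by
    have := hra i
    rw [h0, zero_pow hp.ne_zero, zero_mul] at this
    exact zero_ne_one this
  have hrA0 : ∀ i, π (rA i) ≠ 0 := fun i => by rw [hrA]; exact hr0 i
  let ri : Bool → A := fun i => ⟨(rA i : K)⁻¹, inv_mem_of_pi_ne_zero (T.R false).surj_pi (hrA0 i)⟩
  have hrri : ∀ i, rA i * ri i = 1 := fun i => Subtype.ext (mul_inv_cancel₀ fun h0 =>
    hrA0 i (by rw [show rA i = 0 from Subtype.ext h0, map_zero]))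
  -- `θ`
  obtain ⟨θK, hθK⟩ := IsAlgClosed.exists_pow_nat_eq (-(p : K)) (show 0 < p - 1 by omega)
  have hθA : θK ∈ A := TwoComponent.mem_of_pow_mem (show 0 < p - 1 by omega) (by
    rw [hθK]; exact neg_mem (natCast_mem A p))
  set θ : A := ⟨θK, hθA⟩
  have hθ : θ ^ (p - 1) = -(p : A) := Subtype.ext (by
    rw [SubmonoidClass.coe_pow, NegMemClass.coe_neg]
    exact hθK.trans (congrArg Neg.neg (map_natCast A.subtype p).symm))
  have hW0 : (W : K) ≠ 0 := fun h0 => hW (by rw [show W = 0 from Subtype.ext h0, map_zero])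
  have hθ0 : θ ≠ 0 := fun h0 => by
    have := congrArg Subtype.val h0
    rw [show θK = 0 from this, zero_pow (by omega), eq_comm, neg_eq_zero, hpW] at hθK
    exact mul_ne_zero hW0 (pow_ne_zero _ X.ϖ_ne) hθK
  have hθK0 : θK ≠ 0 := fun h0 => hθ0 (Subtype.ext h0)
  set lamK : K := (X.ϖ : K) ^ (p + 2) / θK ^ p with hlamK
  set wi : A := ⟨(W : K)⁻¹, inv_mem_of_pi_ne_zero (T.R false).surj_pi hW⟩
  have hlam : ∃ h : lamK ∈ A, π ⟨lamK, h⟩ = 0 := by
    refine pi_eq_zero_of_pow (show 0 < p - 1 by omega) ?_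
    have he : lamK ^ (p - 1) = (((-wi) ^ p * X.ϖ ^ (p - 2) : A) : K) := by
      rw [MulMemClass.coe_mul, SubmonoidClass.coe_pow, SubmonoidClass.coe_pow, NegMemClass.coe_neg,
        hlamK, div_pow, ← pow_mul θK, mul_comm p, pow_mul, hθK, hpW,
        show (wi : K) = (W : K)⁻¹ from rfl, (hp.odd_of_ne_two hp2).neg_pow,
        (hp.odd_of_ne_two hp2).neg_pow, mul_pow, inv_pow]
      have hexp : ((X.ϖ : K) ^ (p + 2)) ^ (p - 1) =
          ((X.ϖ : K) ^ p) ^ p * (X.ϖ : K) ^ (p - 2) := by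
        rw [← pow_mul, ← pow_mul, ← pow_add]
        congr 1
        obtain ⟨q, rfl⟩ : ∃ q, p = q + 2 := ⟨p - 2, by omega⟩
        simp only [Nat.add_sub_cancel]
        rw [show q + 2 - 1 = q + 1 by omega]
        ring
      rw [hexp]
      have hϖp : ((X.ϖ : K) ^ p) ^ p ≠ 0 := pow_ne_zero _ (pow_ne_zero _ X.ϖ_ne)
      field_simp
    refine ⟨he ▸ (_ : A).2, ?_⟩
    simp only [he]
    rw [map_mul, map_pow π X.ϖ, X.π_ϖ, zero_pow (by omega), mul_zero]
  obtain ⟨hlA, hlπ⟩ := hlam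
  refine d.principal_of_close hp hpk hθ0 hθ (lam := ⟨lamK, hlA⟩) hlπ (n := n)
    (y := algebraMap K F (t * c₀) * y)
    (by rw [← Algebra.smul_def]; exact Submodule.smul_mem _ _ hy)
    (fun i => (T.R i).ι (ri i) * v i) (fun i => ?_) (fun i => ?_) (fun i => ⟨φ i, ?_⟩)
  · rw [hdc, Subring.coe_mul, RedBase.coe_ι, hv, ← mul_assoc, ← map_mul, mul_assoc (t * c₀)]
    rw [show (rA i : K) * (ri i : K) = 1 from congrArg Subtype.val (hrri i), mul_one]
  · rw [map_mul, RedBase.red_ι, hvr, ← map_mul, ← hrA i, ← map_mul, mul_comm, hrri, map_one,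
      map_one]
  · rw [show θ ^ p * ⟨lamK, hlA⟩ = X.ϖ ^ (p + 2) from Subtype.ext (by
      rw [MulMemClass.coe_mul, SubmonoidClass.coe_pow, SubmonoidClass.coe_pow]
      exact mul_div_cancel₀ _ (pow_ne_zero _ hθK0))]
    have e1 : d.e i * ((T.R i).ι (ri i) * v i) ^ p = (T.R i).ι s * w i * v i ^ p := by
      rw [hde, map_mul, map_pow, mul_pow]
      have : (T.R i).ι (rA i) * (T.R i).ι (ri i) = 1 := by rw [← map_mul, hrri, map_one]
      calc _ = (T.R i).ι s * w i * v i ^ p * ((T.R i).ι (rA i) * (T.R i).ι (ri i)) ^ p := by ring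
        _ = _ := by rw [this, one_pow, mul_one]
    rw [e1]
    refine Subtype.ext ?_
    rw [AddSubgroupClass.coe_sub, Subring.coe_mul, Subring.coe_mul, Subring.coe_mul,
      SubmonoidClass.coe_pow, RedBase.coe_ι, RedBase.coe_ι, Subring.coe_one, hw, hv, hg i,
      SubmonoidClass.coe_pow, add_sub_cancel_left]

end EisData

end Fermat.Agent.LoweringAtP
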