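import Fermat.Agent.LoweringAtP.LogDer
import Fermat.Agent.LoweringAtP.Modify
import Fermat.Agent.LoweringAtP.Principal

/-!
# The engine of Mazur's principle at `p`

For `f` rational over `K₀(ϖ)` with `div f = p D`: if `E ≠ 0` the slopes of `f` are congruent modulo
`p`, and if both reductions of `f` are `p`-th powers up to constants and both norms to the lower
level are `p`-th powers up to constants, then `D` is principal.
-/

noncomputable section

open AlgebraicCurve Fermat.Agent.Red Fermat.Agent.TwoComponent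

namespace Fermat.Agent.LoweringAtP

variable {K k F Fk : Type*} [Field K] [Field F] [Algebra K F] [Field k] [Field Fk] [Algebra k Fk]
variable {A : ValuationSubring K} {π : A →+* k} {S : Type*} [Fintype S]
variable {T : TwoRed A π F Fk S} {Ud : UnitData T}

/-- The scalings of a rational function. -/
theorem RatData.exists_units (Q : RatData Ud) {f : F} (hfF : f ∈ Q.F₀) (hf : f ≠ 0) :
    ∃ (j C : ℤ) (u : ∀ i, (T.R i).O), (∀ i, (T.R i).red (u i) ≠ 0) ∧ (∀ i, (u i : F) ∈ Q.F₀) ∧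
      algebraMap K F ((Q.ϖ : K) ^ j) * (u false : F) = f ∧
      algebraMap K F ((Q.ϖ : K) ^ j * (Q.ϖ : K) ^ C) * (u true : F) = f := by
  choose j u hu hju using fun i => Q.scale f hfF hf i
  refine ⟨j false, j true - j false, u, hu, fun i => ?_, hju false, ?_⟩
  · rw [eq_inv_mul_iff_mul_eq₀ ((map_ne_zero (algebraMap K F)).mpr (Q.zpow_ne _)) |>.mpr (hju i),
      ← map_inv₀]
    exact mul_mem (Q.const_mem _ (inv_mem (Q.zpow_mem_K₀ _))) hfF
  · rw [← zpow_add₀ Q.ϖ_ne, add_sub_cancel, hju true]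

/-- Off the nodes the orders are divisible by `m`; at the nodes they are opposite modulo `m`. -/
theorem RatData.redOrd_dvd [IsAlgClosed K] (Q : RatData Ud) {m : ℕ} (hm : 0 < m) {D : Divisor K F}
    (hD : Q.Spans D) (hdeg : Divisor.degree D = 0) {f : F} (hfF : f ∈ Q.F₀) (hf : f ≠ 0)
    (hdiv : ∀ P : Place K F, P.ord f = (m : ℤ) * D P) :
    (∀ i P, (∀ s, T.br s i ≠ P) → (m : ℤ) ∣ redOrd (T.R i) f P) ∧
      ∀ s, (m : ℤ) ∣ redOrd (T.R false) f (T.br s false) + redOrd (T.R true) f (T.br s true) := by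
  obtain ⟨j, C, u, hu, -, h0, h1⟩ := Q.exists_units hfF hf
  have h := Q.slope hm hD hdeg hf hdiv (Q.zpow_ne j) hu h0 h1
  have e : ∀ i P, redOrd (T.R i) f P = P.ord ((T.R i).red (u i)) := fun i P => by
    cases i
    · exact redOrd_eq _ hf (hu false) h0.symm P
    · exact redOrd_eq _ hf (hu true) h1.symm P
  exact ⟨fun i P hP => e i P ▸ h.1 i P hP, fun s => by rw [e, e]; exact (h.2 s).1⟩

/-- Over an unramified field all slopes are congruent. -/
theorem RatData.slopes_congr [IsAlgClosed K] (Q : RatData Ud) (he : Q.e = 1) {m : ℕ} (hm : 0 < m)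
    {D : Divisor K F} (hD : Q.Spans D) (hdeg : Divisor.degree D = 0) {f : F} (hfF : f ∈ Q.F₀)
    (hf : f ≠ 0) (hdiv : ∀ P : Place K F, P.ord f = (m : ℤ) * D P) (s t : S) :
    (m : ℤ) ∣ redOrd (T.R false) f (T.br s false) - redOrd (T.R false) f (T.br t false) := by
  obtain ⟨j, C, u, hu, -, h0, h1⟩ := Q.exists_units hfF hf
  have h := (Q.slope hm hD hdeg hf hdiv (Q.zpow_ne j) hu h0 h1).2
  rw [redOrd_eq _ hf (hu false) h0.symm, redOrd_eq _ hf (hu false) h0.symm]
  have h2 := dvd_sub (h s).2 (h t).2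
  simpa only [he, Nat.cast_one, one_mul, sub_sub_sub_cancel_right] using h2

namespace EisData

variable {Q₀ : RatData Ud} {p : ℕ} (X : EisData Q₀ p)

/-- Scalings of `f` with `p` dividing the difference of the exponents. -/
theorem exists_units [IsAlgClosed K] [Nonempty S] {D : Divisor K F} (hD : X.ratData.Spans D)
    (hdeg : Divisor.degree D = 0) {f : F} (hfF : f ∈ X.field) (hf : f ≠ 0)
    (hdiv : ∀ P : Place K F, P.ord f = (p : ℤ) * D P) :
    ∃ (j C : ℤ) (u : ∀ i, (T.R i).O), (∀ i, (T.R i).red (u i) ≠ 0) ∧ (∀ i, (u i : F) ∈ X.field) ∧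
      algebraMap K F ((X.ϖ : K) ^ j) * (u false : F) = f ∧
      algebraMap K F ((X.ϖ : K) ^ j * (X.ϖ : K) ^ ((p : ℤ) * C)) * (u true : F) = f := by
  obtain ⟨j, C, u, hu, huF, h0, h1⟩ := X.ratData.exists_units hfF hf
  obtain ⟨s⟩ := ‹Nonempty S›
  obtain ⟨C', hC'⟩ : (p : ℤ) ∣ C := by
    have h := ((X.ratData.slope X.p_pos hD hdeg hf hdiv (X.ratData.zpow_ne j) hu h0 h1).2 s).2
    exact (dvd_sub_right (Dvd.intro _ rfl)).mp h
  exact ⟨j, C', u, hu, huF, h0, by rw [← hC']; exact h1⟩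

/-- If `E = a₁ / a₀` is nonzero, all slopes are congruent. -/
theorem slopes_congr [IsAlgClosed K] [Nonempty S] [CharP k p]
    (h00 : Q₀.Spans 0) (hE : X.E ≠ 0)
    {D : Divisor K F} (hD : X.ratData.Spans D) (hdeg : Divisor.degree D = 0) {f : F}
    (hfF : f ∈ X.field) (hf : f ≠ 0) (hdiv : ∀ P : Place K F, P.ord f = (p : ℤ) * D P) (s t : S) :
    (p : ℤ) ∣ redOrd (T.R false) f (T.br s false) - redOrd (T.R false) f (T.br t false) := by
  obtain ⟨j, C, u, hu, huF, h0, h1⟩ := X.exists_units hD hdeg hfF hf hdiv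
  obtain ⟨c, -, hc⟩ := X.exists_const_hasLog (CharP.cast_eq_zero k p) h00 hD hdeg hf hdiv
    (zpow_ne_zero j X.ϖ_ne) hu huF h0 h1
  rw [redOrd_eq _ hf (hu false) h0.symm, redOrd_eq _ hf (hu false) h0.symm]
  have h := mul_right_cancel₀ hE (add_left_cancel ((hc s).symm.trans (hc t)))
  rw [← CharP.intCast_eq_zero_iff k p, Int.cast_sub, sub_eq_zero]
  exact h

/-- **`p`-th power reductions and norms give a principal divisor.** -/
theorem principal_of_pth_powers [IsAlgClosed K] [Nonempty S] (hp : p.Prime) (hpk : (p : k) = 0)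
    (hp2 : p ≠ 2) {W : A} (hW : π W ≠ 0) (hpW : (p : K) = (W : K) * (X.ϖ : K) ^ p)
    (h00 : Q₀.Spans 0) {D : Divisor K F} (hD : X.ratData.Spans D) (hdeg : Divisor.degree D = 0)
    {f : F} (hfF : f ∈ X.field) (hf : f ≠ 0) (hdiv : ∀ P : Place K F, P.ord f = (p : ℤ) * D P)
    (hpow : ∀ i (c : K) (u : (T.R i).O), (T.R i).red u ≠ 0 → f = algebraMap K F c * (u : F) →
      ∃ (a : k) (h : Fk), (T.R i).red u = algebraMap k Fk a * h ^ p)
    {F' : Type*} [Field F'] [Algebra K F'] (ns : ∀ i, NormSide X i F')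
    (hN : ∀ i, ∃ (b : K), ∃ h ∈ (ns i).F₁, (ns i).N f = algebraMap K F' b * h ^ p) :
    D ∈ Divisor.principal (K := K) (F := F) := by
  classical
  obtain ⟨j, C, u, hu, huF, h0, h1⟩ := X.exists_units hD hdeg hfF hf hdiv
  choose a h hah using fun i => hpow i
    (bif i then (X.ϖ : K) ^ j * (X.ϖ : K) ^ ((p : ℤ) * C) else (X.ϖ : K) ^ j) (u i) (hu i)
    (by cases i; exacts [h0.symm, h1.symm])
  have ha : ∀ i, a i ≠ 0 := fun i h0' => hu i (by rw [hah, h0', map_zero, zero_mul])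
  have hh : ∀ i, h i ≠ 0 := fun i h0' => hu i (by rw [hah, h0', zero_pow hp.ne_zero, mul_zero])
  obtain ⟨g, hgF, hg0, v, hvr, hv0, hv1⟩ := X.exists_pair h00 h hh C
  choose r hr hrr using fun i => inv_mem_O (T.R i) (u := v i) (by rw [hvr]; exact hh i)
  set u' : F := algebraMap K F ((X.ϖ : K) ^ j)⁻¹ * f * (g⁻¹) ^ p with hu'
  have hj : algebraMap K F ((X.ϖ : K) ^ j) ≠ 0 := (map_ne_zero _).mpr (zpow_ne_zero _ X.ϖ_ne)
  have hC0 : algebraMap K F ((X.ϖ : K) ^ C) ≠ 0 := (map_ne_zero _).mpr (zpow_ne_zero _ X.ϖ_ne)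
  let w : ∀ i, (T.R i).O := fun i => u i * r i ^ p
  have hw : ∀ i, (w i : F) = u' := by
    intro i
    show ((u i * r i ^ p : (T.R i).O) : F) = u'
    rw [Subring.coe_mul, SubmonoidClass.coe_pow, hr, hu', map_inv₀]
    cases i
    · rw [hv0, ← h0, inv_mul_cancel_left₀ hj]
    · rw [← h1, ← hv1, map_mul, mul_assoc (algebraMap K F _), inv_mul_cancel_left₀ hj,
        mul_comm (p : ℤ), zpow_mul, zpow_natCast, map_pow, mul_inv, mul_pow, inv_pow]
      rw [mul_mul_mul_comm, ← mul_pow, mul_inv_cancel₀ hC0, one_pow, one_mul]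
  have hwr : ∀ i, (T.R i).red (w i) = algebraMap k Fk (a i) := fun i => by
    show (T.R i).red (u i * r i ^ p) = _
    rw [map_mul, map_pow, hrr, hvr, hah, mul_assoc, ← mul_pow, mul_inv_cancel₀ (hh i), one_pow,
      mul_one]
  -- the modified divisor
  obtain ⟨Dg, hDg, hDgd⟩ := T.rrF.exists_div g hg0
  set D' := D - Dg with hD'
  have hdiv' : ∀ P : Place K F, P.ord (f * (g⁻¹) ^ p) = (p : ℤ) * D' P := fun P => by
    rw [P.ord_mul hf (pow_ne_zero _ (inv_ne_zero hg0)), Red.ord_pow, P.ord_inv, hdiv, hD',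
      Finsupp.sub_apply, hDg]
    ring
  have hspans : X.ratData.Spans D' := by
    intro n u hu
    have key : ∀ (v : F) {E E' : Divisor K F} {c : F}, c ≠ 0 → (∀ P, E' P = E P - P.ord c) →
        v ∈ riemannRochSpace E → c * v ∈ riemannRochSpace E' := by
      intro v E E' c hc hE hv
      refine mem_riemannRochSpace_iff.mpr fun P => or_iff_not_imp_left.mpr fun hne => ?_
      have h1 := ((mem_riemannRochSpace_iff.mp hv) P).resolve_left (right_ne_zero_of_mul hne)
      rw [P.ord_mul hc (right_ne_zero_of_mul hne), hE]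
      omega
    have h2 := key u (E' := D + n • T.G) (inv_ne_zero hg0) (fun P => by
      rw [hD', Finsupp.add_apply, Finsupp.add_apply, Finsupp.sub_apply, P.ord_inv, hDg]; ring) hu
    have h3 := Submodule.apply_mem_span_image_of_mem_span (LinearMap.mulLeft K g) (hD n h2)
    rw [LinearMap.mulLeft_apply, mul_inv_cancel_left₀ hg0] at h3
    refine Submodule.span_mono ?_ h3
    rintro _ ⟨v, ⟨hvF, hv⟩, rfl⟩
    refine ⟨mul_mem hgF hvF, key v hg0 (fun P => ?_) hv⟩
    rw [hD', Finsupp.add_apply, Finsupp.add_apply, Finsupp.sub_apply, hDg]; ring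
  have hu'F : u' ∈ X.field :=
    mul_mem (mul_mem (X.ratData.const_mem _ (inv_mem (X.ratData.zpow_mem_K₀ j))) hfF)
      (pow_mem (inv_mem hgF) _)
  have hfin := X.principal_of_norms hp hpk hp2 hW hpW h00 hspans
    (by rw [hD', map_sub, hdeg, hDgd, sub_self]) (mul_ne_zero hf (pow_ne_zero _ (inv_ne_zero hg0)))
    hdiv' (zpow_ne_zero j X.ϖ_ne) hu'F
    (by rw [hu', map_inv₀, mul_assoc, mul_inv_cancel_left₀ hj]) hw hwr ha ns fun i => by
    obtain ⟨b, h', hh', hNf⟩ := hN i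
    obtain ⟨c, hc⟩ := (ns i).N_algebraMap ((X.ϖ : K) ^ j)⁻¹
    refine ⟨c * b, h' * (ns i).N g⁻¹, mul_mem hh' ((ns i).N_mem _ (inv_mem hgF)), ?_⟩
    rw [hu', map_mul (ns i).N, map_mul (ns i).N, map_pow (ns i).N, hc, hNf, map_mul, mul_pow]
    ring
  rw [show D = D' + Dg by rw [hD', sub_add_cancel]]
  exact add_mem hfin ⟨g, hg0, hDg⟩

end EisData

end Fermat.Agent.LoweringAtP
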