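import Fermat.Agent.LoweringAtP.Eis

/-!
# The norm to the lower level, on one component

What the level argument needs from the norm `N : X₀(pL) → X₀(L)` and the reduction on one side
(the identity, or composed with the Atkin–Lehner involution).
-/

noncomputable section

open AlgebraicCurve Fermat.Agent.Red Fermat.Agent.TwoComponent

namespace Fermat.Agent.LoweringAtP

variable {K k F Fk : Type*} [Field K] [Field F] [Algebra K F] [Field k] [Field Fk] [Algebra k Fk]
variable {A : ValuationSubring K} {π : A →+* k} {S : Type*} [Fintype S]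
variable {T : TwoRed A π F Fk S} {Ud : UnitData T} {Q₀ : RatData Ud} {p : ℕ}

/-- The norm to the lower level on the component `i`. -/
structure NormSide (X : EisData Q₀ p) (i : Bool) (F' : Type*) [Field F'] [Algebra K F'] where
  /-- the reduction at the lower level -/
  R' : RedBase A π F' Fk
  /-- the rational functions at the lower level -/
  F₁ : Subfield F'
  const_mem : ∀ a ∈ X.ratData.K₀, algebraMap K F' a ∈ F₁
  scale : ∀ u ∈ F₁, u ≠ 0 → ∃ (j : ℤ) (v : R'.O),
    R'.red v ≠ 0 ∧ algebraMap K F' ((X.ϖ : K) ^ j) * (v : F') = u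
  /-- the norm -/
  N : F →* F'
  N_ne : ∀ g : F, g ≠ 0 → N g ≠ 0
  N_mem : ∀ g ∈ X.field, N g ∈ F₁
  N_algebraMap : ∀ a : K, ∃ b : K, N (algebraMap K F a) = algebraMap K F' b
  /-- the norm of `1 + ϖ ^ l φ` is `1 + ϖ ^ l φ̄` to first order -/
  N_first : ∀ (l : ℕ), 1 ≤ l → l ≤ p + 1 → ∀ g ∈ X.field, ∀ φ : ∀ j, (T.R j).O,
    (∀ j, g = 1 + algebraMap K F ((X.ϖ : K) ^ l) * (φ j : F)) →
      ∃ χ : R'.O, N g = 1 + algebraMap K F' ((X.ϖ : K) ^ l) * (χ : F') ∧
        R'.red χ = (T.R i).red (φ i)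

end Fermat.Agent.LoweringAtP
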