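import Fermat.Agent.LoweringAtP.Der
import Fermat.Agent.LoweringAtP.NormSide
import Fermat.Agent.TwoComponent.Fixed

/-!
# First order terms of constants times `p`-th powers at the lower level

A constant times a `p`-th power with reduction `1` is a constant times some `(1 + ϖ ψ) ^ p`; if it
is `1 + ϖ ^ l χ`, `1 ≤ l ≤ p + 1`, the reduction of `χ` is a constant plus, for `l = p` only, a
`p`-th power.  This feeds the climbing in `LoweringAtP/Principal`.
-/

noncomputable section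

open AlgebraicCurve Fermat.Agent.Red Fermat.Agent.TwoComponent

namespace Fermat.Agent.LoweringAtP

variable {K k F Fk : Type*} [Field K] [Field F] [Algebra K F] [Field k] [Field Fk] [Algebra k Fk]
variable {A : ValuationSubring K} {π : A →+* k} {S : Type*} [Fintype S]
variable {T : TwoRed A π F Fk S} {Ud : UnitData T} {Q₀ : RatData Ud} {p : ℕ}

/-- Powers of `1 + ϖ z` when `p ~ ϖ ^ p`. -/
theorem exists_one_add_pow {R : Type*} [CommRing R] (hp : p.Prime) {W ϖ : R}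
    (hpW : (p : R) = W * ϖ ^ p) (z : R) :
    ∃ z' : R, (1 + ϖ * z) ^ p = 1 + ϖ ^ p * (z ^ p + ϖ * (z * z')) := by
  obtain ⟨H, hH⟩ := exists_add_pow_prime_linear hp (1 : R) (ϖ * z)
  refine ⟨W * (1 + ϖ * z * H), ?_⟩
  rw [hH, one_pow, one_pow, one_mul, hpW, mul_pow]
  ring

namespace NormSide

variable {X : EisData Q₀ p} {i : Bool} {F' : Type*} [Field F'] [Algebra K F']
variable (N : NormSide X i F')

/-- A rational function with vanishing reduction is divisible by `ϖ`. -/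
theorem exists_eq_ϖ_mul {v : N.R'.O} (hv : (v : F') ∈ N.F₁) (h0 : N.R'.red v = 0) :
    ∃ ψ : N.R'.O, (ψ : F') ∈ N.F₁ ∧ v = N.R'.ι X.ϖ * ψ := by
  rcases eq_or_ne (v : F') 0 with h | h
  · exact ⟨0, zero_mem _, by rw [mul_zero]; exact Subtype.ext h⟩
  obtain ⟨j, t, ht, he⟩ := N.scale _ hv h
  have hmem : (X.ϖ : K) ^ j ∈ A := N.R'.mem_of_smul_mem ht he.symm
  have hj : 1 ≤ j := by
    rcases lt_trichotomy j 0 with h' | h' | h'
    · exact absurd hmem (X.not_mem_of_neg h')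
    · subst h'
      rw [zpow_zero, map_one, one_mul] at he
      exact absurd (Subtype.ext he ▸ h0) ht
    · omega
  have hψ : algebraMap K F' ((X.ϖ : K) ^ (j - 1)) * (t : F') =
      (algebraMap K F' (X.ϖ : K))⁻¹ * (v : F') := by
    rw [← he, ← mul_assoc, ← map_inv₀, ← map_mul, zpow_sub_one₀ X.ϖ_ne, mul_comm (_ ^ j)]
  refine ⟨N.R'.ι ⟨_, X.zpow_mem (show 0 ≤ j - 1 by omega)⟩ * t, ?_, Subtype.ext ?_⟩
  · rw [Subring.coe_mul, RedBase.coe_ι, hψ]
    exact mul_mem (inv_mem (N.const_mem _ X.ratData.ϖ_mem)) hv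
  · rw [Subring.coe_mul, Subring.coe_mul, RedBase.coe_ι, RedBase.coe_ι, hψ,
      mul_inv_cancel_left₀ ((map_ne_zero _).mpr X.ϖ_ne)]

/-- A `p`-th root of a constant is a constant in characteristic `p`. -/
theorem exists_const_root [IsAlgClosed K] {p : ℕ} [CharP k p] (hp : p.Prime)
    (hπ : Function.Surjective π) {x : Fk} {a : k} (hx : x ^ p = algebraMap k Fk a) :
    ∃ y : k, x = algebraMap k Fk y := by
  have : Fact p.Prime := ⟨hp⟩
  have : CharP Fk p := charP_of_injective_algebraMap (algebraMap k Fk).injective p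
  obtain ⟨y, rfl⟩ := exists_pow_eq_res hπ hp.pos a
  exact ⟨y, frobenius_inj Fk p (by rw [frobenius_def, frobenius_def, hx, map_pow])⟩

/-- A unit congruent to `1` which is a constant times a `p`-th power is a constant congruent to `1`
times the `p`-th power of some `1 + ϖ ψ`. -/
theorem exists_normal_form [IsAlgClosed K] (hp : p.Prime) (hpk : (p : k) = 0) {c : K} {H : F'}
    (hH : H ∈ N.F₁) {G : N.R'.O} (hGF : (G : F') = algebraMap K F' c * H ^ p)
    (hGr : N.R'.red G = 1) :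
    ∃ (c₂ : A) (ψ : N.R'.O), π c₂ = 1 ∧ (ψ : F') ∈ N.F₁ ∧
      G = N.R'.ι c₂ * (1 + N.R'.ι X.ϖ * ψ) ^ p := by
  have : Fact p.Prime := ⟨hp⟩
  have : CharP k p := (CharP.charP_iff_prime_eq_zero hp).mpr hpk
  set ι := N.R'.ι with hι
  have hH0 : H ≠ 0 := fun h0 => by
    rw [h0, zero_pow hp.ne_zero, mul_zero] at hGF
    rw [show G = 0 from Subtype.ext hGF, map_zero] at hGr
    exact zero_ne_one hGr
  obtain ⟨j, v, hv, hjv⟩ := N.scale H hH hH0
  have hvF : (v : F') ∈ N.F₁ := by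
    have e : (v : F') = (algebraMap K F' ((X.ϖ : K) ^ j))⁻¹ * H := by
      rw [← hjv, inv_mul_cancel_left₀ ((map_ne_zero _).mpr (zpow_ne_zero _ X.ϖ_ne))]
    rw [e]
    exact mul_mem (inv_mem (N.const_mem _ (X.ratData.zpow_mem_K₀ j))) hH
  have hGv : (G : F') = algebraMap K F' (c * ((X.ϖ : K) ^ j) ^ p) * ((v ^ p : N.R'.O) : F') := by
    rw [hGF, ← hjv, SubmonoidClass.coe_pow, map_mul, map_pow, mul_pow, mul_assoc]
  have hcA := N.R'.mem_of_smul_mem (u := v ^ p) (by rw [map_pow]; exact pow_ne_zero _ hv) hGv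
  set c₁ : A := ⟨_, hcA⟩ with hc₁
  have hG1 : G = ι c₁ * v ^ p := Subtype.ext hGv
  have hc₁v : algebraMap k Fk (π c₁) * N.R'.red v ^ p = 1 := by
    rw [← RedBase.red_ι (R := N.R'), ← map_pow, ← map_mul, ← hG1, hGr]
  have hc₁0 : π c₁ ≠ 0 := fun h0 => by
    rw [h0, map_zero, zero_mul] at hc₁v
    exact zero_ne_one hc₁v
  obtain ⟨β₀, hβ₀⟩ := exists_const_root (p := p) hp N.R'.surj_pi (x := N.R'.red v)
    (a := (π c₁)⁻¹) (by
    rw [map_inv₀]
    exact eq_inv_of_mul_eq_one_right hc₁v)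
  obtain ⟨b, hb, hbπ⟩ := X.ratData.lift β₀
  have hb0 : π b ≠ 0 := fun h0 => hv (by rw [hβ₀, ← hbπ, h0, map_zero])
  have hbK : (b : K) ≠ 0 := fun h0 => hb0 (by rw [show b = 0 from Subtype.ext h0, map_zero])
  set bi : A := ⟨(b : K)⁻¹, inv_mem_of_pi_ne_zero N.R'.surj_pi hb0⟩
  have hbb : b * bi = 1 := Subtype.ext (mul_inv_cancel₀ hbK)
  have hbi : π b * π bi = 1 := by rw [← map_mul, hbb, map_one]
  obtain ⟨ψ, hψF, hψ⟩ := N.exists_eq_ϖ_mul (v := v * ι bi - 1) (by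
      rw [AddSubgroupClass.coe_sub, Subring.coe_mul, Subring.coe_one, RedBase.coe_ι]
      exact sub_mem (mul_mem hvF (N.const_mem _ (inv_mem hb))) (one_mem _))
    (by rw [map_sub, map_mul, RedBase.red_ι, hβ₀, ← hbπ, ← map_mul, hbi, map_one, map_one,
      sub_self])
  have hv' : v = ι b * (1 + ι X.ϖ * ψ) := by
    rw [← hψ, add_sub_cancel, mul_left_comm, ← map_mul, hbb, map_one, mul_one]
  set c₂ : A := c₁ * b ^ p with hc₂
  have hG2 : G = ι c₂ * (1 + ι X.ϖ * ψ) ^ p := by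
    rw [hG1, hv', hc₂, map_mul, map_pow, mul_pow, mul_assoc]
  have hc₂r : π c₂ = 1 := by
    rw [← hbπ] at hβ₀
    rw [hβ₀, ← map_pow, ← map_mul] at hc₁v
    rw [hc₂, map_mul, map_pow]
    exact (algebraMap k Fk).injective (hc₁v.trans (map_one _).symm)
  exact ⟨c₂, ψ, hc₂r, hψF, hG2⟩

/-- First order term of a constant times a `p`-th power. -/
theorem first_term [IsAlgClosed K] (hp : p.Prime) (hpk : (p : k) = 0) {W : A}
    (hpW : (p : K) = (W : K) * (X.ϖ : K) ^ p) {c : K} {H : F'} (hH : H ∈ N.F₁) {l : ℕ} (hl : 1 ≤ l)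
    (hl' : l ≤ p + 1) {χ : N.R'.O}
    (h : algebraMap K F' c * H ^ p = 1 + algebraMap K F' ((X.ϖ : K) ^ l) * (χ : F')) :
    ∃ (β : k) (ζ : Fk), N.R'.red χ = algebraMap k Fk β + ζ ^ p ∧ (l ≠ p → ζ = 0) := by
  have : Fact p.Prime := ⟨hp⟩
  have : CharP k p := (CharP.charP_iff_prime_eq_zero hp).mpr hpk
  have : CharP Fk p := charP_of_injective_algebraMap (algebraMap k Fk).injective p
  set ι := N.R'.ι with hι
  have hinj : Function.Injective ι := fun a b hab => by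
    have := congrArg Subtype.val hab
    rw [hι, RedBase.coe_ι, RedBase.coe_ι] at this
    exact Subtype.ext ((algebraMap K F').injective this)
  have hϖι : ι X.ϖ ≠ 0 := fun h0 => X.ϖ_ne (by
    rw [← map_zero ι] at h0; exact congrArg Subtype.val (hinj h0))
  have hpW' : (p : N.R'.O) = ι W * ι X.ϖ ^ p := by
    rw [← map_natCast ι p, show ((p : ℕ) : A) = W * X.ϖ ^ p from Subtype.ext (by
      rw [MulMemClass.coe_mul, SubmonoidClass.coe_pow, ← hpW]
      exact map_natCast A.subtype p), map_mul, map_pow]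
  set G : N.R'.O := 1 + ι X.ϖ ^ l * χ with hG
  have hGF : (G : F') = algebraMap K F' c * H ^ p := by
    rw [h, hG, Subring.coe_add, Subring.coe_one, Subring.coe_mul, SubmonoidClass.coe_pow,
      RedBase.coe_ι, map_pow]
  have hGr : N.R'.red G = 1 := by
    rw [hG, map_add, map_one, map_mul, map_pow, RedBase.red_ι, X.π_ϖ, map_zero,
      zero_pow (by omega), zero_mul, add_zero]
  obtain ⟨c₂, ψ, hc₂r, hψF, hG2⟩ := N.exists_normal_form hp hpk hH hGF hGr
  obtain ⟨z', hz'⟩ := exists_one_add_pow hp hpW' ψ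
  -- constants divisible by `ϖ ^ l` in `O` are divisible in `A`
  have hdiv : ∀ (a : A) (n : ℕ) (x : N.R'.O), ι a = ι X.ϖ ^ n * x → ∃ a' : A, x = ι a' := by
    intro a n x hax
    have hx : (x : F') = algebraMap K F' ((a : K) / (X.ϖ : K) ^ n) * ((1 : N.R'.O) : F') := by
      have := congrArg Subtype.val hax
      rw [Subring.coe_mul, SubmonoidClass.coe_pow, RedBase.coe_ι, RedBase.coe_ι, ← map_pow] at this
      rw [Subring.coe_one, mul_one, map_div₀,
        eq_div_iff ((map_ne_zero _).mpr (pow_ne_zero _ X.ϖ_ne)), this, mul_comm]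
    exact ⟨⟨_, N.R'.mem_of_smul_mem (u := 1) (by rw [map_one]; exact one_ne_zero) hx⟩,
      Subtype.ext (by rw [hx, Subring.coe_one, mul_one, RedBase.coe_ι])⟩
  have key : ι X.ϖ ^ l * χ = ι (c₂ - 1) + ι c₂ * (ι X.ϖ ^ p * (ψ ^ p + ι X.ϖ * (ψ * z'))) := by
    have : 1 + ι X.ϖ ^ l * χ = ι c₂ * (1 + ι X.ϖ * ψ) ^ p := by rw [← hG, hG2]
    rw [hz'] at this
    rw [map_sub, map_one]
    linear_combination this
  rcases lt_trichotomy l p with hlt | rfl | hgt
  · -- below `p`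
    obtain ⟨e, he⟩ : ∃ e, p = l + (e + 1) := ⟨p - l - 1, by omega⟩
    have hϖe : ι X.ϖ ^ p = ι X.ϖ ^ l * (ι X.ϖ * ι X.ϖ ^ e) := by
      rw [← pow_succ', ← pow_add, ← he]
    obtain ⟨a', ha'⟩ := hdiv (c₂ - 1) l
      (χ - ι c₂ * (ι X.ϖ * ι X.ϖ ^ e) * (ψ ^ p + ι X.ϖ * (ψ * z')))
      (by rw [hϖe] at key; linear_combination -key)
    refine ⟨π a', 0, ?_, fun _ => rfl⟩
    have := congrArg N.R'.red ha'
    simp only [map_sub, map_mul, RedBase.red_ι, X.π_ϖ, map_zero, zero_mul, mul_zero, sub_zero, hι]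
      at this
    rw [this, zero_pow hp.ne_zero, add_zero]
  · -- at `p`
    obtain ⟨a', ha'⟩ := hdiv (c₂ - 1) l (χ - ι c₂ * (ψ ^ l + ι X.ϖ * (ψ * z')))
      (by linear_combination -key)
    refine ⟨π a', N.R'.red ψ, ?_, fun h => absurd rfl h⟩
    have := congrArg N.R'.red ha'
    simp only [map_sub, map_add, map_mul, map_pow, RedBase.red_ι, X.π_ϖ, hc₂r, map_one, one_mul,
      map_zero, zero_mul, add_zero, hι] at this
    rw [sub_eq_iff_eq_add] at this
    exact this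
  · -- at `p + 1`
    obtain rfl : l = p + 1 := by omega
    obtain ⟨a', ha'⟩ := hdiv (c₂ - 1) p (ι X.ϖ * χ - ι c₂ * (ψ ^ p + ι X.ϖ * (ψ * z')))
      (by linear_combination -key)
    obtain ⟨β₁, hβ₁⟩ := exists_const_root (p := p) hp N.R'.surj_pi (x := N.R'.red ψ)
      (a := -π a') (by
      have := congrArg N.R'.red ha'
      simp only [map_sub, map_add, map_mul, map_pow, RedBase.red_ι, X.π_ϖ, hc₂r, map_one, one_mul,
        map_zero, zero_mul, add_zero, zero_sub, hι] at this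
      rw [map_neg, ← this, neg_neg])
    obtain ⟨b₁, hb₁, hb₁π⟩ := X.ratData.lift β₁
    obtain ⟨ψ', -, hψ'⟩ := N.exists_eq_ϖ_mul (v := ψ - ι b₁) (by
        rw [AddSubgroupClass.coe_sub, RedBase.coe_ι]
        exact sub_mem hψF (N.const_mem _ hb₁))
      (by rw [map_sub, RedBase.red_ι, hb₁π, hβ₁, sub_self])
    have hu1 : π (1 + X.ϖ * b₁) ≠ 0 := by
      rw [map_add, map_mul, X.π_ϖ, zero_mul, map_one, add_zero]; exact one_ne_zero
    have huK : ((1 + X.ϖ * b₁ : A) : K) ≠ 0 := fun h0 => hu1 (by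
      rw [show (1 + X.ϖ * b₁ : A) = 0 from Subtype.ext h0, map_zero])
    set ui : A := ⟨((1 + X.ϖ * b₁ : A) : K)⁻¹, inv_mem_of_pi_ne_zero N.R'.surj_pi hu1⟩
    have huu : (1 + X.ϖ * b₁) * ui = 1 := Subtype.ext (mul_inv_cancel₀ huK)
    set z : N.R'.O := ι ui * ψ' with hz
    have hfac : 1 + ι X.ϖ * ψ = ι (1 + X.ϖ * b₁) * (1 + ι X.ϖ * (ι X.ϖ * z)) := by
      have h1 : ι (1 + X.ϖ * b₁) * ι ui = 1 := by rw [← map_mul, huu, map_one]
      have h2 : ψ = ι b₁ + ι X.ϖ * ψ' := by rw [← hψ']; ring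
      rw [mul_add, mul_one, hz,
        show ι (1 + X.ϖ * b₁) * (ι X.ϖ * (ι X.ϖ * (ι ui * ψ'))) =
          ι (1 + X.ϖ * b₁) * ι ui * (ι X.ϖ * (ι X.ϖ * ψ')) by ring,
        h1, one_mul, map_add, map_one, map_mul, h2]
      ring
    obtain ⟨z'', hz''⟩ := exists_one_add_pow hp hpW' (ι X.ϖ * z)
    set c₃ : A := c₂ * (1 + X.ϖ * b₁) ^ p with hc₃
    obtain ⟨q, hq⟩ : ∃ q, p = q + 2 := ⟨p - 2, by have := hp.two_le; omega⟩
    set R : N.R'.O := ι X.ϖ ^ q * z ^ p + z * z'' with hR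
    have hpow : (1 + ι X.ϖ * (ι X.ϖ * z)) ^ p = 1 + ι X.ϖ ^ (p + 1) * (ι X.ϖ * R) := by
      have e2 : (ι X.ϖ * z) ^ p = ι X.ϖ * ι X.ϖ * (ι X.ϖ ^ q * z ^ p) := by
        rw [mul_pow, ← pow_two, ← mul_assoc, ← pow_add, show 2 + q = p by omega]
      rw [hz'', e2, hR, pow_succ]
      ring
    have key' : ι X.ϖ ^ (p + 1) * χ = ι (c₃ - 1) + ι c₃ * (ι X.ϖ ^ (p + 1) * (ι X.ϖ * R)) := by
      have : 1 + ι X.ϖ ^ (p + 1) * χ = ι c₃ * (1 + ι X.ϖ * (ι X.ϖ * z)) ^ p := by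
        rw [← hG, hG2, hc₃, hfac, mul_pow, map_mul ι c₂, map_pow ι (1 + X.ϖ * b₁), mul_assoc]
      rw [hpow] at this
      rw [map_sub, map_one]
      linear_combination this
    obtain ⟨a₃, ha₃⟩ := hdiv (c₃ - 1) (p + 1) (χ - ι c₃ * (ι X.ϖ * R))
      (by linear_combination -key')
    refine ⟨π a₃, 0, ?_, fun _ => rfl⟩
    have := congrArg N.R'.red ha₃
    simp only [map_sub, map_mul, RedBase.red_ι, X.π_ϖ, map_zero, zero_mul, mul_zero, sub_zero, hι]
      at this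
    rw [this, zero_pow hp.ne_zero, add_zero]

end NormSide

end Fermat.Agent.LoweringAtP
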