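import Fermat.Agent.TwoComponent.Approx

/-!
# Bounds on one component

For a function with poles only at the poles of `x`, the reduction on either component, after
scaling, has no poles away from the nodes beyond those allowed by the poles of `x`.
-/

noncomputable section

open AlgebraicCurve Fermat.Agent.Red Fermat.Agent.TwoComponent

namespace Fermat.Agent.LoweringAtP

variable {K k F Fk : Type*} [Field K] [Field F] [Algebra K F] [Field k] [Field Fk] [Algebra k Fk]
variable {A : ValuationSubring K} {π : A →+* k} {S : Type*} [Fintype S]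
variable (T : TwoRed A π F Fk S)

/-- For large `n`, some function in `L(n Gk_i - D)` is not in `L(n Gk_i - D - Q)`. -/
theorem exists_mem_notMem_sub_single (i : Bool) (D : Divisor k Fk) (Q : Place k Fk) :
    ∃ n₀ : ℕ, ∀ n, n₀ ≤ n → ∃ f ∈ riemannRochSpace (n • T.Gk i - D),
      f ∉ riemannRochSpace (n • T.Gk i - D - Finsupp.single Q 1) := by
  refine ⟨(2 * (T.gk : ℤ) + 1 + Divisor.degree D).toNat, fun n hn => ?_⟩
  by_contra hcon
  push Not at hcon
  have hd := T.degree_Gk_pos i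
  have h0 : (n : ℤ) ≤ n * Divisor.degree (T.Gk i) :=
    le_mul_of_one_le_right (Int.natCast_nonneg n) hd
  have hdeg : Divisor.degree (n • T.Gk i - D) = n * Divisor.degree (T.Gk i) - Divisor.degree D := by
    rw [map_sub, map_nsmul, nsmul_eq_mul]
  have hdeg' : Divisor.degree (n • T.Gk i - D - Finsupp.single Q 1)
      = n * Divisor.degree (T.Gk i) - Divisor.degree D - 1 := by
    rw [map_sub, hdeg, Divisor.degree_single, T.rrK.deg_one]; simp
  have h1 := T.rrK.ell_eq_of_large (D := n • T.Gk i - D) (by omega)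
  have h2 := T.rrK.ell_eq_of_large (D := n • T.Gk i - D - Finsupp.single Q 1) (by omega)
  have h3 := T.rrK.ell_mono (D := n • T.Gk i - D)
    (E := n • T.Gk i - D - Finsupp.single Q 1) hcon
  omega

/-- An element of `L(D)` outside `L(D - Q)` has order exactly `-D Q` at `Q`. -/
theorem ord_eq_of_notMem_sub_single {D : Divisor k Fk} {Q : Place k Fk} {f : Fk}
    (hf : f ∈ riemannRochSpace D) (hne : f ∉ riemannRochSpace (D - Finsupp.single Q 1)) :
    f ≠ 0 ∧ Q.ord f = -D Q := by
  have hf0 : f ≠ 0 := fun h => hne (h ▸ zero_mem _)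
  refine ⟨hf0, ?_⟩
  have h1 := ((mem_riemannRochSpace_iff.mp hf) Q).resolve_left hf0
  by_contra h
  refine hne (mem_riemannRochSpace_iff.mpr fun R => Or.inr ?_)
  have h2 := ((mem_riemannRochSpace_iff.mp hf) R).resolve_left hf0
  rw [Finsupp.sub_apply]
  rcases eq_or_ne R Q with rfl | hR
  · rw [Finsupp.single_eq_same]; omega
  · rw [Finsupp.single_eq_of_ne hR]; omega

/-- A test function: zero on one component, exact order at a given smooth point of the other. -/
theorem exists_test (i : Bool) {Q : Place k Fk} (hQ : ∀ s, T.br s i ≠ Q) :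
    ∃ (l : ℕ) (h : F), h ∈ riemannRochSpace (l • T.G) ∧ ∀ j, ∃ v : (T.R j).O,
      (v : F) = h ∧ ((j ≠ i ∧ (T.R j).red v = 0) ∨
        (j = i ∧ (T.R j).red v ≠ 0 ∧ Q.ord ((T.R j).red v) = -((l : ℤ) * T.Gk i Q))) := by
  classical
  obtain ⟨n₀, hn₀⟩ := exists_mem_notMem_sub_single T i (T.brDiv i) Q
  set l := max n₀ T.bigN with hl
  obtain ⟨δ, hδ, hne⟩ := hn₀ l (le_max_left _ _)
  obtain ⟨hδ0, hord⟩ := ord_eq_of_notMem_sub_single hδ hne
  have hδ' : δ ∈ riemannRochSpace (l • T.Gk i) := RR.space_mono (fun R => by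
    rw [Finsupp.sub_apply]; have := T.brDiv_nonneg i R; omega) hδ
  have hbr : ∀ s, ev (T.br s i) δ = 0 := fun s => by
    refine (ev_eq_zero_iff (T.deg_br s i) (TwoRed.mem_of_space hδ' (T.nsmul_Gk_br l s i))).mpr
      (Or.inr ?_)
    have := ((mem_riemannRochSpace_iff.mp hδ) (T.br s i)).resolve_left hδ0
    rw [Finsupp.sub_apply, T.nsmul_Gk_br, T.brDiv_br] at this
    omega
  set w : Bool → Fk := fun j => if j = i then δ else 0 with hw
  have hwg : w ∈ T.glued (fun j => l • T.Gk j) 1 := by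
    refine ⟨fun j => ?_, fun s j => ?_, fun s => ?_⟩
    · by_cases hj : j = i
      · subst hj; simpa [hw] using hδ'
      · simp [hw, hj]
    · by_cases hj : j = i
      · subst hj; simpa [hw] using TwoRed.mem_of_space hδ' (T.nsmul_Gk_br l s j)
      · simp [hw, hj]
    · cases i <;> simp [hw, hbr, ev_zero (T.deg_br s _)]
  obtain ⟨h, hh, hv⟩ := T.exists_lift (le_max_right _ _) hwg
  refine ⟨l, h, hh, fun j => ?_⟩
  obtain ⟨v, hv1, hv2⟩ := hv j
  refine ⟨v, hv1, ?_⟩
  by_cases hj : j = i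
  · subst hj
    refine Or.inr ⟨rfl, ?_, ?_⟩
    · simpa [hv2, hw] using hδ0
    · rw [hv2]
      simp only [hw, if_true, hord, Finsupp.sub_apply, Finsupp.smul_apply, nsmul_eq_mul,
        T.brDiv_other j hQ, sub_zero]
  · exact Or.inl ⟨hj, by simp [hv2, hw, hj]⟩

/-- Powers of a function vanishing on a component absorb any constant. -/
theorem exists_smul_pow_mem {i : Bool} {v : (T.R i).O} (hv : (T.R i).red v = 0) (c : K) (u : F)
    (hu : u ∈ (T.R i).O) :
    ∃ N₀ : ℕ, ∀ N, N₀ ≤ N → algebraMap K F c * u * (v : F) ^ N ∈ (T.R i).O := by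
  rcases eq_or_ne (v : F) 0 with h0 | h0
  · refine ⟨1, fun N hN => ?_⟩
    rw [h0, zero_pow (by omega), mul_zero]
    exact zero_mem _
  obtain ⟨a, w, hw, he⟩ := (T.R i).exists_scale_mem h0
  have hπ : π a = 0 := by
    rw [he, map_mul, RedBase.red_ι, mul_eq_zero] at hv
    exact (map_eq_zero (algebraMap k Fk)).mp (hv.resolve_right hw)
  obtain ⟨b, hb0, hcb⟩ : ∃ b : A, b ≠ 0 ∧ c * (b : K) ∈ A := by
    rcases A.mem_or_inv_mem c with hc | hc
    · exact ⟨1, one_ne_zero, by simpa using hc⟩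
    · rcases eq_or_ne c 0 with rfl | hc0
      · exact ⟨1, one_ne_zero, by simp⟩
      · exact ⟨⟨c⁻¹, hc⟩, fun h => inv_ne_zero hc0 (congrArg Subtype.val h),
          by simp [mul_inv_cancel₀ hc0]⟩
  obtain ⟨N₀, d, hd⟩ := T.arch a b hπ hb0
  refine ⟨N₀, fun N hN => ?_⟩
  have hd' : (a : K) ^ N₀ = (d : K) * b := congrArg Subtype.val hd
  have hF : algebraMap K F c * u * (v : F) ^ N =
      algebraMap K F ((c * (b : K)) * d * (a : K) ^ (N - N₀)) * u * (w : F) ^ N := by
    have hpow : (a : K) ^ N = (d : K) * b * (a : K) ^ (N - N₀) := by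
      rw [← hd', ← pow_add, Nat.add_sub_cancel' hN]
    rw [he, Subring.coe_mul, RedBase.coe_ι, mul_pow, ← map_pow, hpow]
    simp only [map_mul, map_pow]
    ring
  rw [hF]
  exact mul_mem (mul_mem ((T.R i).algebraMap_mem
    ⟨_, mul_mem (mul_mem hcb d.2) (pow_mem a.2 _)⟩) hu) (pow_mem w.2 _)

/-- **Bound on one component**, for any scaling. -/
theorem side_bound {n : ℕ} {u : F} (hu : u ∈ riemannRochSpace (n • T.G)) {i : Bool} {c : K}
    (hc : c ≠ 0) {v : (T.R i).O} (hv : algebraMap K F c * (v : F) = u)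
    (hv0 : (T.R i).red v ≠ 0) {Q : Place k Fk} (hQ : ∀ s, T.br s i ≠ Q) :
    -((n : ℤ) * T.Gk i Q) ≤ Q.ord ((T.R i).red v) := by
  rcases eq_or_ne u 0 with rfl | hu0
  · exact absurd ((mul_eq_zero.mp hv).resolve_left ((map_ne_zero _).mpr hc))
      ((T.R i).coe_ne_zero hv0)
  obtain ⟨l, h, hh, ht⟩ := exists_test T i hQ
  obtain ⟨vi, hvi, hti⟩ := ht i
  obtain ⟨hti0, htio⟩ := (hti.resolve_left fun h => h.1 rfl).2
  obtain ⟨vo, hvo, hto⟩ := ht (!i)
  have hvo0 := (hto.resolve_right fun h => by simpa using h.1).2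
  obtain ⟨co, wo, hwo, huo⟩ := (T.R (!i)).scale u hu0
  obtain ⟨N, hN⟩ := exists_smul_pow_mem T hvo0 (c⁻¹ * co) (wo : F) wo.2
  set Z := algebraMap K F c⁻¹ * u * h ^ N with hZ
  have hZL : Z ∈ riemannRochSpace ((n + N * l) • T.G) := by
    have h1 := T.mem_space_mul (D := 0) (by rwa [zero_add]) (T.mem_space_pow hh N) (y := u)
    rw [zero_add] at h1
    rw [hZ, mul_assoc, ← Algebra.smul_def]
    exact Submodule.smul_mem _ _ h1
  have hmem : ∀ j, Z ∈ (T.R j).O := by
    intro j
    by_cases hj : j = i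
    · subst hj
      rw [hZ, ← hv, ← mul_assoc, ← map_mul, inv_mul_cancel₀ hc, map_one, one_mul, ← hvi]
      exact mul_mem v.2 (pow_mem vi.2 N)
    · have : j = !i := by cases i <;> cases j <;> simp_all
      subst this
      rw [hZ, huo, ← hvo, ← mul_assoc, ← map_mul]
      exact hN N le_rfl
  have hb := (T.bound _ Z hZL hmem).1 i
  have hred : (T.R i).red ⟨Z, hmem i⟩ = (T.R i).red v * (T.R i).red vi ^ N := by
    rw [← map_pow, ← map_mul]
    refine congrArg _ (Subtype.ext ?_)
    rw [Subring.coe_mul, SubmonoidClass.coe_pow, hvi]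
    show Z = _
    rw [hZ, ← hv, ← mul_assoc, ← map_mul, inv_mul_cancel₀ hc, map_one, one_mul]
  rw [hred] at hb
  have h2 := ((mem_riemannRochSpace_iff.mp hb) Q).resolve_left
    (mul_ne_zero hv0 (pow_ne_zero _ hti0))
  rw [Q.ord_mul hv0 (pow_ne_zero _ hti0), Red.ord_pow, htio, Finsupp.smul_apply, nsmul_eq_mul] at h2
  push_cast at h2
  linarith

end Fermat.Agent.LoweringAtP
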