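import Fermat.Agent.LoweringAtP.Der

/-!
# The slopes are congruent modulo `p`

For torsion data rational over `K₀(ϖ)` with `f = γ₀ u₀ = γ₀ ϖ ^ (p C) u₁`, the logarithmic first
coefficients of `u₀`, `u₁` are constants `c₀`, `c₁`, and `c₀ = c₁ + a E` for every slope `a`, where
`E = a₁ / a₀` comes from the Eisenstein equation.
-/

noncomputable section

open AlgebraicCurve Fermat.Agent.Red Fermat.Agent.TwoComponent

namespace Fermat.Agent.LoweringAtP.EisData

variable {K k F Fk : Type*} [Field K] [Field F] [Algebra K F] [Field k] [Field Fk] [Algebra k Fk]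
variable {A : ValuationSubring K} {π : A →+* k} {S : Type*} [Fintype S]
variable {T : TwoRed A π F Fk S} {Ud : UnitData T} {Q₀ : RatData Ud} {p : ℕ}
variable (X : EisData Q₀ p)

/-- The first coefficient of the Eisenstein unit. -/
def E : k := π (X.a ⟨1, X.two_le⟩) / π (X.a ⟨0, X.p_pos⟩)

theorem hasLog_δ (i : Bool) : X.HasLog i ((T.R i).ι X.δ) (algebraMap k Fk X.E) := by
  refine ⟨?_, ?_, ?_⟩
  · rw [RedBase.red_ι]; exact (map_ne_zero _).mpr X.π_δ_ne
  · have h : (X.δ : K) = ∑ j, (X.a j : K) * (X.ϖ : K) ^ (j : ℕ) := by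
      simp [δ, AddSubmonoidClass.coe_finsetSum]
    rw [RedBase.coe_ι, h, map_sum]
    refine sum_mem fun j _ => ?_
    rw [map_mul, map_pow]
    exact mul_mem (X.mem_field_of_rat (Q₀.const_mem _ (X.a_mem j))) (pow_mem X.ϖ_mem_field _)
  · convert X.hasDer_δ i using 1
    rw [RedBase.red_ι, ← map_mul, E, ← X.π_δ, div_mul_cancel₀ _ X.π_δ_ne]

/-- The powers of `δ`, with their logarithmic first coefficients. -/
theorem exists_δ_zpow (i : Bool) (l : ℤ) :
    ∃ t : (T.R i).O, (t : F) = algebraMap K F ((X.δ : K) ^ l) ∧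
      (∀ Q : Place k Fk, Q.ord ((T.R i).red t) = 0) ∧
      X.HasLog i t (algebraMap k Fk ((l : k) * X.E)) := by
  set u := (T.R i).ι X.δ with hu
  set w := (T.R i).ι X.ε with hw
  have huw : u * w = 1 := by
    rw [hu, hw, ← map_mul, show X.δ * X.ε = 1 from Subtype.ext (mul_inv_cancel₀ X.δ_ne), map_one]
  have h1 := X.hasLog_δ i
  have h2 := X.hasLog_inv h1 huw
  have hord : ∀ (a : A) (n : ℕ) (Q : Place k Fk), Q.ord ((T.R i).red ((T.R i).ι a ^ n)) = 0 :=
    fun a n Q => by rw [map_pow, RedBase.red_ι, ← map_pow, ord_algebraMap]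
  rcases Int.eq_nat_or_neg l with ⟨n, rfl | rfl⟩
  · refine ⟨u ^ n, ?_, hord _ n, ?_⟩
    · rw [SubmonoidClass.coe_pow, hu, RedBase.coe_ι, zpow_natCast, map_pow]
    · convert X.hasLog_pow h1 n using 1
      simp [map_mul]
  · refine ⟨w ^ n, ?_, hord _ n, ?_⟩
    · rw [SubmonoidClass.coe_pow, hw, RedBase.coe_ι, zpow_neg, zpow_natCast, ← inv_pow, map_pow]
      rfl
    · convert X.hasLog_pow h2 n using 1
      simp [map_mul]

/-- The weighted data of slope `l` attached to `f`, with the logarithmic first coefficients. -/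
theorem exists_wData [IsAlgClosed K] (hp : (p : k) = 0)
    {D : Divisor K F} (hD : X.ratData.Spans D)
    (hdeg : Divisor.degree D = 0) {f : F} (hf : f ≠ 0)
    (hdiv : ∀ P : Place K F, P.ord f = (p : ℤ) * D P) {γ₀ : K} (hγ₀ : γ₀ ≠ 0) {C : ℤ}
    {u : ∀ i, (T.R i).O} (hu : ∀ i, (T.R i).red (u i) ≠ 0)
    (h0 : algebraMap K F γ₀ * (u false : F) = f)
    (h1 : algebraMap K F (γ₀ * (X.ϖ : K) ^ ((p : ℤ) * C)) * (u true : F) = f)
    {g : Bool → Fk} (hg : ∀ i, X.HasLog i (u i) (g i)) (l : ℤ) :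
    ∃ (d : WData Ud p D l) (g' : Bool → Fk),
      (∀ i, X.HasLog i (d.e i) (g' i)) ∧ g' false = g false ∧
      g' true = g true + algebraMap k Fk ((l : k) * X.E) ∧
      (∀ i Q, d.a i Q = Q.ord ((T.R i).red (u i))) ∧
      (∀ {n : ℕ} {w : Bool → Fk},
        w ∈ pairImage T.R d.c (riemannRochSpace (D + n • T.G)) →
        ∃ (v : ∀ i, (T.R i).O) (Y : F), Y ∈ riemannRochSpace ((p * n) • T.G) ∧
          (v false : F) = Y ∧ algebraMap K F ((Ud.η : K) ^ l) * (v true : F) = Y ∧
          (∀ j, (T.R j).red (v j) = (T.R j).red (d.e j) * w j ^ p) ∧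
          (∀ j, w j ≠ 0 → X.HasLog j (v j) (g' j))) := by
  have hp0 := X.p_pos
  obtain ⟨c0, hc0⟩ := IsAlgClosed.exists_pow_nat_eq γ₀⁻¹ hp0
  have hc00 : c0 ≠ 0 := fun h => inv_ne_zero hγ₀ (by rw [← hc0, h, zero_pow hp0.ne'])
  obtain ⟨t, ht, hto, htl⟩ := X.exists_δ_zpow true l
  let d : WData Ud p D l :=
    { f := f, f_ne := hf, div_f := hdiv, degree_D := hdeg
      c := fun i => c0 * X.ratData.cw (l - C) i
      c_ne := fun i => mul_ne_zero hc00 (X.ratData.cw_ne _ i)
      e := fun i => match i with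
        | false => u false
        | true => t * u true
      e_eq := fun i => by
        cases i
        · simp only [UnitData.wt, RatData.cw, cond_false, map_one, one_mul, mul_one, ← map_pow]
          rw [hc0, ← h0, ← mul_assoc, ← map_mul, inv_mul_cancel₀ hγ₀, map_one, one_mul]
        · simp only [UnitData.wt, RatData.cw, cond_true, ← map_pow]
          rw [mul_pow, hc0, ← h1, Subring.coe_mul, ht, ← mul_assoc, ← mul_assoc, ← map_mul,
            ← map_mul]
          congr 2
          show _ = γ₀⁻¹ * ((X.ϖ : K) ^ (l - C)) ^ p * (γ₀ * (X.ϖ : K) ^ ((p : ℤ) * C))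
          rw [mul_mul_mul_comm, inv_mul_cancel₀ hγ₀, one_mul, ← zpow_natCast _ p, ← zpow_mul,
            ← zpow_add₀ X.ϖ_ne, ← mul_zpow]
          rw [show (Ud.η : K) * (X.δ : K) = (X.ϖ : K) ^ (p : ℤ) by
            rw [zpow_natCast]; exact (congrArg Subtype.val X.ϖ_pow).symm, ← zpow_mul]
          congr 1
          ring
      e_ne := fun i => by
        cases i
        · exact hu false
        · show (T.R true).red (t * u true) ≠ 0
          rw [map_mul]; exact mul_ne_zero htl.1 (hu true) }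
  let g' : Bool → Fk := fun i => match i with
    | false => g false
    | true => g true + algebraMap k Fk ((l : k) * X.E)
  have hlog : ∀ i, X.HasLog i (d.e i) (g' i) := fun i => by
    cases i
    · exact hg false
    · show X.HasLog true (t * u true) (g true + _)
      rw [add_comm]
      exact X.hasLog_mul htl (hg true)
  refine ⟨d, g', hlog, rfl, rfl, fun i Q => ?_, fun {n w} hw => ?_⟩
  · cases i
    · rfl
    · show Q.ord ((T.R true).red (t * u true)) = _
      rw [map_mul, Q.ord_mul htl.1 (hu true), hto, zero_add]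
  change w ∈ pairImage T.R (fun i => c0 * X.ratData.cw (l - C) i) _ at hw
  rw [pairImage_smul hc00] at hw
  have := T.rrF.finiteDim (D + n • T.G)
  rw [← X.ratData.ratPairs_eq (hD n)] at hw
  obtain ⟨y, hy, hyF, hyv⟩ := hw
  choose v hv hvr using hyv
  have hvF : ∀ j, (v j : F) ∈ X.field := fun j => by
    have hne : algebraMap K F (X.ratData.cw (l - C) j) ≠ 0 :=
      (map_ne_zero _).mpr (X.ratData.cw_ne _ j)
    rw [eq_inv_mul_iff_mul_eq₀ hne |>.mpr (hv j)]
    refine mul_mem (inv_mem ?_) hyF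
    cases j
    · simp [RatData.cw]
    · exact X.ratData.zpow_mem_K₀ _
  refine ⟨fun j => d.e j * v j ^ p, algebraMap K F γ₀⁻¹ * (f * y ^ p), ?_, ?_, ?_, ?_, ?_⟩
  · rw [← Algebra.smul_def]
    exact Submodule.smul_mem _ _ (d.pow_mem_space hp0 hy)
  · rw [Subring.coe_mul, SubmonoidClass.coe_pow]
    show (u false : F) * _ = _
    rw [show (v false : F) = y by simpa [RatData.cw] using hv false, ← h0, ← mul_assoc,
      ← mul_assoc, ← map_mul, inv_mul_cancel₀ hγ₀, map_one, one_mul]
  · rw [Subring.coe_mul, SubmonoidClass.coe_pow, ← mul_assoc,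
      show algebraMap K F ((Ud.η : K) ^ l) = algebraMap K F (Ud.wt l true) from rfl, d.e_eq]
    show algebraMap K F (c0 * X.ratData.cw (l - C) true) ^ p * f * _ = _
    rw [map_mul, mul_pow, ← map_pow _ c0, hc0, ← hv true]
    ring
  · intro j
    rw [map_mul, map_pow, hvr]
  · intro j hwj
    obtain ⟨g₁, hg₁⟩ := X.exists_hasLog (hvF j) (hvr j ▸ hwj)
    have := X.hasLog_mul (hlog j) (X.hasLog_pow hg₁ p)
    rwa [← map_natCast (algebraMap k Fk) p, hp, map_zero, zero_mul, add_zero] at this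

/-- **The congruence of the slopes**: the logarithmic first coefficients are constants, differing by
`E` times the slope at every node. -/
theorem exists_const_hasLog [IsAlgClosed K] (hp : (p : k) = 0) (h00 : Q₀.Spans 0)
    {D : Divisor K F} (hD : X.ratData.Spans D)
    (hdeg : Divisor.degree D = 0) {f : F} (hf : f ≠ 0)
    (hdiv : ∀ P : Place K F, P.ord f = (p : ℤ) * D P) {γ₀ : K} (hγ₀ : γ₀ ≠ 0) {C : ℤ}
    {u : ∀ i, (T.R i).O} (hu : ∀ i, (T.R i).red (u i) ≠ 0) (huF : ∀ i, (u i : F) ∈ X.field)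
    (h0 : algebraMap K F γ₀ * (u false : F) = f)
    (h1 : algebraMap K F (γ₀ * (X.ϖ : K) ^ ((p : ℤ) * C)) * (u true : F) = f) :
    ∃ c : Bool → k, (∀ i, X.HasLog i (u i) (algebraMap k Fk (c i))) ∧
      ∀ s, c false = c true + ((T.br s false).ord ((T.R false).red (u false)) : k) * X.E := by
  classical
  have hp0 := X.p_pos
  choose g hg using fun i => X.exists_hasLog (huF i) (hu i)
  have key := X.exists_wData hp hD hdeg hf hdiv hγ₀ hu h0 h1 hg
  -- the nodes
  have hnode : ∀ s, g false ∈ (T.br s false).toValuationSubring ∧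
      g true ∈ (T.br s true).toValuationSubring ∧
      ev (T.br s false) (g false) = ev (T.br s true) (g true) +
        ((T.br s false).ord ((T.R false).red (u false)) : k) * X.E := by
    intro s
    set l := (T.br s false).ord ((T.R false).red (u false)) with hl
    obtain ⟨d, g', hlog, hg0, hg1, hda, hlift⟩ := key l
    have hs : s ∈ d.J := d.mem_J_of_dvd hp0 (i := false)
      (by rw [hda, ← hl, sgn_false, one_mul, sub_self]; exact dvd_zero _)
    obtain ⟨w, hw, hex⟩ := d.exists_exact hp0 le_rfl hs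
    obtain ⟨v, Y, hY, hv0, hv1, hvr, hvlog⟩ := hlift hw
    obtain ⟨hreg, hev⟩ := X.der_node h00 X.η_mem hY v g' hv0 hv1
      (fun i => hvlog i (hex i).1) (s := s) fun i => by
        rw [hvr, (T.br s i).ord_mul (d.e_ne i) (pow_ne_zero _ (hex i).1), Red.ord_pow]
        exact (hex i).2
    have hc : ∀ a : k, algebraMap k Fk a ∈ (T.br s true).toValuationSubring :=
      (T.br s true).algebraMap_mem'
    have hgt : g true ∈ (T.br s true).toValuationSubring := by
      have := sub_mem (hreg true) (hc ((l : k) * X.E))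
      rwa [hg1, add_sub_cancel_right] at this
    refine ⟨hg0 ▸ hreg false, hgt, ?_⟩
    rwa [hg0, hg1, ev_add (T.deg_br s true) hgt (hc _), ev_algebraMap (T.deg_br s true)] at hev
  -- away from the nodes
  have hreg : ∀ i (Q : Place k Fk), 0 ≤ Q.ord (g i) := by
    intro i Q
    by_cases hQ : ∃ s, T.br s i = Q
    · obtain ⟨s, rfl⟩ := hQ
      cases i
      · exact (mem_place_iff _).mp (hnode s).1
      · exact (mem_place_iff _).mp (hnode s).2.1
    push Not at hQ
    obtain ⟨d, g', hlog, hg0, hg1, hda, hlift⟩ := key 0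
    have hgg : g' i = g i := by
      cases i
      · exact hg0
      · rw [hg1, Int.cast_zero, zero_mul, map_zero, add_zero]
    obtain ⟨n₀, -, hn₀⟩ := d.exists_exact_off hp0 (i := i) hQ
    obtain ⟨w, hw, hwi, hwo⟩ := hn₀ n₀ le_rfl
    obtain ⟨v, Y, hY, hv0, hv1, hvr, hvlog⟩ := hlift hw
    have hvL : (v i : F) ∈ riemannRochSpace ((p * n₀) • T.G) := by
      cases i
      · rw [hv0]; exact hY
      · have hne : algebraMap K F ((Ud.η : K) ^ (0 : ℤ)) * (v true : F) = (v true : F) := by
          rw [zpow_zero, map_one, one_mul]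
        rwa [← hv1, hne] at hY
    have h := X.der_side_bound h00 hvL (hvlog i hwi) hQ (by
      obtain ⟨q, hq⟩ := (d.excess_eq_zero hp0).1 i Q hQ
      rw [hvr, Q.ord_mul (d.e_ne i) (pow_ne_zero _ hwi), Red.ord_pow, hwo]
      change d.a i Q + _ = _
      rw [hq, Int.mul_ediv_cancel_left _ (by exact_mod_cast hp0.ne')]
      push_cast
      ring)
    rw [hgg] at h
    rcases h with h | h
    · rw [h, ← map_zero (algebraMap k Fk), ord_algebraMap]
    · exact h
  choose c hc using fun i => T.rrK.eq_const_of_ord_nonneg (hreg i)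
  refine ⟨c, fun i => hc i ▸ hg i, fun s => ?_⟩
  have h := (hnode s).2.2
  rwa [hc, hc, ev_algebraMap (T.deg_br s false), ev_algebraMap (T.deg_br s true)] at h

end Fermat.Agent.LoweringAtP.EisData
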