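import Fermat.Agent.LoweringAtP.NormSide
import Fermat.Agent.TwoComponent.Depth.Norm

/-!
# The norm of `1 + a φ` to first order

In characteristic `p` the trace along a Frobenius map vanishes, so only the component mapped
isomorphically contributes to first order.
-/

noncomputable section

open AlgebraicCurve Fermat.Agent.Red Fermat.Agent.TwoComponent

namespace Fermat.Agent.LoweringAtP

variable {K k F Fk : Type*} [Field K] [Field F] [Algebra K F] [Field k] [Field Fk] [Algebra k Fk]
variable {A : ValuationSubring K} {π : A →+* k} {S : Type*} [Fintype S]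
variable {T : TwoRed A π F Fk S} {FM : Type*} [Field FM] [Algebra K FM]

/-- **The norm of `1 + a φ` to first order.** -/
theorem norm_first (G : Degen T FM) {p : ℕ} [Fact p.Prime] [CharP Fk p] (hq : G.q = p)
    (φ : ∀ j, (T.R j).O) (hφ : (φ (!G.side) : F) = φ G.side) {a : A} (ha : π a = 0) :
    letI := algebraAlong G.φ
    ∃ χ : G.RM.O, Algebra.norm FM (1 + algebraMap K F (a : K) * (φ G.side : F)) =
        1 + algebraMap K FM (a : K) * (χ : FM) ∧
      G.RM.red χ = (T.R G.side).red (φ G.side) := by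
  let := algebraAlong G.φ
  obtain ⟨tr, -, htr, hexp⟩ := G.exists_norm_expansion (hq.symm ▸ (Fact.out : p.Prime))
    ((algebraMap k Fk).injective (by rw [map_natCast, map_zero, hq, CharP.cast_eq_zero]))
    (φ G.side) (φ (!G.side)) rfl hφ
  obtain ⟨P, hP⟩ := hexp a
  refine ⟨tr + G.RM.ι a * P, ?_, ?_⟩
  · rw [hP]
    simp only [Subring.coe_add, Subring.coe_mul, Subring.coe_one, Subring.coe_pow, RedBase.coe_ι]
    ring
  · rw [map_add, map_mul, RedBase.red_ι, ha, map_zero, zero_mul, add_zero, htr]

/-- The norm along a degeneracy map is a `NormSide`. -/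
def NormSide.ofDegen {Ud : UnitData T} {Q₀ : RatData Ud} {p : ℕ} (X : EisData Q₀ p)
    [Fact p.Prime] [CharP Fk p] (G : Degen T FM) (hq : G.q = p) (F₁ : Subfield FM)
    (const_mem : ∀ a ∈ X.ratData.K₀, algebraMap K FM a ∈ F₁)
    (scale : ∀ u ∈ F₁, u ≠ 0 → ∃ (j : ℤ) (v : G.RM.O),
      G.RM.red v ≠ 0 ∧ algebraMap K FM ((X.ϖ : K) ^ j) * (v : FM) = u)
    (N_mem : ∀ g ∈ X.field, (letI := algebraAlong G.φ; Algebra.norm FM g) ∈ F₁) :
    NormSide X G.side FM where
  R' := G.RM
  F₁ := F₁
  const_mem := const_mem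
  scale := scale
  N := letI := algebraAlong G.φ; Algebra.norm FM
  N_ne g hg := (G.redOrd_norm hg).1
  N_mem := N_mem
  N_algebraMap a := by
    let := algebraAlong G.φ
    have := isScalarTower_along G.φ
    exact ⟨a ^ Module.finrank FM F, by
      rw [IsScalarTower.algebraMap_apply K FM F, Algebra.norm_algebraMap, map_pow]⟩
  N_first l hl _ g _ φ hg := by
    let := algebraAlong G.φ
    have hφ : (φ (!G.side) : F) = φ G.side :=
      mul_left_cancel₀ ((map_ne_zero (algebraMap K F)).mpr (pow_ne_zero l X.ϖ_ne))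
        (add_left_cancel ((hg (!G.side)).symm.trans (hg G.side)))
    obtain ⟨χ, h1, h2⟩ := norm_first G hq φ hφ (a := X.ϖ ^ l)
      (by rw [map_pow, X.π_ϖ, zero_pow (by omega)])
    refine ⟨χ, ?_, h2⟩
    rw [hg G.side]
    simpa only [SubmonoidClass.coe_pow] using h1

end Fermat.Agent.LoweringAtP
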